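import Fermat.Agent.S28.Core

/-!
# GR: the formal multiplicative Hecke operator on Laurent series

`Mop z ℓ Y = Y(q^ℓ) ∏_{i < ℓ} Y(z^i q^{1/ℓ})`, `z` a (primitive `ℓ`-th root of) unit(y).

`q ↦ z q` is `Fermat.Agent.S28.scale z`.
-/

set_option autoImplicit false

namespace Fermat.Agent.GR

open ModularCurve HahnSeries Fermat.Agent.S28 Fermat.Agent.S28.Core

section Basic

variable {R : Type*} [CommRing R]

/-- `∑ a_n q^n ↦ ∑ a_{ℓ n} q^n`. -/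
noncomputable def Uop (ℓ : ℕ) [NeZero ℓ] (Y : LaurentSeries R) : LaurentSeries R :=
  HahnSeries.ofSuppBddBelow (fun n => Y.coeff (ℓ * n)) (by
    have he : (0 : ℤ) < ℓ := by exact_mod_cast Nat.pos_of_ne_zero (NeZero.ne ℓ)
    by_cases hx : Y = 0
    · subst hx
      simp
    · refine ⟨Y.order / ℓ - 1, fun n hn => ?_⟩
      by_contra hlt
      apply hn
      apply HahnSeries.coeff_eq_zero_of_lt_order
      have h1 : n + 1 ≤ Y.order / ℓ := by omega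
      have h2 : (n + 1) * ℓ ≤ Y.order := (Int.le_ediv_iff_mul_le he).mp h1
      nlinarith)

@[simp] theorem Uop_coeff (ℓ : ℕ) [NeZero ℓ] (Y : LaurentSeries R) (n : ℤ) :
    (Uop ℓ Y).coeff n = Y.coeff (ℓ * n) := rfl

@[simp] theorem Uop_qExpand (ℓ : ℕ) [NeZero ℓ] (Y : LaurentSeries R) :
    Uop ℓ (qExpand R ℓ Y) = Y := by
  ext n
  rw [Uop_coeff, qExpand_coeff_mul]

theorem qExpand_Uop (ℓ : ℕ) [NeZero ℓ] (Y : LaurentSeries R)
    (h : ∀ n : ℤ, ¬ (ℓ : ℤ) ∣ n → Y.coeff n = 0) : qExpand R ℓ (Uop ℓ Y) = Y := by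
  obtain ⟨X, rfl⟩ := (mem_range_qExpand_iff ℓ Y).mpr h
  rw [Uop_qExpand]

/-- `∏_{i < ℓ} Y(z^i q)`. -/
noncomputable def Pop (z : Rˣ) (ℓ : ℕ) (Y : LaurentSeries R) : LaurentSeries R :=
  ∏ i ∈ Finset.range ℓ, scale (z ^ i) Y

/-- The multiplicative Hecke operator `Y ↦ Y(q^ℓ) ∏_{i < ℓ} Y(z^i q^{1/ℓ})`. -/
noncomputable def Mop (z : Rˣ) (ℓ : ℕ) [NeZero ℓ] (Y : LaurentSeries R) : LaurentSeries R :=
  qExpand R ℓ Y * Uop ℓ (Pop z ℓ Y)

theorem Pop_mul (z : Rˣ) (ℓ : ℕ) (X Y : LaurentSeries R) :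
    Pop z ℓ (X * Y) = Pop z ℓ X * Pop z ℓ Y := by
  simp only [Pop, map_mul, Finset.prod_mul_distrib]

theorem Pop_one (z : Rˣ) (ℓ : ℕ) : Pop z ℓ (1 : LaurentSeries R) = 1 := by
  simp only [Pop, map_one, Finset.prod_const_one]

theorem Pop_C (z : Rˣ) (ℓ : ℕ) (c : R) : Pop z ℓ (C c : LaurentSeries R) = C (c ^ ℓ) := by
  simp only [Pop, scale_C, Finset.prod_const, Finset.card_range, map_pow]

theorem Pop_one_left (ℓ : ℕ) (Y : LaurentSeries R) : Pop (1 : Rˣ) ℓ Y = Y ^ ℓ := by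
  simp only [Pop, one_pow, scale_one_apply, Finset.prod_const, Finset.card_range]

theorem scale_Pop (z : Rˣ) (ℓ : ℕ) (hz : z ^ ℓ = 1) (Y : LaurentSeries R) :
    scale z (Pop z ℓ Y) = Pop z ℓ Y := by
  rcases ℓ with _ | k
  · simp [Pop]
  · rw [Pop, map_prod]
    simp only [scale_scale, ← pow_succ']
    rw [Finset.prod_range_succ, Finset.prod_range_succ', hz, pow_zero]

theorem Pop_coeff_eq_zero [IsDomain R] {z : Rˣ} {ℓ : ℕ} (hz : IsPrimitiveRoot z ℓ)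
    (Y : LaurentSeries R) (n : ℤ) (hn : ¬ (ℓ : ℤ) ∣ n) : (Pop z ℓ Y).coeff n = 0 := by
  have h := congrArg (fun X => X.coeff n) (scale_Pop z ℓ hz.pow_eq_one Y)
  simp only [scale_coeff] at h
  have h1 : (((z ^ n : Rˣ) : R) - 1) * (Pop z ℓ Y).coeff n = 0 := by
    rw [sub_mul, h, one_mul, sub_self]
  rcases mul_eq_zero.mp h1 with h2 | h2
  · exfalso
    apply hn
    rw [← hz.zpow_eq_one_iff_dvd]
    exact Units.ext (by rw [Units.val_one]; exact sub_eq_zero.mp h2)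
  · exact h2

theorem qExpand_Uop_Pop [IsDomain R] {z : Rˣ} {ℓ : ℕ} [NeZero ℓ] (hz : IsPrimitiveRoot z ℓ)
    (Y : LaurentSeries R) : qExpand R ℓ (Uop ℓ (Pop z ℓ Y)) = Pop z ℓ Y :=
  qExpand_Uop ℓ _ (Pop_coeff_eq_zero hz Y)

theorem Uop_Pop_mul [IsDomain R] {z : Rˣ} {ℓ : ℕ} [NeZero ℓ] (hz : IsPrimitiveRoot z ℓ)
    (X Y : LaurentSeries R) :
    Uop ℓ (Pop z ℓ (X * Y)) = Uop ℓ (Pop z ℓ X) * Uop ℓ (Pop z ℓ Y) := by
  apply qExpand_injective (R := R) ℓ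
  rw [map_mul, qExpand_Uop_Pop hz, qExpand_Uop_Pop hz, qExpand_Uop_Pop hz, Pop_mul]

theorem Mop_mul [IsDomain R] {z : Rˣ} {ℓ : ℕ} [NeZero ℓ] (hz : IsPrimitiveRoot z ℓ)
    (X Y : LaurentSeries R) : Mop z ℓ (X * Y) = Mop z ℓ X * Mop z ℓ Y := by
  rw [Mop, Mop, Mop, map_mul, Uop_Pop_mul hz]
  ring

theorem Uop_C (ℓ : ℕ) [NeZero ℓ] (c : R) : Uop ℓ (C c : LaurentSeries R) = C c := by
  conv_lhs => rw [← qExpand_C (R := R) ℓ c]
  rw [Uop_qExpand]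

theorem Mop_C (z : Rˣ) (ℓ : ℕ) [NeZero ℓ] (c : R) :
    Mop z ℓ (C c : LaurentSeries R) = C (c ^ (ℓ + 1)) := by
  rw [Mop, Pop_C, Uop_C, qExpand_C, ← map_mul, pow_succ']

theorem Mop_one (z : Rˣ) (ℓ : ℕ) [NeZero ℓ] : Mop z ℓ (1 : LaurentSeries R) = 1 := by
  have := Mop_C z ℓ (1 : R)
  simpa using this

theorem Mop_pow [IsDomain R] {z : Rˣ} {ℓ : ℕ} [NeZero ℓ] (hz : IsPrimitiveRoot z ℓ)
    (X : LaurentSeries R) (m : ℕ) : Mop z ℓ (X ^ m) = Mop z ℓ X ^ m := by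
  induction m with
  | zero => simp [Mop_one]
  | succ k ih => rw [pow_succ, Mop_mul hz, ih, pow_succ]

/-- independence of the primitive root -/
theorem Pop_eq_of_isPrimitiveRoot [IsDomain R] {z z' : Rˣ} {ℓ : ℕ} [NeZero ℓ]
    (hz : IsPrimitiveRoot z ℓ) (hz' : IsPrimitiveRoot z' ℓ) (Y : LaurentSeries R) :
    Pop z ℓ Y = Pop z' ℓ Y := by
  classical
  have key : ∀ {w : Rˣ}, IsPrimitiveRoot w ℓ →
      Pop w ℓ Y = ∏ ξ ∈ (Finset.range ℓ).image (fun i => w ^ i), scale ξ Y := by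
    intro w hw
    rw [Finset.prod_image]
    · rfl
    · intro i hi j hj hij
      exact hw.pow_inj (Finset.mem_range.mp hi) (Finset.mem_range.mp hj) hij
  have himg : ∀ {w : Rˣ}, IsPrimitiveRoot w ℓ → ∀ ξ : Rˣ,
      ξ ∈ (Finset.range ℓ).image (fun i => w ^ i) ↔ ξ ^ ℓ = 1 := by
    intro w hw ξ
    rw [Finset.mem_image]
    constructor
    · rintro ⟨i, _, rfl⟩
      rw [← pow_mul, mul_comm, pow_mul, hw.pow_eq_one, one_pow]
    · intro h
      have h' : (ξ : R) ^ ℓ = 1 := by rw [← Units.val_pow_eq_pow_val, h, Units.val_one]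
      obtain ⟨i, hi, hi'⟩ := (IsPrimitiveRoot.coe_units_iff.mpr hw).eq_pow_of_pow_eq_one h'
      exact ⟨i, Finset.mem_range.mpr hi, Units.ext (by rw [Units.val_pow_eq_pow_val, hi'])⟩
  rw [key hz, key hz']
  congr 1
  ext ξ
  rw [himg hz, himg hz']

theorem Mop_eq_of_isPrimitiveRoot [IsDomain R] {z z' : Rˣ} {ℓ : ℕ} [NeZero ℓ]
    (hz : IsPrimitiveRoot z ℓ) (hz' : IsPrimitiveRoot z' ℓ) (Y : LaurentSeries R) :
    Mop z ℓ Y = Mop z' ℓ Y := by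
  rw [Mop, Mop, Pop_eq_of_isPrimitiveRoot hz hz']

end Basic

section Map

variable {R S : Type*} [CommRing R] [CommRing S] (φ : R →+* S)

theorem coeffMap_Uop (ℓ : ℕ) [NeZero ℓ] (Y : LaurentSeries R) :
    coeffMap φ (Uop ℓ Y) = Uop ℓ (coeffMap φ Y) := by
  ext n
  rw [coeffMap_coeff, Uop_coeff, Uop_coeff, coeffMap_coeff]

theorem coeffMap_Pop (z : Rˣ) (ℓ : ℕ) (Y : LaurentSeries R) :
    coeffMap φ (Pop z ℓ Y) = Pop (Units.map (φ : R →* S) z) ℓ (coeffMap φ Y) := by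
  rw [Pop, Pop, map_prod]
  refine Finset.prod_congr rfl fun i _ => ?_
  rw [coeffMap_scale, map_pow]

theorem coeffMap_Mop (z : Rˣ) (ℓ : ℕ) [NeZero ℓ] (Y : LaurentSeries R) :
    coeffMap φ (Mop z ℓ Y) = Mop (Units.map (φ : R →* S) z) ℓ (coeffMap φ Y) := by
  rw [Mop, Mop, map_mul, coeffMap_qExpand, coeffMap_Uop, coeffMap_Pop]

end Map

section CharL

variable {R : Type*} [CommRing R] (ℓ : ℕ) [NeZero ℓ] [Fact ℓ.Prime] [CharP R ℓ]

theorem powerSeries_pow_char (f : PowerSeries R) :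
    f ^ ℓ = (PowerSeries.map (frobenius R ℓ) f).expand ℓ (NeZero.ne ℓ) := by
  rw [← PowerSeries.map_expand]
  exact (MvPowerSeries.map_frobenius_expand ℓ (NeZero.ne ℓ) (f := f)).symm

/-- Frobenius on Laurent series in characteristic `ℓ`. -/
theorem pow_char_eq_qExpand (Y : LaurentSeries R) :
    Y ^ ℓ = qExpand R ℓ (coeffMap (frobenius R ℓ) Y) := by
  conv_lhs => rw [← LaurentSeries.single_order_mul_powerSeriesPart Y]
  conv_rhs => rw [← LaurentSeries.single_order_mul_powerSeriesPart Y]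
  rw [mul_pow, map_mul, map_mul, coeffMap_single, RingHom.map_one (frobenius R ℓ), qExpand_single,
    HahnSeries.single_pow, one_pow, nsmul_eq_mul]
  congr 1
  have h1 : ((Y.powerSeriesPart : PowerSeries R) : LaurentSeries R) = ops Y.powerSeriesPart := rfl
  rw [h1, ← map_pow, powerSeries_pow_char, ops_expand, coeffMap_ofPowerSeries]

theorem Mop_one_char (Y : LaurentSeries R) :
    Mop (1 : Rˣ) ℓ Y = qExpand R ℓ Y * coeffMap (frobenius R ℓ) Y := by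
  rw [Mop, Pop_one_left, pow_char_eq_qExpand, Uop_qExpand]

/-- **The congruence.**  If `φ : A → k`, `k` reduced of characteristic `ℓ` and `z ^ ℓ = 1` then
`Mop z ℓ Y` reduces to `Ȳ(q^ℓ) · Frob(Ȳ)`. -/
theorem coeffMap_Mop_char {A : Type*} [CommRing A] [IsReduced R] (φ : A →+* R) (z : Aˣ)
    (hz : z ^ ℓ = 1) (Y : LaurentSeries A) :
    coeffMap φ (Mop z ℓ Y) =
      qExpand R ℓ (coeffMap φ Y) * coeffMap (frobenius R ℓ) (coeffMap φ Y) := by
  have h1 : Units.map (φ : A →* R) z = 1 := by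
    apply Units.ext
    apply frobenius_inj R ℓ
    rw [frobenius_def, frobenius_def, Units.val_one, one_pow, ← Units.val_pow_eq_pow_val, ← map_pow,
      hz, map_one, Units.val_one]
  rw [coeffMap_Mop, h1, Mop_one_char]

theorem coeffMap_frobenius_qExpand (Y : LaurentSeries R) :
    coeffMap (frobenius R ℓ) (qExpand R ℓ Y) = Y ^ ℓ := by
  rw [coeffMap_qExpand, pow_char_eq_qExpand]

end CharL

end Fermat.Agent.GR
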