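import Fermat.Agent.GR.Defs
import Fermat.Agent.GR.FormalHecke
import Fermat.Agent.S24.MDefs

/-!
# GR: what the analytic side [AN] has to provide

`AnData p N` : the lattice `H` (dual of the period lattice) with its faithful Hecke action and, for
every `n`, representatives `u n h ∈ ℚ̄(X₀(N))^×` of the Kummer classes
`[w_h ^ (p ^ n)]`, `w_h ∘ γ = exp (2 π i h(per γ) / p ^ n) w_h`.

`GR/TowerAsm.lean` : `AnData p N → Tower p N` (uses KL of S18 through `GR/ES.lean`).
-/

set_option autoImplicit false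

namespace Fermat.Agent.GR

open ModularCurve AlgebraicCurve Fermat.Agent.S24

/-- The analytic input. -/
structure AnData (p N : ℕ) [NeZero N] where
  /-- the lattice -/
  H : Type
  [grpH : AddCommGroup H]
  [freeH : Module.Free ℤ H]
  [finH : Module.Finite ℤ H]
  /-- the Hecke algebra acts faithfully on the lattice -/
  actH : CuspForm.heckeAlgebra N 2 (∅ : Set ℕ) →+* Module.End ℤ H
  actH_inj : Function.Injective actH
  /-- representatives of the Kummer classes -/
  u : ℕ → H → FN N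
  u_ne : ∀ n h, u n h ≠ 0
  u_ord : ∀ n h (P : Place Kb (FN N)), ((p ^ n : ℕ) : ℤ) ∣ P.ord (u n h)
  u_add : ∀ n h h', ∃ w : FN N, u n (h + h') = u n h * u n h' * w ^ (p ^ n)
  u_ker : ∀ n h, (∃ w : FN N, u n h = w ^ (p ^ n)) → ∃ h' : H, h = (p ^ n) • h'
  u_tr : ∀ n h, ∃ w : FN N, u (n + 1) h = u n h * w ^ (p ^ n)
  /-- compatibility with the multiplicative Hecke operator, for ONE primitive `ℓ`-th root of unity
  (e.g. the one mapping to `exp (2 π i / ℓ)` under `S24.iota`) -/
  u_T : ∀ n (ℓ : ℕ) [NeZero ℓ] (hℓ : ℓ.Prime) (hℓN : ¬ ℓ ∣ N), ℓ ≠ p → ∀ h : H,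
    ∃ (ζ : Kbˣ) (w : FN N), IsPrimitiveRoot ζ ℓ ∧
      Mop ζ ℓ (u n h : LaurentSeries Kb) =
        ((u n (actH (CuspForm.heckeAlgebra.T hℓ hℓN (Set.notMem_empty ℓ)) h) * w ^ (p ^ n) : FN N) :
          LaurentSeries Kb)

attribute [instance] AnData.grpH AnData.freeH AnData.finH

end Fermat.Agent.GR
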