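import Fermat.Agent.GR.Defs
import Fermat.Prelude.Def_GaloisRep_Adic

/-!
# GR, pieces BUR / NAK: absolutely irreducible residual representation ⇒ `T[G] → End_T(V)` is onto
⇒ the representation is determined by traces
-/

set_option autoImplicit false

namespace Fermat.Agent.GR

open IsLocalRing

theorem bur_pair_span {K V : Type*} [Field K] [AddCommGroup V] [Module K V]
    (hV : Module.finrank K V = 2) {x y : V} (hx : x ≠ 0) (hy : ∀ c : K, y ≠ c • x) (z : V) :
    ∃ s t : K, z = s • x + t • y := by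
  have hli : LinearIndependent K ![x, y] := by
    rw [LinearIndependent.pair_iff]
    intro s t hst
    have ht : t = 0 := by
      by_contra ht
      apply hy (-(t⁻¹ * s))
      have h1 : t • y = -(s • x) := by
        rw [eq_neg_iff_add_eq_zero, add_comm]; exact hst
      calc y = t⁻¹ • (t • y) := by rw [smul_smul, inv_mul_cancel₀ ht, one_smul]
        _ = -(t⁻¹ * s) • x := by rw [h1, smul_neg, smul_smul, neg_smul]
    subst ht
    rw [zero_smul, add_zero, smul_eq_zero] at hst
    exact ⟨hst.resolve_right hx, rfl⟩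
  have hspan := hli.span_eq_top_of_card_eq_finrank (by rw [hV]; rfl)
  have hz : z ∈ Submodule.span K (Set.range ![x, y]) := by rw [hspan]; trivial
  rw [Matrix.range_cons, Matrix.range_cons, Matrix.range_empty, Set.union_empty,
    Set.singleton_union, Submodule.mem_span_pair] at hz
  obtain ⟨s, t, h⟩ := hz
  exact ⟨s, t, h.symm⟩

/-- BUR-0 (Burnside in dimension two).  `K` algebraically closed, `V` of dimension two, `𝒜` a proper
subalgebra of `End V`.  Then `𝒜` has a stable line.
(`𝒩 = {y : tr(a y) = 0 ∀ a ∈ 𝒜} ≠ 0` is a left `𝒜`-module and `dim 𝒜 + dim 𝒩 = 4`.  If `dim 𝒜 ≤ 2` then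
`𝒜 = K[a]` is commutative: an eigenvector of `a`.  If `dim 𝒜 = 3` then `𝒩 = K y`, `a y = λ(a) y`: every
nonzero vector of `im y` is a common eigenvector.) -/
theorem exists_stable_line {K V : Type*} [Field K] [IsAlgClosed K] [AddCommGroup V] [Module K V]
    (hV : Module.finrank K V = 2) (𝒜 : Subalgebra K (Module.End K V)) (h𝒜 : 𝒜 ≠ ⊤) :
    ∃ v : V, v ≠ 0 ∧ ∀ a ∈ 𝒜, ∃ c : K, a v = c • v := by
  by_contra hno
  push Not at hno
  apply h𝒜
  have : FiniteDimensional K V := Module.finite_of_finrank_eq_succ hV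
  have : Nontrivial V := Module.nontrivial_of_finrank_pos (R := K) (by rw [hV]; norm_num)
  -- transitivity
  have hT : ∀ v : V, v ≠ 0 → ∀ w : V, ∃ a ∈ 𝒜, a v = w := by
    intro v hv w
    obtain ⟨a, ha, hav⟩ := hno v hv
    obtain ⟨s, t, hw⟩ := bur_pair_span hV hv hav w
    refine ⟨s • 1 + t • a, 𝒜.add_mem (𝒜.smul_mem 𝒜.one_mem s) (𝒜.smul_mem ha t), ?_⟩
    rw [hw]
    simp
  -- a rank one element
  obtain ⟨v₀, hv₀⟩ := exists_ne (0 : V)
  obtain ⟨a₀, ha₀, hav₀⟩ := hno v₀ hv₀
  obtain ⟨lam, hlam⟩ := Module.End.exists_eigenvalue a₀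
  obtain ⟨u, hu⟩ := hlam.exists_hasEigenvector
  have hu0 : u ≠ 0 := hu.2
  have hau : a₀ u = lam • u := hu.apply_eq_smul
  obtain ⟨b, hb, hbu, hbv⟩ : ∃ b ∈ 𝒜, b u = 0 ∧ b v₀ ≠ 0 := by
    refine ⟨a₀ - lam • 1, 𝒜.sub_mem ha₀ (𝒜.smul_mem 𝒜.one_mem lam), ?_, ?_⟩
    · simp [hau]
    · simp only [LinearMap.sub_apply, LinearMap.smul_apply, Module.End.one_apply]
      exact sub_ne_zero.2 (hav₀ lam)
  have hvu : ∀ c : K, v₀ ≠ c • u := by
    intro c hc
    apply hbv
    rw [hc, map_smul, hbu, smul_zero]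
  rw [eq_top_iff]
  intro f _
  obtain ⟨d, hd, hdu⟩ := hT u hu0 v₀
  obtain ⟨c₁, hc₁, hc₁v⟩ := hT (b v₀) hbv (f u)
  obtain ⟨c₂, hc₂, hc₂v⟩ := hT (b v₀) hbv (f v₀ - c₁ (b (d v₀)))
  have hf : f = c₁ * b * d + c₂ * b := by
    apply LinearMap.ext
    intro z
    obtain ⟨s, t, rfl⟩ := bur_pair_span hV hu0 hvu z
    simp only [map_add, map_smul, LinearMap.add_apply, Module.End.mul_apply, hdu, hbu, hc₁v, hc₂v,
      map_zero, add_zero]
    rw [add_sub_cancel]
  rw [hf]
  exact 𝒜.add_mem (𝒜.mul_mem (𝒜.mul_mem hc₁ hb) hd) (𝒜.mul_mem hc₂ hb)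


open scoped TensorProduct

/-- span of the range of a monoid hom is (the underlying submodule of) a subalgebra. -/
theorem bur_adjoin_range {K A G : Type*} [CommSemiring K] [Semiring A] [Algebra K A] [Monoid G]
    (r : G →* A) :
    Subalgebra.toSubmodule (Algebra.adjoin K (Set.range r)) = Submodule.span K (Set.range r) := by
  rw [Algebra.adjoin_eq_span, ← MonoidHom.coe_mrange, Submonoid.closure_eq]

/-- BUR.  The image of an absolutely irreducible residual representation spans `End V`. -/
theorem span_range_eq_top {k : Type} [Field k] (ρ : ResidualGaloisRep k)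
    (h : ρ.IsAbsolutelyIrreducible) :
    Submodule.span k (Set.range ρ.ρ) = ⊤ := by
  classical
  set kb := AlgebraicClosure k with hkb
  set ρ' := ρ.baseChange kb with hρ'
  -- the big algebra is everything
  have htop : Algebra.adjoin kb (Set.range ρ'.ρ) = ⊤ := by
    by_contra hne
    obtain ⟨v, hv0, hv⟩ := exists_stable_line ρ'.finrank_eq _ hne
    have hst : ∀ σ : AlgebraicClosure ℚ ≃ₐ[ℚ] AlgebraicClosure ℚ,
        ∀ x ∈ Submodule.span kb {v}, ρ'.ρ σ x ∈ Submodule.span kb {v} := by
      intro σ x hx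
      obtain ⟨c, rfl⟩ := Submodule.mem_span_singleton.1 hx
      obtain ⟨c', hc'⟩ := hv (ρ'.ρ σ) (Algebra.subset_adjoin ⟨σ, rfl⟩)
      rw [map_smul, hc']
      exact Submodule.smul_mem _ _ (Submodule.smul_mem _ _ (Submodule.mem_span_singleton_self v))
    rcases h _ hst with h1 | h1
    · exact hv0 ((Submodule.span_singleton_eq_bot).1 h1)
    · have h2 := finrank_span_singleton (K := kb) hv0
      rw [h1, finrank_top, ρ'.finrank_eq] at h2
      norm_num at h2
  have hspan : Submodule.span kb (Set.range ρ'.ρ) = ⊤ := by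
    rw [← bur_adjoin_range, htop]
    rfl
  -- dimension count
  by_contra hne
  have hlt : Module.finrank k (Submodule.span k (Set.range ρ.ρ)) < Module.finrank k (Module.End k ρ.V) :=
    Submodule.finrank_lt hne
  have hEnd : Module.finrank k (Module.End k ρ.V) = 4 := by
    rw [Module.finrank_linearMap, ρ.finrank_eq]
  have hEnd' : Module.finrank kb (Module.End kb ρ'.V) = 4 := by
    rw [Module.finrank_linearMap, ρ'.finrank_eq]
  let b := Module.finBasis k (Submodule.span k (Set.range ρ.ρ))
  let β : Module.End k ρ.V →ₗ[k] Module.End kb ρ'.V := LinearMap.baseChangeHom k kb ρ.V ρ.V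
  have hle : Submodule.span kb (Set.range ρ'.ρ) ≤
      Submodule.span kb (Set.range fun i => β (b i : Module.End k ρ.V)) := by
    rw [Submodule.span_le]
    rintro _ ⟨σ, rfl⟩
    have hmem : ρ.ρ σ ∈ Submodule.span k (Set.range ρ.ρ) := Submodule.subset_span ⟨σ, rfl⟩
    have h1 := b.sum_repr ⟨ρ.ρ σ, hmem⟩
    have h2 : ρ.ρ σ = ∑ i, b.repr ⟨ρ.ρ σ, hmem⟩ i • (b i : Module.End k ρ.V) := by
      have := congrArg Subtype.val h1
      rw [AddSubmonoidClass.coe_finsetSum] at this
      exact this.symm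
    have h3 : ρ'.ρ σ = β (ρ.ρ σ) := rfl
    rw [SetLike.mem_coe, h3, h2, map_sum]
    refine Submodule.sum_mem _ fun i _ => ?_
    rw [map_smul]
    exact Submodule.smul_of_tower_mem _ _ (Submodule.subset_span ⟨i, rfl⟩)
  rw [hspan, top_le_iff] at hle
  have h4 := finrank_range_le_card (R := kb) (fun i => β (b i : Module.End k ρ.V))
  rw [Set.finrank, hle, finrank_top, hEnd', Fintype.card_fin] at h4
  omega

/-- an endomorphism of a finite free module which vanishes mod `𝔪` lies in `𝔪 • ⊤`. -/
theorem nak_mem_smul_top {T V : Type*} [CommRing T] [IsLocalRing T] [AddCommGroup V] [Module T V]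
    [Module.Free T V] [Module.Finite T V] (g : Module.End T V)
    (hg : g.baseChange (ResidueField T) = 0) :
    g ∈ maximalIdeal T • (⊤ : Submodule T (Module.End T V)) := by
  classical
  let b := Module.Free.chooseBasis T V
  have h1 := LinearMap.toMatrix_baseChange (A := ResidueField T) g b b
  rw [hg, map_zero] at h1
  have h2 : ∀ i j, LinearMap.toMatrix b b g i j ∈ maximalIdeal T := by
    intro i j
    have := congrFun (congrFun h1 i) j
    rw [Matrix.map_apply, Matrix.zero_apply] at this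
    exact (residue_eq_zero_iff _).1 this.symm
  have h3 : g = ∑ i, ∑ j, LinearMap.toMatrix b b g i j •
      (LinearMap.toMatrix b b).symm (Matrix.single i j (1 : T)) := by
    apply (LinearMap.toMatrix b b).injective
    conv_lhs => rw [Matrix.matrix_eq_sum_single (LinearMap.toMatrix b b g)]
    simp only [map_sum, map_smul, LinearEquiv.apply_symm_apply, Matrix.smul_single, smul_eq_mul,
      mul_one]
  rw [h3]
  exact Submodule.sum_mem _ fun i _ => Submodule.sum_mem _ fun j _ =>
    Submodule.smul_mem_smul (h2 i j) trivial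

/-- NAK.  Nakayama: the image of `ρ` spans `End_T V`. -/
theorem span_range_eq_top_adic {T : Type} [CommRing T] [IsLocalRing T] (ρ : GaloisRepAdic T)
    (h : ρ.residual.IsAbsolutelyIrreducible) :
    Submodule.span T (Set.range ρ.ρ) = ⊤ := by
  have hres := span_range_eq_top ρ.residual h
  rw [eq_top_iff]
  refine Submodule.le_of_le_smul_of_le_jacobson_bot (I := maximalIdeal T) Module.Finite.fg_top
    (maximalIdeal_le_jacobson _) ?_
  intro f _
  have hB : ∀ x ∈ Submodule.span (ResidueField T) (Set.range ρ.residual.ρ),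
      ∃ n ∈ Submodule.span T (Set.range ρ.ρ), n.baseChange (ResidueField T) = x := by
    intro x hx
    induction hx using Submodule.span_induction with
    | mem x hx =>
      obtain ⟨σ, rfl⟩ := hx
      exact ⟨ρ.ρ σ, Submodule.subset_span ⟨σ, rfl⟩, rfl⟩
    | zero => exact ⟨0, Submodule.zero_mem _, LinearMap.baseChange_zero⟩
    | add x y _ _ hx hy =>
      obtain ⟨n, hn, rfl⟩ := hx
      obtain ⟨m, hm, rfl⟩ := hy
      exact ⟨n + m, Submodule.add_mem _ hn hm, LinearMap.baseChange_add _ _⟩
    | smul c x _ hx =>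
      obtain ⟨n, hn, rfl⟩ := hx
      obtain ⟨t, rfl⟩ := residue_surjective c
      refine ⟨t • n, Submodule.smul_mem _ _ hn, ?_⟩
      rw [LinearMap.baseChange_smul]
      exact (algebraMap_smul (ResidueField T) t _).symm
  obtain ⟨n, hn, hnf⟩ := hB (f.baseChange (ResidueField T)) (by rw [hres]; trivial)
  have h1 : f = n + (f - n) := by abel
  rw [h1]
  refine Submodule.add_mem_sup hn (nak_mem_smul_top _ ?_)
  rw [LinearMap.baseChange_sub]
  exact sub_eq_zero.2 hnf.symm

/-- TRD.  An element on which all twisted traces agree with those of `1` acts trivially. -/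
theorem eq_one_of_trace_eq {T : Type} [CommRing T] [IsLocalRing T] (ρ : GaloisRepAdic T)
    (habs : ρ.residual.IsAbsolutelyIrreducible) (τ : GQ)
    (h : ∀ g : GQ, LinearMap.trace T ρ.V (ρ.ρ (g * τ)) = LinearMap.trace T ρ.V (ρ.ρ g)) :
    ρ.ρ τ = 1 := by
  classical
  have hspan := span_range_eq_top_adic ρ habs
  have h1 : ∀ x : Module.End T ρ.V, LinearMap.trace T ρ.V (x * ρ.ρ τ) = LinearMap.trace T ρ.V (x * 1) := by
    intro x
    have hx : x ∈ Submodule.span T (Set.range ρ.ρ) := by rw [hspan]; trivial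
    induction hx using Submodule.span_induction with
    | mem x hx =>
      obtain ⟨g, rfl⟩ := hx
      rw [← map_mul, h g, mul_one]
    | zero => simp
    | add x y _ _ hx hy => rw [add_mul, add_mul, map_add, map_add, hx, hy]
    | smul c x _ hx => rw [smul_mul_assoc, smul_mul_assoc, map_smul, map_smul, hx]
  let b := Module.Free.chooseBasis T ρ.V
  apply (LinearMap.toMatrixAlgEquiv b).injective
  rw [Matrix.ext_iff_trace_mul_left]
  intro X
  have h2 := h1 ((LinearMap.toMatrixAlgEquiv b).symm X)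
  rw [LinearMap.trace_eq_matrix_trace T b, LinearMap.trace_eq_matrix_trace T b] at h2
  change ((LinearMap.toMatrixAlgEquiv b) ((LinearMap.toMatrixAlgEquiv b).symm X * ρ.ρ τ)).trace =
    ((LinearMap.toMatrixAlgEquiv b) ((LinearMap.toMatrixAlgEquiv b).symm X * 1)).trace at h2
  rw [map_mul, map_mul, AlgEquiv.apply_symm_apply] at h2
  exact h2

end Fermat.Agent.GR
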