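import Fermat.Agent.GR.Defs

/-!
# GR, piece CYC: roots of unity, complex conjugation, the cyclotomic character with values in `𝒪`
-/

set_option autoImplicit false
set_option linter.style.haveILetI false
set_option linter.unusedSectionVars false

namespace Fermat.Agent.GR

open IsLocalRing

/-! ### unfolding inertia and Frobenius -/

theorem cyc_inertia_spec (A : ValuationSubring Qb) {σ : GQ} (hσ : σ ∈ A.inertiaSubgroupIn ℚ)
    (a : Qb) (ha : A.valuation a ≤ 1) : A.valuation (σ a - a) < 1 := by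
  unfold ValuationSubring.inertiaSubgroupIn at hσ
  rw [Subgroup.mem_map] at hσ
  obtain ⟨g, hg, rfl⟩ := hσ
  unfold ValuationSubring.inertiaSubgroup at hg
  rw [MonoidHom.mem_ker] at hg
  have ha' : a ∈ A := (A.valuation_le_one_iff a).mp ha
  have h1 : (MulSemiringAction.toRingAut (A.decompositionSubgroup ℚ)
      (IsLocalRing.ResidueField A) g) (IsLocalRing.residue A ⟨a, ha'⟩)
      = IsLocalRing.residue A ⟨a, ha'⟩ := by
    rw [hg]; rfl
  have h2 : (MulSemiringAction.toRingAut (A.decompositionSubgroup ℚ)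
      (IsLocalRing.ResidueField A) g) (IsLocalRing.residue A ⟨a, ha'⟩)
      = IsLocalRing.residue A (g • (⟨a, ha'⟩ : A)) := by
    rw [IsLocalRing.ResidueField.residue_smul]; rfl
  rw [h2] at h1
  have h3 : IsLocalRing.residue A (g • (⟨a, ha'⟩ : A) - ⟨a, ha'⟩) = 0 := by
    rw [map_sub, h1, sub_self]
  rw [IsLocalRing.residue_eq_zero_iff, A.valuation_lt_one_iff] at h3
  exact h3

theorem cyc_frob_spec (A : ValuationSubring Qb) {σ : GQ} {q : ℕ} (hσ : A.IsFrobeniusAt σ q)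
    (a : Qb) (ha : A.valuation a ≤ 1) : A.valuation (σ a - a ^ q) < 1 := by
  obtain ⟨hd, hf⟩ := hσ
  have ha' : a ∈ A := (A.valuation_le_one_iff a).mp ha
  have h1 := hf (IsLocalRing.residue A ⟨a, ha'⟩)
  rw [← IsLocalRing.ResidueField.residue_smul, ← map_pow] at h1
  have h3 : IsLocalRing.residue A ((⟨σ, hd⟩ : A.decompositionSubgroup ℚ) • (⟨a, ha'⟩ : A)
      - ⟨a, ha'⟩ ^ q) = 0 := by
    rw [map_sub, h1, sub_self]
  rw [IsLocalRing.residue_eq_zero_iff, A.valuation_lt_one_iff] at h3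
  exact h3

theorem cyc_val_root (A : ValuationSubring Qb) {m : ℕ} (hm : m ≠ 0) {ζ : Qb} (hζ : ζ ^ m = 1) :
    A.valuation ζ = 1 := by
  have h : A.valuation ζ ^ m = 1 := by rw [← map_pow, hζ, map_one]
  exact (pow_eq_one_iff_of_nonneg zero_le hm).mp h

theorem cyc_val_int (A : ValuationSubring Qb) (n : ℤ) : A.valuation (n : Qb) ≤ 1 := by
  rw [A.valuation_le_one_iff]
  exact intCast_mem A n

/-- Two `m`-th roots of unity which are congruent modulo the maximal ideal are equal (`ℓ ∤ m`). -/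
theorem cyc_root_eq {ℓ : ℕ} (hℓ : ℓ.Prime) {P : ValuationSubring Qb} (hP : P.LiesOverPrime ℓ)
    {m : ℕ} (hm : ¬ ℓ ∣ m) {a b : Qb} (ha : a ^ m = 1) (hb : b ^ m = 1)
    (hab : P.valuation (a - b) < 1) : a = b := by
  by_contra hne
  have hm0 : m ≠ 0 := by
    rintro rfl
    exact hm (dvd_zero _)
  have hva := cyc_val_root P hm0 ha
  have hvb := cyc_val_root P hm0 hb
  have hS : ∑ i ∈ Finset.range m, a ^ i * b ^ (m - 1 - i) = 0 := by
    have h1 := geom_sum₂_mul a b m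
    rw [ha, hb, sub_self] at h1
    exact (mul_eq_zero.mp h1).resolve_right (sub_ne_zero.mpr hne)
  -- each `a ^ i - b ^ i` is in the maximal ideal
  have hpow : ∀ i : ℕ, P.valuation (a ^ i - b ^ i) < 1 := by
    intro i
    rw [← geom_sum₂_mul a b i, map_mul]
    have h2 : P.valuation (∑ j ∈ Finset.range i, a ^ j * b ^ (i - 1 - j)) ≤ 1 := by
      apply Valuation.map_sum_le
      intro j _
      rw [map_mul, map_pow, map_pow, hva, hvb, one_pow, one_pow, one_mul]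
    calc _ ≤ 1 * P.valuation (a - b) := mul_le_mul_left h2 _
      _ < 1 := by rwa [one_mul]
  have hmv : P.valuation ((m : Qb) * b ^ (m - 1)) < 1 := by
    have h3 : (m : Qb) * b ^ (m - 1) = - ∑ i ∈ Finset.range m, (a ^ i - b ^ i) * b ^ (m - 1 - i) := by
      have h4 : ∀ i ∈ Finset.range m, (a ^ i - b ^ i) * b ^ (m - 1 - i)
          = a ^ i * b ^ (m - 1 - i) - b ^ (m - 1) := by
        intro i hi
        rw [Finset.mem_range] at hi
        rw [sub_mul, ← pow_add]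
        congr 2
        omega
      rw [Finset.sum_congr rfl h4, Finset.sum_sub_distrib, hS, Finset.sum_const, Finset.card_range,
        nsmul_eq_mul]
      ring
    rw [h3, Valuation.map_neg]
    apply Valuation.map_sum_lt _ one_ne_zero
    intro i _
    rw [map_mul, map_pow, hvb, one_pow, mul_one]
    exact hpow i
  rw [map_mul, map_pow, hvb, one_pow, mul_one] at hmv
  have hℓv : P.valuation (ℓ : Qb) < 1 := hP
  have hcop : IsCoprime (m : ℤ) (ℓ : ℤ) := by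
    rw [Nat.isCoprime_iff_coprime]
    exact ((Nat.Prime.coprime_iff_not_dvd hℓ).mpr hm).symm
  obtain ⟨x, y, hxy⟩ := hcop
  have h5 : (1 : Qb) = (x : Qb) * (m : Qb) + (y : Qb) * (ℓ : Qb) := by exact_mod_cast hxy.symm
  have h6 : P.valuation (1 : Qb) < 1 := by
    rw [h5]
    apply Valuation.map_add_lt
    · rw [map_mul]
      calc _ ≤ 1 * P.valuation (m : Qb) := mul_le_mul_left (cyc_val_int P x) _
        _ < 1 := by rwa [one_mul]
    · rw [map_mul]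
      calc _ ≤ 1 * P.valuation (ℓ : Qb) := mul_le_mul_left (cyc_val_int P y) _
        _ < 1 := by rwa [one_mul]
  rw [map_one] at h6
  exact lt_irrefl _ h6

/-- A Frobenius lift at `ℓ` raises the roots of unity of order prime to `ℓ` to the `ℓ`-th power.
(`σ ζ` and `ζ ^ ℓ` are `m`-th roots of unity in `P` with the same image in the residue field, and
`X ^ m - 1` is separable there.) -/
theorem frob_root {ℓ : ℕ} (hℓ : ℓ.Prime) {P : ValuationSubring Qb} (hP : P.LiesOverPrime ℓ)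
    {σ : GQ} (hσ : P.IsFrobeniusAt σ ℓ) {m : ℕ} (hm : ¬ ℓ ∣ m) {ζ : Qb} (hζ : ζ ^ m = 1) :
    σ ζ = ζ ^ ℓ := by
  have hm0 : m ≠ 0 := by
    rintro rfl
    exact hm (dvd_zero _)
  apply cyc_root_eq hℓ hP hm
  · rw [← map_pow, hζ, map_one]
  · rw [← pow_mul, mul_comm, pow_mul, hζ, one_pow]
  · exact cyc_frob_spec P hσ ζ (cyc_val_root P hm0 hζ).le

/-- Inertia at `ℓ` fixes the roots of unity of order prime to `ℓ`. -/
theorem inertia_root {ℓ : ℕ} (hℓ : ℓ.Prime) {P : ValuationSubring Qb} (hP : P.LiesOverPrime ℓ)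
    {σ : GQ} (hσ : σ ∈ P.inertiaSubgroupIn ℚ) {m : ℕ} (hm : ¬ ℓ ∣ m) {ζ : Qb} (hζ : ζ ^ m = 1) :
    σ ζ = ζ := by
  have hm0 : m ≠ 0 := by
    rintro rfl
    exact hm (dvd_zero _)
  apply cyc_root_eq hℓ hP hm
  · rw [← map_pow, hζ, map_one]
  · exact hζ
  · exact cyc_inertia_spec P hσ ζ (cyc_val_root P hm0 hζ).le

/-- Complex conjugation. (Restrict `Complex.conj` along an embedding `ℚ̄ → ℂ`,
`AlgEquiv.restrictNormal`; a root of unity has absolute value one.) -/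
theorem exists_complexConj :
    ∃ c : GQ, c * c = 1 ∧ ∀ m : ℕ, 0 < m → ∀ ζ : Qb, ζ ^ m = 1 → c ζ = ζ⁻¹ := by
  haveI : IsAlgClosure ℚ Qb := @AlgebraicClosure.instIsAlgClosure ℚ _
  haveI : Algebra.IsAlgebraic ℚ Qb := IsAlgClosure.isAlgebraic
  haveI : Normal ℚ Qb := IsAlgClosure.normal ℚ Qb
  let φ : Qb →ₐ[ℚ] ℂ := IsAlgClosed.lift
  letI : Algebra Qb ℂ := φ.toRingHom.toAlgebra
  haveI : IsScalarTower ℚ Qb ℂ := IsScalarTower.of_algebraMap_eq fun x => (φ.commutes x).symm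
  let conj : ℂ ≃ₐ[ℚ] ℂ := Complex.conjAe.restrictScalars ℚ
  let c : GQ := conj.restrictNormal Qb
  have hc : ∀ x : Qb, φ (c x) = (starRingEnd ℂ) (φ x) := fun x => conj.restrictNormal_commutes Qb x
  refine ⟨c, ?_, ?_⟩
  · ext x
    apply φ.toRingHom.injective
    change φ (c (c x)) = φ x
    rw [hc, hc, Complex.conj_conj]
  · intro m hm ζ hζ
    apply φ.toRingHom.injective
    change φ (c ζ) = φ ζ⁻¹
    rw [hc, map_inv₀]
    have h1 : (φ ζ) ^ m = 1 := by rw [← map_pow, hζ, map_one]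
    have h2 : ‖φ ζ‖ = 1 := Complex.norm_eq_one_of_pow_eq_one h1 hm.ne'
    exact (Complex.inv_eq_conj h2).symm

/-- `δ` is "the" `p`-adic cyclotomic character with values in `𝒪`. -/
def IsCyclo (p : ℕ) {𝒪 : Type} [CommRing 𝒪] (δ : GQ →* 𝒪ˣ) : Prop :=
  ∀ (n : ℕ) (σ : GQ) (a : ℕ), (∀ ζ : Qb, ζ ^ (p ^ n) = 1 → σ ζ = ζ ^ a) →
    ((δ σ : 𝒪) - (a : 𝒪)) ∈ Ideal.span {(p : 𝒪) ^ n}

/-- A ring homomorphism `ZMod k → R` when `k = 0` in `R`. -/
noncomputable def cycZModHom (k : ℕ) (R : Type*) [CommRing R] (h : (k : R) = 0) : ZMod k →+* R :=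
  (Ideal.Quotient.lift (Ideal.span {(k : ℤ)}) (Int.castRingHom R) (by
    intro a ha
    rw [Ideal.mem_span_singleton] at ha
    obtain ⟨b, rfl⟩ := ha
    simp [h])).comp (Int.quotientSpanNatEquivZMod k).symm.toRingHom

theorem cyc_exists_ringHom (p : ℕ) [Fact p.Prime] (𝒪 : Type) [CommRing 𝒪] [IsLocalRing 𝒪]
    [IsAdicComplete (maximalIdeal 𝒪) 𝒪] (hp : (p : 𝒪) ∈ maximalIdeal 𝒪) :
    Nonempty (ℤ_[p] →+* 𝒪) := by
  have h0 : ∀ n : ℕ, (((p ^ n : ℕ)) : 𝒪 ⧸ (maximalIdeal 𝒪) ^ n) = 0 := by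
    intro n
    have : (((p ^ n : ℕ)) : 𝒪 ⧸ (maximalIdeal 𝒪) ^ n)
        = Ideal.Quotient.mk ((maximalIdeal 𝒪) ^ n) ((p : 𝒪) ^ n) := by
      simp
    rw [this, Ideal.Quotient.eq_zero_iff_mem]
    exact Ideal.pow_mem_pow hp n
  let f : (n : ℕ) → ℤ_[p] →+* 𝒪 ⧸ (maximalIdeal 𝒪) ^ n := fun n =>
    (cycZModHom (p ^ n) _ (h0 n)).comp (PadicInt.toZModPow n)
  refine ⟨IsAdicComplete.liftRingHom (maximalIdeal 𝒪) f ?_⟩
  intro m n hle
  have h1 : (Ideal.Quotient.factorPow (maximalIdeal 𝒪) hle).comp (cycZModHom (p ^ n) _ (h0 n))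
      = (cycZModHom (p ^ m) _ (h0 m)).comp (ZMod.castHom (pow_dvd_pow p hle) (ZMod (p ^ m))) :=
    RingHom.ext_zmod _ _
  simp only [f]
  rw [← RingHom.comp_assoc, h1, RingHom.comp_assoc, PadicInt.zmod_cast_comp_toZModPow m n hle]

/-- Existence of the cyclotomic character. (Mathlib: `cyclotomicCharacter Qb p : _ →* ℤ_[p]ˣ`
composed with the ring hom `ℤ_[p] → 𝒪` given by completeness, `IsAdicComplete.liftRingHom`; or
directly: `δ σ = lim a_n`, `σ ζ = ζ ^ a_n` on `μ_{p^n}`.) -/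
theorem exists_cyclo (p : ℕ) [Fact p.Prime] (𝒪 : Type) [CommRing 𝒪] [IsLocalRing 𝒪]
    [IsAdicComplete (maximalIdeal 𝒪) 𝒪] (hp : (p : 𝒪) ∈ maximalIdeal 𝒪) :
    ∃ δ : GQ →* 𝒪ˣ, IsCyclo p δ := by
  have hpp : p.Prime := Fact.out
  obtain ⟨φ⟩ := cyc_exists_ringHom p 𝒪 hp
  haveI : NeZero p := ⟨hpp.ne_zero⟩
  let χ : GQ →* ℤ_[p]ˣ := (cyclotomicCharacter Qb p).comp (MulSemiringAction.toRingAut GQ Qb)
  refine ⟨(Units.map φ.toMonoidHom).comp χ, ?_⟩
  intro n σ a ha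
  obtain ⟨ζ, hζ⟩ := HasEnoughRootsOfUnity.exists_primitiveRoot Qb (p ^ n)
  have h1 : σ ζ = ζ ^ ((χ σ).val.toZModPow n).val :=
    cyclotomicCharacter.spec p (MulSemiringAction.toRingAut GQ Qb σ) ζ hζ.pow_eq_one
  rw [ha ζ hζ.pow_eq_one] at h1
  have h2 : (a : ZMod (p ^ n)) = (χ σ).val.toZModPow n := by
    have hk : 0 < p ^ n := pow_pos hpp.pos n
    have h3 : a % (p ^ n) = ((χ σ).val.toZModPow n).val % (p ^ n) := by
      apply hζ.pow_inj (Nat.mod_lt _ hk) (Nat.mod_lt _ hk)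
      have e : ∀ j : ℕ, ζ ^ (j % (p ^ n)) = ζ ^ j := by
        intro j
        conv_rhs => rw [← Nat.mod_add_div j (p ^ n), pow_add, pow_mul, hζ.pow_eq_one, one_pow,
          mul_one]
      rw [e, e, h1]
    have h3' : a ≡ ((χ σ).val.toZModPow n).val [MOD p ^ n] := h3
    rw [← ZMod.natCast_eq_natCast_iff] at h3'
    rw [h3', ZMod.natCast_zmod_val]
  have h4 : (χ σ).val - (a : ℤ_[p]) ∈ RingHom.ker (PadicInt.toZModPow n : ℤ_[p] →+* ZMod (p ^ n)) := by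
    rw [RingHom.mem_ker, map_sub, map_natCast, h2, sub_self]
  rw [PadicInt.ker_toZModPow, Ideal.mem_span_singleton] at h4
  obtain ⟨y, hy⟩ := h4
  rw [Ideal.mem_span_singleton]
  refine ⟨φ y, ?_⟩
  have h5 := congrArg φ hy
  rw [map_sub, map_natCast, map_mul, map_pow, map_natCast] at h5
  exact h5

section consequences

variable {p : ℕ} [Fact p.Prime] {𝒪 : Type} [CommRing 𝒪] [IsLocalRing 𝒪]
  [IsAdicComplete (maximalIdeal 𝒪) 𝒪] (hp : (p : 𝒪) ∈ maximalIdeal 𝒪) {δ : GQ →* 𝒪ˣ}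

include hp

theorem cyc_eq_of_forall (x y : 𝒪) (h : ∀ n : ℕ, x - y ∈ Ideal.span {(p : 𝒪) ^ n}) : x = y := by
  rw [← sub_eq_zero]
  apply IsHausdorff.haus (inferInstance : IsHausdorff (maximalIdeal 𝒪) 𝒪)
  intro n
  rw [SModEq.zero, smul_eq_mul, Ideal.mul_top]
  have h1 := h n
  rw [Ideal.mem_span_singleton] at h1
  obtain ⟨z, hz⟩ := h1
  rw [hz]
  exact Ideal.mul_mem_right _ _ (Ideal.pow_mem_pow hp n)

theorem IsCyclo.frob (hδ : IsCyclo p δ) {ℓ : ℕ} (hℓ : ℓ.Prime) (hℓp : ℓ ≠ p)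
    {P : ValuationSubring Qb} (hP : P.LiesOverPrime ℓ) {σ : GQ} (hσ : P.IsFrobeniusAt σ ℓ) :
    (δ σ : 𝒪) = (ℓ : 𝒪) := by
  have hpp : p.Prime := Fact.out
  apply cyc_eq_of_forall hp
  intro n
  apply hδ n σ ℓ
  intro ζ hζ
  refine frob_root hℓ hP hσ ?_ hζ
  intro h
  exact hℓp ((Nat.prime_dvd_prime_iff_eq hℓ hpp).mp (hℓ.dvd_of_dvd_pow h))

theorem IsCyclo.inertia (hδ : IsCyclo p δ) {ℓ : ℕ} (hℓ : ℓ.Prime) (hℓp : ℓ ≠ p)
    {P : ValuationSubring Qb} (hP : P.LiesOverPrime ℓ) {σ : GQ}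
    (hσ : σ ∈ P.inertiaSubgroupIn ℚ) : δ σ = 1 := by
  have hpp : p.Prime := Fact.out
  apply Units.ext
  rw [Units.val_one]
  apply cyc_eq_of_forall hp
  intro n
  have := hδ n σ 1 (by
    intro ζ hζ
    rw [pow_one]
    refine inertia_root hℓ hP hσ ?_ hζ
    intro h
    exact hℓp ((Nat.prime_dvd_prime_iff_eq hℓ hpp).mp (hℓ.dvd_of_dvd_pow h)))
  simpa using this

theorem IsCyclo.conj (hδ : IsCyclo p δ) {c : GQ}
    (hc : ∀ m : ℕ, 0 < m → ∀ ζ : Qb, ζ ^ m = 1 → c ζ = ζ⁻¹) : (δ c : 𝒪) = -1 := by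
  have hpp : p.Prime := Fact.out
  apply cyc_eq_of_forall hp
  intro n
  have hpos : 0 < p ^ n := pow_pos hpp.pos n
  have h1 := hδ n c (p ^ n - 1) (by
    intro ζ hζ
    rw [hc _ hpos ζ hζ]
    apply inv_eq_of_mul_eq_one_right
    rw [← pow_succ', Nat.sub_add_cancel hpos, hζ])
  rw [Nat.cast_sub hpos, Nat.cast_pow, Nat.cast_one] at h1
  have h2 : (δ c : 𝒪) - -1 = ((δ c : 𝒪) - ((p : 𝒪) ^ n - 1)) + (p : 𝒪) ^ n := by ring
  rw [h2]
  exact Ideal.add_mem _ h1 (Ideal.mem_span_singleton_self _)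

end consequences

end Fermat.Agent.GR
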