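import Mathlib
import Fermat.Prelude.Def_EllipticCurve_FrobeniusTrace
import Fermat.Prelude.Def_FLTPrelim_Ramification
import Fermat.Prelude.Def_CuspForm_HeckeAlgebra

/-!
# GR: the common interface for S29, S30, S31, S42

`Tower p N` packages everything that the "consumers" (construction of the mod `p` and `p`-adic
Galois representations, unramifiedness of Hecke-Galois data) need to know about the Kummer classes
`A n = { u ∈ F_N^× : p ^ n ∣ ord_P u for all places P } / (F_N^×) ^ (p ^ n)`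
of the modular function field `F_N = modularFunctionFieldBar N` (written additively):

* `act`  : the action of `G_ℚ` on the `q`-expansion coefficients;
* `T n ℓ`: the Hecke operator `[u] ↦ [u(q^ℓ) ∏_b u(ζ^b q^{1/ℓ})]` (junk for `ℓ` not prime or `ℓ ∣ N`);
* `tr`   : `[u] ↦ [u]` (corresponds to multiplication by `p` from `Pic[p^(n+1)]` to `Pic[p^n]`);
* `unram`, `es` : consequences of the lemma KL of S18;
* `H`    : `Module.Dual ℤ (S22.Lat N 0)`, the dual of the period lattice, a faithful module over the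
  Hecke algebra, `ι n` the analytic Kummer map `λ ↦ [w ^ (p ^ n)]`, `w` a meromorphic function on
  the upper half plane with `w ∘ γ = exp (2 π i λ(per γ) / p ^ n) w`.
-/

set_option autoImplicit false

namespace Fermat.Agent.GR

/-- `ℚ̄`. -/
abbrev Qb : Type := AlgebraicClosure ℚ

/-- The absolute Galois group of `ℚ`. -/
abbrev GQ : Type := Qb ≃ₐ[ℚ] Qb

/-- The interface between the modular side (providers) and the Galois side (consumers). -/
structure Tower (p N : ℕ) [NeZero N] where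
  /-- Kummer classes of level `p ^ n` -/
  A : ℕ → Type
  [grp : ∀ n, AddCommGroup (A n)]
  /-- Galois action -/
  act : ∀ n, GQ →* AddMonoid.End (A n)
  /-- Hecke operators -/
  T : ∀ n, ℕ → AddMonoid.End (A n)
  /-- transition maps -/
  tr : ∀ n, A (n + 1) →+ A n
  pow_smul : ∀ n (x : A n), (p ^ n) • x = 0
  tr_eq_zero : ∀ n (x : A (n + 1)), p • x = 0 → tr n x = 0
  tr_act : ∀ n (σ : GQ) (x : A (n + 1)), tr n (act (n + 1) σ x) = act n σ (tr n x)
  tr_T : ∀ n (ℓ : ℕ) (x : A (n + 1)), tr n (T (n + 1) ℓ x) = T n ℓ (tr n x)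
  T_act : ∀ n (ℓ : ℕ) (σ : GQ) (x : A n), T n ℓ (act n σ x) = act n σ (T n ℓ x)
  smooth : ∀ n (x : A n), ∃ L : IntermediateField ℚ Qb, FiniteDimensional ℚ L ∧
    ∀ σ : GQ, (∀ y ∈ L, σ y = y) → act n σ x = x
  unram : ∀ n (q : ℕ), q.Prime → ¬ q ∣ N → q ≠ p →
    ∀ P : ValuationSubring Qb, P.LiesOverPrime q → ∀ σ ∈ P.inertiaSubgroupIn ℚ,
      ∀ x : A n, act n σ x = x
  es : ∀ n (ℓ : ℕ), ℓ.Prime → ¬ ℓ ∣ N → ℓ ≠ p →
    ∀ P : ValuationSubring Qb, P.LiesOverPrime ℓ → ∀ σ : GQ, P.IsFrobeniusAt σ ℓ →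
      ∀ x : A n, act n σ (act n σ x) - T n ℓ (act n σ x) + ℓ • x = 0
  /-- the lattice -/
  H : Type
  [grpH : AddCommGroup H]
  [freeH : Module.Free ℤ H]
  [finH : Module.Finite ℤ H]
  /-- the Hecke algebra acts faithfully on the lattice -/
  actH : CuspForm.heckeAlgebra N 2 (∅ : Set ℕ) →+* Module.End ℤ H
  actH_inj : Function.Injective actH
  /-- the analytic Kummer maps -/
  ι : ∀ n, H →+ A n
  ι_ker : ∀ n (h : H), ι n h = 0 → ∃ h' : H, h = (p ^ n) • h'
  tr_ι : ∀ n (h : H), tr n (ι (n + 1) h) = ι n h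
  ι_T : ∀ n (ℓ : ℕ) (hℓ : ℓ.Prime) (hℓN : ¬ ℓ ∣ N) (_hℓp : ℓ ≠ p) (h : H),
    ι n (actH (CuspForm.heckeAlgebra.T hℓ hℓN (Set.notMem_empty ℓ)) h) = T n ℓ (ι n h)

attribute [instance] Tower.grp Tower.grpH Tower.freeH Tower.finH

end Fermat.Agent.GR
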