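import Fermat.Agent.GR.FormalHecke
import Fermat.Agent.GR.Defs
import Fermat.Agent.S18.KLModular

/-!
# GR [ES]: unramifiedness, Eichler-Shimura relation and smoothness for Kummer elements of `ℚ̄(X₀(N))`

Everything follows from `S18.KL_modular`, the normal form `S18.gs_normalForm` and the formal
congruence `coeffMap_Mop_char`.
-/

set_option autoImplicit false

namespace Fermat.Agent.GR

open ModularCurve AlgebraicCurve HahnSeries Fermat.Agent.S24 Fermat.Agent.S28 Fermat.Agent.S18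

/-- The Galois action on `ℚ̄(X₀(N))` (on the coefficients of `q`-expansions). -/
noncomputable abbrev galF (N : ℕ) (σ : GQ) : FN N ≃+* FN N :=
  arithmeticRingAut (modularFunctionFieldFull N) σ

theorem coe_galF (N : ℕ) (σ : GQ) (x : FN N) :
    (galF N σ x : LaurentSeries Kb) = coeffMap (σ : Kb →+* Kb) (x : LaurentSeries Kb) := rfl

theorem galF_mul (N : ℕ) (σ τ : GQ) (x : FN N) : galF N (σ * τ) x = galF N σ (galF N τ x) := by
  apply Subtype.ext
  rw [coe_galF, coe_galF, coe_galF, coeffMap_coeffMap]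
  exact coeffMap_congr (RingHom.ext fun _ => rfl) _

theorem galF_one (N : ℕ) (x : FN N) : galF N 1 x = x := by
  apply Subtype.ext
  rw [coe_galF, show ((1 : GQ) : Kb →+* Kb) = RingHom.id Kb from RingHom.ext fun _ => rfl,
    coeffMap_id]

/-- Divisibility of all orders is Galois stable. -/
theorem dvd_ord_galF {N : ℕ} (σ : GQ) {m : ℤ} {u : FN N}
    (h : ∀ P : Place Kb (FN N), m ∣ P.ord u) (P : Place Kb (FN N)) : m ∣ P.ord (galF N σ u) := by
  have h1 := SemilinearAut.ord_smul (arithmeticGalois (modularFunctionFieldFull N) σ)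
    ((arithmeticGalois (modularFunctionFieldFull N) σ)⁻¹ • P) u
  rw [smul_inv_smul] at h1
  have h2 : arithmeticGalois (modularFunctionFieldFull N) σ • u = galF N σ u := rfl
  rw [h2] at h1
  rw [h1]
  exact h _

/-! ### smoothness -/

theorem exists_field_fixing_series {N : ℕ} (x : LaurentSeries Kb) (hx : x ∈ FN N) :
    ∃ L : IntermediateField ℚ Qb, FiniteDimensional ℚ L ∧
      ∀ σ : GQ, (∀ y ∈ L, σ y = y) → coeffMap (σ : Kb →+* Kb) x = x := by
  rw [mem_laurentBaseChange_iff] at hx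
  induction hx using Subfield.closure_induction with
  | mem y hy =>
      rcases hy with ⟨a, rfl⟩ | ⟨z, hz, rfl⟩
      · refine ⟨IntermediateField.adjoin ℚ {a}, ?_, fun σ hσ => ?_⟩
        · exact IntermediateField.adjoin.finiteDimensional
            ((AlgebraicClosure.isAlgebraic ℚ).isAlgebraic a).isIntegral
        · rw [coeffMap_algebraMap]
          congr 1
          exact hσ a (IntermediateField.mem_adjoin_simple_self ℚ a)
      · exact ⟨⊥, inferInstance, fun σ _ => coeffMap_coeffEmb σ z⟩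
  | one => exact ⟨⊥, inferInstance, fun σ _ => map_one _⟩
  | add x y _ _ hx hy =>
      obtain ⟨L₁, h₁, hL₁⟩ := hx
      obtain ⟨L₂, h₂, hL₂⟩ := hy
      refine ⟨L₁ ⊔ L₂, IntermediateField.finiteDimensional_sup L₁ L₂, fun σ hσ => ?_⟩
      rw [map_add, hL₁ σ fun y hy => hσ y ((le_sup_left : L₁ ≤ L₁ ⊔ L₂) hy),
        hL₂ σ fun y hy => hσ y ((le_sup_right : L₂ ≤ L₁ ⊔ L₂) hy)]
  | neg x _ hx =>
      obtain ⟨L₁, h₁, hL₁⟩ := hx
      exact ⟨L₁, h₁, fun σ hσ => by rw [map_neg, hL₁ σ hσ]⟩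
  | inv x _ hx =>
      obtain ⟨L₁, h₁, hL₁⟩ := hx
      exact ⟨L₁, h₁, fun σ hσ => by rw [map_inv₀, hL₁ σ hσ]⟩
  | mul x y _ _ hx hy =>
      obtain ⟨L₁, h₁, hL₁⟩ := hx
      obtain ⟨L₂, h₂, hL₂⟩ := hy
      refine ⟨L₁ ⊔ L₂, IntermediateField.finiteDimensional_sup L₁ L₂, fun σ hσ => ?_⟩
      rw [map_mul, hL₁ σ fun y hy => hσ y ((le_sup_left : L₁ ≤ L₁ ⊔ L₂) hy),
        hL₂ σ fun y hy => hσ y ((le_sup_right : L₂ ≤ L₁ ⊔ L₂) hy)]

/-- **smooth**: every element of `ℚ̄(X₀(N))` is defined over a number field. -/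
theorem exists_field_fixing_FN {N : ℕ} (u : FN N) :
    ∃ L : IntermediateField ℚ Qb, FiniteDimensional ℚ L ∧
      ∀ σ : GQ, (∀ y ∈ L, σ y = y) → galF N σ u = u := by
  obtain ⟨L, hL, h⟩ := exists_field_fixing_series (u : LaurentSeries Kb) u.2
  exact ⟨L, hL, fun σ hσ => Subtype.ext (h σ hσ)⟩

/-! ### reduction of quotients of integral series -/

section Red

variable (A : ValuationSubring Kb)

/-- `f = Y₁ / Y₂`, `Y_i ∈ A((q))`, with reduction `Ȳ₁ / Ȳ₂ = r ≠ 0`. -/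
def Red (f : LaurentSeries Kb) (r : LaurentSeries (kA A)) : Prop :=
  ∃ Y₁ Y₂ : LaurentSeries A, coeffMap (IsLocalRing.residue A) Y₂ ≠ 0 ∧ r ≠ 0 ∧
    f * coeffMap A.subtype Y₂ = coeffMap A.subtype Y₁ ∧
    coeffMap (IsLocalRing.residue A) Y₁ = r * coeffMap (IsLocalRing.residue A) Y₂

variable {A}

theorem Red.one : Red A 1 1 :=
  ⟨1, 1, by rw [map_one]; exact one_ne_zero, one_ne_zero, by rw [one_mul], by rw [one_mul]⟩

theorem Red.mul {f g : LaurentSeries Kb} {r s : LaurentSeries (kA A)} (hf : Red A f r)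
    (hg : Red A g s) : Red A (f * g) (r * s) := by
  obtain ⟨Y₁, Y₂, h0, hr, h, h'⟩ := hf
  obtain ⟨Z₁, Z₂, k0, hs, k, k'⟩ := hg
  refine ⟨Y₁ * Z₁, Y₂ * Z₂, by rw [map_mul]; exact mul_ne_zero h0 k0, mul_ne_zero hr hs, ?_, ?_⟩
  · rw [map_mul, map_mul, ← h, ← k]; ring
  · rw [map_mul, map_mul, h', k']; ring

theorem Red.pow {f : LaurentSeries Kb} {r : LaurentSeries (kA A)} (hf : Red A f r) (n : ℕ) :
    Red A (f ^ n) (r ^ n) := by
  induction n with
  | zero => simpa using Red.one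
  | succ k ih => rw [pow_succ, pow_succ]; exact ih.mul hf

theorem Red.ne_zero {f : LaurentSeries Kb} {r : LaurentSeries (kA A)} (hf : Red A f r) : f ≠ 0 := by
  obtain ⟨Y₁, Y₂, h0, hr, h, h'⟩ := hf
  rintro rfl
  rw [zero_mul] at h
  have : Y₁ = 0 := by
    apply coeffMap_injective A.subtype A.subtype_injective
    rw [← h, map_zero]
  rw [this, map_zero] at h'
  exact mul_ne_zero hr h0 h'.symm

theorem Red.red_ne_zero {f : LaurentSeries Kb} {r : LaurentSeries (kA A)} (hf : Red A f r) :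
    r ≠ 0 := by
  obtain ⟨Y₁, Y₂, h0, hr, h, h'⟩ := hf
  exact hr

theorem Red.inv {f : LaurentSeries Kb} {r : LaurentSeries (kA A)} (hf : Red A f r) :
    Red A f⁻¹ r⁻¹ := by
  have hf0 := hf.ne_zero
  obtain ⟨Y₁, Y₂, h0, hr, h, h'⟩ := hf
  refine ⟨Y₂, Y₁, by rw [h']; exact mul_ne_zero hr h0, inv_ne_zero hr, ?_, ?_⟩
  · rw [← h, ← mul_assoc, inv_mul_cancel₀ hf0, one_mul]
  · rw [h', ← mul_assoc, inv_mul_cancel₀ hr, one_mul]

/-- the action of the decomposition group on `A`, as a ring homomorphism -/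
noncomputable def dA (g : A.decompositionSubgroup ℚ) : A →+* A :=
  MulSemiringAction.toRingHom (A.decompositionSubgroup ℚ) A g

theorem coeffMap_subtype_dA (g : A.decompositionSubgroup ℚ) (Y : LaurentSeries A) :
    coeffMap A.subtype (coeffMap (dA g) Y) =
      coeffMap ((g : GQ) : Kb →+* Kb) (coeffMap A.subtype Y) := by
  rw [coeffMap_coeffMap, coeffMap_coeffMap]
  exact coeffMap_congr (RingHom.ext fun _ => rfl) _

theorem Red.map {f : LaurentSeries Kb} {r : LaurentSeries (kA A)} (hf : Red A f r)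
    (g : A.decompositionSubgroup ℚ) (φ : kA A →+* kA A)
    (hφ : ∀ x : A, IsLocalRing.residue A (g • x) = φ (IsLocalRing.residue A x)) :
    Red A (coeffMap ((g : GQ) : Kb →+* Kb) f) (coeffMap φ r) := by
  obtain ⟨Y₁, Y₂, h0, hr, h, h'⟩ := hf
  have hres : ∀ Y : LaurentSeries A, coeffMap (IsLocalRing.residue A) (coeffMap (dA g) Y) =
      coeffMap φ (coeffMap (IsLocalRing.residue A) Y) := by
    intro Y
    rw [coeffMap_coeffMap, coeffMap_coeffMap]
    exact coeffMap_congr (RingHom.ext fun x => hφ x) _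
  have hinj := coeffMap_injective φ φ.injective
  refine ⟨coeffMap (dA g) Y₁, coeffMap (dA g) Y₂, ?_, ?_, ?_, ?_⟩
  · rw [hres]; exact fun hh => h0 (hinj (by rw [hh, map_zero]))
  · exact fun hh => hr (hinj (by rw [hh, map_zero]))
  · rw [coeffMap_subtype_dA, coeffMap_subtype_dA, ← map_mul, h]
  · rw [hres, hres, h', map_mul]

theorem charP_kA {ℓ : ℕ} (hℓ : ℓ.Prime) (hA : A.LiesOverPrime ℓ) : CharP (kA A) ℓ := by
  rw [CharP.charP_iff_prime_eq_zero hℓ]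
  have h1 : ((ℓ : A) : Kb) ∈ A.nonunits := by
    have : ((ℓ : A) : Kb) = (ℓ : Kb) := by simp
    rw [this]; exact hA
  rw [ValuationSubring.coe_mem_nonunits_iff] at h1
  have h2 := (IsLocalRing.residue_eq_zero_iff _).mpr h1
  rwa [map_natCast] at h2

theorem natCast_kA_ne_zero {ℓ : ℕ} (hℓ : ℓ.Prime) (hA : A.LiesOverPrime ℓ) {N : ℕ}
    (hN : ¬ ℓ ∣ N) : (N : kA A) ≠ 0 := by
  have := charP_kA hℓ hA
  rwa [Ne, CharP.cast_eq_zero_iff (kA A) ℓ]

/-- roots of unity are units of `A` -/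
theorem exists_unit_of_pow_eq_one {ℓ : ℕ} (hℓ : ℓ ≠ 0) (ζ : Kbˣ) (hζ : ζ ^ ℓ = 1) :
    ∃ z : Aˣ, Units.map (A.subtype : A →* Kb) z = ζ ∧ z ^ ℓ = 1 := by
  have h1 : ζ ∈ A.unitGroup := by
    rw [ValuationSubring.mem_unitGroup_iff]
    have : A.valuation (ζ : Kb) ^ ℓ = 1 := by
      rw [← map_pow, ← Units.val_pow_eq_pow_val, hζ, Units.val_one, map_one]
    exact (pow_eq_one_iff.mp this).resolve_right hℓ
  have h2 : Units.map (A.subtype : A →* Kb) (A.unitGroupMulEquiv ⟨ζ, h1⟩) = ζ := Units.ext rfl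
  refine ⟨A.unitGroupMulEquiv ⟨ζ, h1⟩, h2, ?_⟩
  apply Units.map_injective (f := (A.subtype : A →* Kb)) A.subtype_injective
  rw [map_pow, h2, hζ, map_one]

theorem Red.Mop {ℓ : ℕ} [NeZero ℓ] [Fact ℓ.Prime] [CharP (kA A) ℓ] {f : LaurentSeries Kb}
    {r : LaurentSeries (kA A)} (hf : Red A f r) {ζ : Kbˣ} (hζ : IsPrimitiveRoot ζ ℓ) :
    Red A (Mop ζ ℓ f) (qExpand (kA A) ℓ r * coeffMap (frobenius (kA A) ℓ) r) := by
  obtain ⟨Y₁, Y₂, h0, hr, h, h'⟩ := hf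
  obtain ⟨z, hz, hz1⟩ := exists_unit_of_pow_eq_one (A := A) (NeZero.ne ℓ) ζ hζ.pow_eq_one
  have hsub : ∀ Y : LaurentSeries A, coeffMap A.subtype (GR.Mop z ℓ Y) =
      GR.Mop ζ ℓ (coeffMap A.subtype Y) := by
    intro Y
    rw [coeffMap_Mop]
    congr 1
  have hinj := coeffMap_injective (frobenius (kA A) ℓ) (frobenius (kA A) ℓ).injective
  have hne : ∀ x : LaurentSeries (kA A), x ≠ 0 →
      qExpand (kA A) ℓ x * coeffMap (frobenius (kA A) ℓ) x ≠ 0 := by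
    intro x hx
    refine mul_ne_zero (fun hh => hx ?_) (fun hh => hx ?_)
    · exact qExpand_injective (R := kA A) ℓ (by rw [hh, map_zero])
    · exact hinj (by rw [hh, map_zero])
  refine ⟨GR.Mop z ℓ Y₁, GR.Mop z ℓ Y₂, ?_, hne r hr, ?_, ?_⟩
  · rw [coeffMap_Mop_char ℓ _ z hz1]
    exact hne _ h0
  · rw [hsub, hsub, ← Mop_mul hζ, h]
  · rw [coeffMap_Mop_char ℓ _ z hz1, coeffMap_Mop_char ℓ _ z hz1, h', map_mul, map_mul]
    ring

end Red

/-! ### divisibility of divisors -/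

/-- `m ∣ ord_P u` for all places `P`. -/
def DvdOrd (N m : ℕ) (u : FN N) : Prop := ∀ P : Place Kb (FN N), (m : ℤ) ∣ P.ord u

theorem DvdOrd.mul {N m : ℕ} {u v : FN N} (hu : DvdOrd N m u) (hv : DvdOrd N m v) :
    DvdOrd N m (u * v) := by
  intro P
  by_cases hu0 : u = 0
  · rw [hu0, zero_mul, Place.ord_zero]; exact dvd_zero _
  by_cases hv0 : v = 0
  · rw [hv0, mul_zero, Place.ord_zero]; exact dvd_zero _
  rw [P.ord_mul hu0 hv0]
  exact dvd_add (hu P) (hv P)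

theorem DvdOrd.inv {N m : ℕ} {u : FN N} (hu : DvdOrd N m u) : DvdOrd N m u⁻¹ := by
  intro P
  rw [P.ord_inv]
  exact (dvd_neg).mpr (hu P)

theorem DvdOrd.one {N m : ℕ} : DvdOrd N m 1 := by
  intro P
  rw [P.ord_one]; exact dvd_zero _

theorem DvdOrd.pow {N m : ℕ} {u : FN N} (hu : DvdOrd N m u) (n : ℕ) : DvdOrd N m (u ^ n) := by
  induction n with
  | zero => simpa using DvdOrd.one
  | succ k ih => rw [pow_succ]; exact ih.mul hu

theorem dvdOrd_pow_self {N : ℕ} (m : ℕ) (w : FN N) : DvdOrd N m (w ^ m) := by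
  intro P
  rw [← zpow_natCast, P.ord_zpow]
  exact dvd_mul_right _ _

theorem DvdOrd.galF {N m : ℕ} {u : FN N} (hu : DvdOrd N m u) (σ : GQ) :
    DvdOrd N m (galF N σ u) := dvd_ord_galF σ hu

/-! ### the main theorems -/

section Main

variable {N : ℕ} [NeZero N] {ℓ : ℕ} {A : ValuationSubring Kb} {m : ℕ}

theorem exists_red (hℓ : ℓ.Prime) (hℓN : ¬ ℓ ∣ N) (hA : A.LiesOverPrime ℓ) (u : FN N)
    (hu : u ≠ 0) : ∃ (c : Kb) (r : LaurentSeries (kA A)), c ≠ 0 ∧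
      Red A (C c * (u : LaurentSeries Kb)) r := by
  obtain ⟨c, Y₁, Y₂, hc, h1, h2, -, -, h⟩ := gs_normalForm A N (natCast_kA_ne_zero hℓ hA hℓN)
    (u : LaurentSeries Kb) u.2 (fun h => hu (Subtype.ext h))
  exact ⟨c, coeffMap (IsLocalRing.residue A) Y₁ / coeffMap (IsLocalRing.residue A) Y₂, hc, Y₁, Y₂,
    h2, div_ne_zero h1 h2, h, by rw [div_mul_cancel₀ _ h2]⟩

/-- KL in the form we use: `c v ≡ 1` for a constant `c`. -/
theorem KL_red (hℓ : ℓ.Prime) (hℓN : ¬ ℓ ∣ N) (hA : A.LiesOverPrime ℓ) (hm : ¬ ℓ ∣ m)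
    (v : FN N) (hord : DvdOrd N m v) (c : Kb) (hc : c ≠ 0)
    (h : Red A (C c * (v : LaurentSeries Kb)) 1) : ∃ w : FN N, v = w ^ m := by
  have hm0 : 0 < m := Nat.pos_of_ne_zero (fun h0 => hm (h0 ▸ dvd_zero ℓ))
  obtain ⟨d, hd⟩ := IsAlgClosed.exists_pow_nat_eq c hm0
  have hd0 : d ≠ 0 := by
    rintro rfl
    rw [zero_pow hm0.ne'] at hd
    exact hc hd.symm
  have hd0' : algebraMap Kb (FN N) d ≠ 0 := by
    rw [Ne, map_eq_zero]; exact hd0
  have hcoe : ((algebraMap Kb (FN N) d ^ m * v : FN N) : LaurentSeries Kb) =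
      C c * (v : LaurentSeries Kb) := by
    rw [← hd, map_pow, ← S28.algebraMap_eq_C]
    rfl
  obtain ⟨Y₁, Y₂, h0, -, h1, h2⟩ := h
  obtain ⟨w, hw⟩ := KL_modular N hℓ hℓN A hA m hm (algebraMap Kb (FN N) d ^ m * v)
    ((dvdOrd_pow_self m _).mul hord) Y₁ Y₂ (by rw [h2, one_mul]) h0 (by rw [hcoe, h1])
  refine ⟨w * (algebraMap Kb (FN N) d)⁻¹, ?_⟩
  rw [mul_pow, hw, inv_pow]
  field_simp

/-- **unram**: inertia at `ℓ ∤ N m` acts trivially on Kummer classes. -/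
theorem unram_FN (hℓ : ℓ.Prime) (hℓN : ¬ ℓ ∣ N) (hA : A.LiesOverPrime ℓ) (hm : ¬ ℓ ∣ m)
    {τ : GQ} (hτ : τ ∈ A.inertiaSubgroupIn ℚ) (u : FN N) (hu : u ≠ 0) (hord : DvdOrd N m u) :
    ∃ w : FN N, galF N τ u = u * w ^ m := by
  obtain ⟨g, hg, rfl⟩ := hτ
  obtain ⟨c, r, hc, hX⟩ := exists_red hℓ hℓN hA u hu
  have hφ : ∀ x : A, IsLocalRing.residue A (g • x) = RingHom.id (kA A) (IsLocalRing.residue A x) := by
    intro x
    rw [IsLocalRing.ResidueField.residue_smul]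
    have := MonoidHom.mem_ker.mp hg
    exact congrArg (fun e => e (IsLocalRing.residue A x)) this
  have h1 := (hX.map g _ hφ).mul hX.inv
  rw [coeffMap_id, mul_inv_cancel₀ hX.red_ne_zero] at h1
  have hcoe : C ((g : GQ) c * c⁻¹) * ((galF N (g : GQ) u * u⁻¹ : FN N) : LaurentSeries Kb) =
      coeffMap ((g : GQ) : Kb →+* Kb) (C c * (u : LaurentSeries Kb)) *
        (C c * (u : LaurentSeries Kb))⁻¹ := by
    rw [map_mul (coeffMap _), coeffMap_C, mul_inv, map_mul C, map_inv₀]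
    show _ * _ * (coeffMap _ (u : LaurentSeries Kb) * (u : LaurentSeries Kb)⁻¹) = _
    simp only [RingHom.coe_coe]
    ring
  obtain ⟨w, hw⟩ := KL_red hℓ hℓN hA hm (galF N (g : GQ) u * u⁻¹) ((hord.galF _).mul hord.inv)
    ((g : GQ) c * c⁻¹) (mul_ne_zero (by rw [Ne, map_eq_zero]; exact hc) (inv_ne_zero hc))
    (by rw [hcoe]; exact h1)
  refine ⟨w, ?_⟩
  rw [← hw]
  show galF N (g : GQ) u = _
  field_simp

/-- **es**: the Eichler-Shimura relation `σ²u · u^ℓ = σ(T_ℓ u)` modulo `m`-th powers. -/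
theorem es_FN [NeZero ℓ] (hℓ : ℓ.Prime) (hℓN : ¬ ℓ ∣ N) (hA : A.LiesOverPrime ℓ) (hm : ¬ ℓ ∣ m)
    {σ : GQ} (hσ : A.IsFrobeniusAt σ ℓ) (u u' : FN N) (hu : u ≠ 0) (hord : DvdOrd N m u)
    (hord' : DvdOrd N m u') {ζ : Kbˣ} (hζ : IsPrimitiveRoot ζ ℓ)
    (hu' : (u' : LaurentSeries Kb) = Mop ζ ℓ (u : LaurentSeries Kb)) :
    ∃ w : FN N, galF N σ (galF N σ u) * u ^ ℓ = galF N σ u' * w ^ m := by
  have : Fact ℓ.Prime := ⟨hℓ⟩
  have := charP_kA hℓ hA
  obtain ⟨hσd, hσF⟩ := hσ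
  have hφ : ∀ x : A, IsLocalRing.residue A ((⟨σ, hσd⟩ : A.decompositionSubgroup ℚ) • x) =
      frobenius (kA A) ℓ (IsLocalRing.residue A x) := by
    intro x
    rw [IsLocalRing.ResidueField.residue_smul, hσF, frobenius_def]
  obtain ⟨c, r, hc, hX⟩ := exists_red hℓ hℓN hA u hu
  have hr := hX.red_ne_zero
  have hM : Mop ζ ℓ (C c * (u : LaurentSeries Kb)) = C (c ^ (ℓ + 1)) * (u' : LaurentSeries Kb) := by
    rw [Mop_mul hζ, Mop_C, hu']
  have hu'0 : u' ≠ 0 := by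
    rintro rfl
    apply (hX.Mop hζ).ne_zero
    rw [hM]
    exact mul_zero _
  have h1 := (((hX.map _ _ hφ).map _ _ hφ).mul (hX.pow ℓ)).mul ((hX.Mop hζ).map _ _ hφ).inv
  have hinj := coeffMap_injective (frobenius (kA A) ℓ) (frobenius (kA A) ℓ).injective
  have hFF : coeffMap (frobenius (kA A) ℓ) (coeffMap (frobenius (kA A) ℓ) r) ≠ 0 := by
    intro hh
    exact hr (hinj (hinj (by rw [hh, map_zero, map_zero])))
  rw [map_mul (coeffMap (frobenius (kA A) ℓ)), coeffMap_frobenius_qExpand, mul_comm (r ^ ℓ),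
    mul_inv_cancel₀ (mul_ne_zero hFF (pow_ne_zero _ hr)), hM] at h1
  have hcoe : ∀ e : Kb, C (σ (σ c) * c ^ ℓ * (σ e)⁻¹) *
      ((galF N σ (galF N σ u) * u ^ ℓ * (galF N σ u')⁻¹ : FN N) : LaurentSeries Kb) =
      coeffMap (σ : Kb →+* Kb) (coeffMap (σ : Kb →+* Kb) (C c * (u : LaurentSeries Kb))) *
        (C c * (u : LaurentSeries Kb)) ^ ℓ *
        (coeffMap (σ : Kb →+* Kb) (C e * (u' : LaurentSeries Kb)))⁻¹ := by
    intro e
    simp only [map_mul (coeffMap _), coeffMap_C, mul_inv, map_mul C, map_inv₀, mul_pow, map_pow C]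
    show _ * _ * _ * (coeffMap _ (coeffMap _ (u : LaurentSeries Kb)) * (u : LaurentSeries Kb) ^ ℓ *
      (coeffMap _ (u' : LaurentSeries Kb))⁻¹) = _
    simp only [RingHom.coe_coe]
    ring
  obtain ⟨w, hw⟩ := KL_red hℓ hℓN hA hm (galF N σ (galF N σ u) * u ^ ℓ * (galF N σ u')⁻¹)
    ((((hord.galF _).galF _).mul (hord.pow ℓ)).mul (hord'.galF _).inv)
    (σ (σ c) * c ^ ℓ * (σ (c ^ (ℓ + 1)))⁻¹)
    (mul_ne_zero (mul_ne_zero (by simpa using hc) (pow_ne_zero _ hc))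
      (inv_ne_zero (by simpa using hc)))
    (by rw [hcoe]; exact h1)
  refine ⟨w, ?_⟩
  rw [← hw]
  have : galF N σ u' ≠ 0 := by rw [Ne, map_eq_zero_iff _ (galF N σ).injective]; exact hu'0
  field_simp

end Main

end Fermat.Agent.GR
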