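import Fermat.Agent.GR.Defs

/-!
# GR, piece EIG: existence of eigenvectors in `𝒪 ⊗ H` (characteristic zero)
-/

set_option autoImplicit false
set_option linter.style.haveILetI false

namespace Fermat.Agent.GR

open TensorProduct

/-- finitely many commuting operators which are nilpotent on `x ≠ 0` have a common kernel vector in
the submodule generated by `x`. -/
theorem eig_common_kernel {A N : Type*} [CommRing A] [AddCommGroup N] [Module A N] (S : Finset A)
    (x : N) (hx : x ≠ 0) (h : ∀ t ∈ S, ∃ k : ℕ, t ^ k • x = 0) :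
    ∃ a : A, a • x ≠ 0 ∧ ∀ t ∈ S, t • (a • x) = 0 := by
  classical
  induction S using Finset.induction_on with
  | empty => exact ⟨1, by rwa [one_smul], by simp⟩
  | insert t S _ ih =>
    obtain ⟨a, ha, hS⟩ := ih fun s hs => h s (Finset.mem_insert_of_mem hs)
    obtain ⟨k, hk⟩ := h t (Finset.mem_insert_self t S)
    have hex : ∃ k : ℕ, t ^ k • (a • x) = 0 := ⟨k, by rw [smul_comm, hk, smul_zero]⟩
    have hpos : Nat.find hex ≠ 0 := by
      intro h0
      have := Nat.find_spec hex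
      rw [h0, pow_zero, one_smul] at this
      exact ha this
    obtain ⟨j, hj⟩ := Nat.exists_eq_succ_of_ne_zero hpos
    have hj1 : t ^ j • (a • x) ≠ 0 := Nat.find_min hex (by omega)
    refine ⟨t ^ j * a, by rwa [mul_smul], ?_⟩
    intro s hs
    rw [Finset.mem_insert] at hs
    rcases hs with rfl | hs
    · have := Nat.find_spec hex
      rw [hj, Nat.succ_eq_add_one, pow_succ', mul_smul] at this
      rw [mul_smul]
      exact this
    · rw [mul_smul, smul_comm, hS s hs, smul_zero]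

/-- Let `R` be a commutative ring acting faithfully on a finitely generated free `ℤ`-module `H` and
`χ : R → 𝒪` a ring homomorphism to a domain of characteristic zero.  Then `𝒪 ⊗ H` contains a
nonzero `χ`-eigenvector.

Proof.  `A = 𝒪 ⊗ R`, `χ_A : A → 𝒪`, `s r = 1 ⊗ r`, `t r = s r - χ r`.  Every `r` is integral over `ℤ`:
`Q(r) = 0`, `Q = (X - χ r)^k ν`, `ν(χ r) ≠ 0`.  `u = ∏_{r ∈ G} ν_r(s r)` (`G` a finite set of generators of
the `ℤ`-module `R`) has `χ_A u ≠ 0` and `(t r)^k u = 0`; `eig_common_kernel` gives `e ≠ 0` in `A` killed by the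
`t r`; by flatness of `𝒪` over `ℤ` some `e (1 ⊗ b_i) ≠ 0`. -/
theorem exists_eigenvector_abs {R H 𝒪 : Type} [CommRing R] [AddCommGroup H] [Module.Free ℤ H]
    [Module.Finite ℤ H] (φ : R →+* Module.End ℤ H) (hφ : Function.Injective φ)
    [CommRing 𝒪] [IsDomain 𝒪] [CharZero 𝒪] (χ : R →+* 𝒪) :
    ∃ h : 𝒪 ⊗[ℤ] H, h ≠ 0 ∧ ∀ r : R, (φ r).baseChange 𝒪 h = χ r • h := by
  classical
  let φL : R →ₗ[ℤ] Module.End ℤ H := φ.toAddMonoidHom.toIntLinearMap
  haveI : Module.Finite ℤ R := Module.Finite.of_injective φL hφ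
  haveI : Algebra.IsIntegral ℤ R := Algebra.IsIntegral.of_finite ℤ R
  obtain ⟨G, hG⟩ : (⊤ : Submodule ℤ R).FG := Module.Finite.fg_top
  let A := 𝒪 ⊗[ℤ] R
  let χA : A →ₐ[𝒪] 𝒪 :=
    Algebra.TensorProduct.lift (AlgHom.id 𝒪 𝒪) χ.toIntAlgHom (fun _ _ => Commute.all _ _)
  let s : R →ₐ[ℤ] A := Algebra.TensorProduct.includeRight
  have hχs : ∀ r, χA (s r) = χ r := by
    intro r
    change χA ((1 : 𝒪) ⊗ₜ r) = _
    rw [Algebra.TensorProduct.lift_tmul]
    simp
  -- the polynomials
  have hpoly : ∀ r : R, ∃ (k : ℕ) (w : A), (s r - algebraMap 𝒪 A (χ r)) ^ k * w = 0 ∧ χA w ≠ 0 := by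
    intro r
    obtain ⟨Q, hQm, hQ⟩ := Algebra.IsIntegral.isIntegral (R := ℤ) r
    have hQ' : (Q.map (Int.castRingHom 𝒪)) ≠ 0 := (hQm.map _).ne_zero
    obtain ⟨ν, hν, hdvd⟩ :=
      Polynomial.exists_eq_pow_rootMultiplicity_mul_and_not_dvd _ hQ' (χ r)
    refine ⟨Polynomial.rootMultiplicity (χ r) (Q.map (Int.castRingHom 𝒪)),
      Polynomial.aeval (s r) ν, ?_, ?_⟩
    · have h1 : Polynomial.aeval (s r) (Q.map (Int.castRingHom 𝒪)) = 0 := by
        have e : Int.castRingHom 𝒪 = algebraMap ℤ 𝒪 := rfl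
        rw [e, Polynomial.aeval_map_algebraMap, Polynomial.aeval_algHom_apply]
        have : Polynomial.aeval r Q = 0 := hQ
        rw [this, map_zero]
      rw [hν, map_mul, map_pow, map_sub, Polynomial.aeval_X, Polynomial.aeval_C] at h1
      exact h1
    · rw [← Polynomial.aeval_algHom_apply, hχs]
      intro h0
      apply hdvd
      rw [Polynomial.dvd_iff_isRoot]
      simpa using h0
  choose k w hkw hw using hpoly
  let u : A := ∏ r ∈ G, w r
  have hu : u ≠ 0 := by
    intro h0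
    have h1 : χA u = ∏ r ∈ G, χA (w r) := map_prod χA _ _
    rw [h0, map_zero] at h1
    exact (Finset.prod_ne_zero_iff.mpr fun r _ => hw r) h1.symm
  let t : R → A := fun r => s r - algebraMap 𝒪 A (χ r)
  obtain ⟨a, hae, hkill⟩ := eig_common_kernel (G.image t) u hu (by
    intro x hx
    rw [Finset.mem_image] at hx
    obtain ⟨r, hr, rfl⟩ := hx
    refine ⟨k r, ?_⟩
    obtain ⟨c, hc⟩ := Finset.dvd_prod_of_mem w hr
    change t r ^ k r * u = 0
    have : u = w r * c := hc
    rw [this, ← mul_assoc, hkw r, zero_mul])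
  set e : A := a • u with he
  have hse : ∀ r ∈ G, s r * e = χ r • e := by
    intro r hr
    have h1 : t r * e = 0 := hkill (t r) (Finset.mem_image_of_mem t hr)
    have h2 : (s r - algebraMap 𝒪 A (χ r)) * e = 0 := h1
    rw [sub_mul, sub_eq_zero] at h2
    rw [h2]
    exact (Algebra.smul_def (χ r) e).symm
  -- faithfulness
  let b := Module.Free.chooseBasis ℤ H
  let evi : Module.Free.ChooseBasisIndex ℤ H → R →ₗ[ℤ] H := fun i => (LinearMap.applyₗ (b i)).comp φL
  let ev : R →ₗ[ℤ] (Module.Free.ChooseBasisIndex ℤ H → H) := LinearMap.pi evi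
  have hev : Function.Injective ev := by
    intro r r' hrr
    apply hφ
    apply b.ext
    intro i
    exact congrFun hrr i
  have hinj := Module.Flat.lTensor_preserves_injective_linearMap (M := 𝒪) ev hev
  have hcomp : ∀ (z : A) (i : Module.Free.ChooseBasisIndex ℤ H),
      TensorProduct.piRight ℤ ℤ 𝒪 (fun _ : Module.Free.ChooseBasisIndex ℤ H => H)
        (LinearMap.lTensor 𝒪 ev z) i = (evi i).baseChange 𝒪 z := by
    intro z i
    induction z using TensorProduct.induction_on with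
    | zero => simp
    | tmul c r =>
      rw [LinearMap.lTensor_tmul, TensorProduct.piRight_apply, TensorProduct.piRightHom_tmul,
        LinearMap.baseChange_tmul]
      rfl
    | add x y hx hy => simp only [map_add, Pi.add_apply, hx, hy]
  obtain ⟨i, hi⟩ : ∃ i, (evi i).baseChange 𝒪 e ≠ 0 := by
    by_contra hcon
    push Not at hcon
    apply hae
    apply hinj
    rw [map_zero]
    apply (TensorProduct.piRight ℤ ℤ 𝒪 (fun _ : Module.Free.ChooseBasisIndex ℤ H => H)).injective
    rw [map_zero]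
    funext j
    rw [hcomp, hcon j]
    rfl
  have hequiv : ∀ (r : R) (z : A),
      (φ r).baseChange 𝒪 ((evi i).baseChange 𝒪 z) = (evi i).baseChange 𝒪 (s r * z) := by
    intro r z
    induction z using TensorProduct.induction_on with
    | zero => simp
    | tmul c r' =>
      change _ = (evi i).baseChange 𝒪 (((1 : 𝒪) ⊗ₜ[ℤ] r) * (c ⊗ₜ[ℤ] r'))
      rw [Algebra.TensorProduct.tmul_mul_tmul, LinearMap.baseChange_tmul, LinearMap.baseChange_tmul,
        LinearMap.baseChange_tmul, one_mul]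
      congr 1
      change φ r (φ r' (b i)) = φ (r * r') (b i)
      rw [map_mul]
      rfl
    | add x y hx hy => simp only [map_add, mul_add, hx, hy]
  refine ⟨(evi i).baseChange 𝒪 e, hi, ?_⟩
  intro r
  have hr : r ∈ Submodule.span ℤ (G : Set R) := by rw [hG]; trivial
  induction hr using Submodule.span_induction with
  | mem r hr => rw [hequiv, hse r hr, map_smul]
  | zero => simp
  | add x y _ _ hx hy => rw [map_add, LinearMap.baseChange_add, LinearMap.add_apply, hx, hy, map_add,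
      add_smul]
  | smul n x _ hx =>
    rw [map_zsmul, LinearMap.baseChange_smul, LinearMap.smul_apply, hx, map_zsmul, smul_assoc]

/-- The version for a tower. -/
theorem Tower.exists_eigenvector {p N : ℕ} [NeZero N] (𝔗 : Tower p N) (S : Set ℕ)
    {𝒪 : Type} [CommRing 𝒪] [IsDomain 𝒪] [CharZero 𝒪]
    (χ : CuspForm.heckeAlgebra N 2 S →+* 𝒪) :
    ∃ h : 𝒪 ⊗[ℤ] 𝔗.H, h ≠ 0 ∧ ∀ (ℓ : ℕ) (hℓ : ℓ.Prime) (hℓN : ¬ ℓ ∣ N) (hℓS : ℓ ∉ S),
      (𝔗.actH (CuspForm.heckeAlgebra.T hℓ hℓN (Set.notMem_empty ℓ))).baseChange 𝒪 h =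
        χ (CuspForm.heckeAlgebra.T hℓ hℓN hℓS) • h := by
  let incl : CuspForm.heckeAlgebra N 2 S →+* CuspForm.heckeAlgebra N 2 (∅ : Set ℕ) :=
    (Subalgebra.inclusion (CuspForm.heckeAlgebra_mono (Set.empty_subset S))).toRingHom
  have hincl : Function.Injective incl :=
    Subalgebra.inclusion_injective (CuspForm.heckeAlgebra_mono (Set.empty_subset S))
  obtain ⟨h, hh, hr⟩ := exists_eigenvector_abs (𝔗.actH.comp incl) (𝔗.actH_inj.comp hincl) χ
  refine ⟨h, hh, ?_⟩
  intro ℓ hℓ hℓN hℓS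
  exact hr (CuspForm.heckeAlgebra.T hℓ hℓN hℓS)

end Fermat.Agent.GR
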