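import Fermat.Agent.GR.Defs
import Fermat.Agent.FD.Main

/-!
# GR, piece FD: the Frobenius density theorem (weak form of Chebotarev)

Every element `g` of `Gal(L/ℚ)` is a power of a Frobenius element at a prime outside any given
finite set.  (Equivalently: the cyclic group `⟨g⟩` is generated by a Frobenius.)

Paper proof.  Replace `L` by its normal closure `L'`, `Γ = Gal(L'/ℚ)`, `C = ⟨g|L'⟩`, `M = L'^C`,
`n = |C|`.  For a subgroup `D ≤ C` put
`S_D(s) = ∑ N𝔭^{-s}` over the primes `𝔭` of `M` of degree one over `ℚ`, unramified in `L'`, not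
above `B`, with `Frob_𝔭 ∈ D` (`⇔ 𝔭` splits completely in `L'^D`), and `f_D(s)` the same sum with
`⟨Frob_𝔭⟩ = D`.  Every such `𝔭` has exactly `[C : D]` primes of `L'^D` above it, all of degree one,
and every degree one prime of `L'^D` arises, hence
`S_D(s) = (|D| / n) log (1/(s-1)) + O(1)` as `s → 1+` (S14: `exp_primeSum_le_zetaR`,
`eventually_zetaR_bounds`, `summable_prime_rpow`; primes of degree `≥ 2` contribute `O(1)`).
Since `S_D = ∑_{D' ≤ D} f_{D'}` and `∑_{D' ≤ D} φ(|D'|) = |D|`, strong induction on `|D|` gives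
`f_D(s) = (φ(|D|) / n) log (1/(s-1)) + O(1)`; in particular `f_C` is unbounded, so there is a prime
`𝔭` of `M` with `⟨Frob_𝔭⟩ = C`: `g = Frob^k` on `L'`.  Finally extend the prime of `L'` to a
valuation subring `P` of `ℚ̄` and lift the Frobenius to `σ ∈ G_ℚ` with `P.IsFrobeniusAt σ ℓ`
(the decomposition group of `P` surjects onto `Gal(𝔽̄_ℓ/𝔽_ℓ)`; choose a Frobenius lift `σ₀` for `P`,
its restriction to `L'` is THE Frobenius of `P ∩ L'` because `ℓ` is unramified in `L'`).
NB: the plain union bound over the maximal subgroups of `C` fails (`1/2 + 1/3 + 1/5 > 1`).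
-/

set_option autoImplicit false

namespace Fermat.Agent.GR

theorem frobenius_density (L : IntermediateField ℚ Qb) [FiniteDimensional ℚ L] (g : GQ)
    (B : Finset ℕ) :
    ∃ ℓ : ℕ, ℓ.Prime ∧ ℓ ∉ B ∧ ∃ P : ValuationSubring Qb, P.LiesOverPrime ℓ ∧
      ∃ σ : GQ, P.IsFrobeniusAt σ ℓ ∧ ∃ k : ℕ, ∀ x ∈ L, (σ ^ k) x = g x := by
  obtain ⟨ℓ, P, σ, k, h1, h2, h3, h4, _, h6⟩ := FD.exists_frobenius_pow_eq L g B
  exact ⟨ℓ, h1, h2, P, h3, σ, h4, k, h6⟩

end Fermat.Agent.GR
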