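import Mathlib

/-!
# GR: two consequences of flatness over `ℤ` (used for LIM-1, LIM-2)
-/

set_option autoImplicit false

namespace Fermat.Agent.GR

open TensorProduct

/-- If `f` kills the `m`-torsion of `B` then `𝒪 ⊗ f` kills the `m`-torsion of `𝒪 ⊗ B` (`𝒪` flat). -/
theorem flat_torsion {𝒪 B C : Type*} [CommRing 𝒪] [Module.Flat ℤ 𝒪] [AddCommGroup B]
    [AddCommGroup C] (f : B →ₗ[ℤ] C) (m : ℤ) (hf : ∀ b : B, m • b = 0 → f b = 0)
    (y : 𝒪 ⊗[ℤ] B) (hy : m • y = 0) : f.baseChange 𝒪 y = 0 := by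
  let g : B →ₗ[ℤ] B := m • LinearMap.id
  have hex : Function.Exact (LinearMap.ker g).subtype g := LinearMap.exact_subtype_ker_map g
  have hex' := Module.Flat.lTensor_exact 𝒪 hex
  have hg : LinearMap.lTensor 𝒪 g y = 0 := by
    simp only [g]
    rw [LinearMap.lTensor_smul, LinearMap.lTensor_id, LinearMap.smul_apply, LinearMap.id_apply, hy]
  obtain ⟨z, rfl⟩ := (hex' y).mp hg
  have h0 : f.comp (LinearMap.ker g).subtype = 0 := by
    ext ⟨b, hb⟩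
    exact hf b hb
  change LinearMap.lTensor 𝒪 f (LinearMap.lTensor 𝒪 (LinearMap.ker g).subtype z) = 0
  rw [← LinearMap.comp_apply, ← LinearMap.lTensor_comp, h0, LinearMap.lTensor_zero,
    LinearMap.zero_apply]

/-- If `ker f ⊆ m H` then `ker (𝒪 ⊗ f) ⊆ m (𝒪 ⊗ H)` (`𝒪` flat). -/
theorem flat_ker {𝒪 H B : Type*} [CommRing 𝒪] [Module.Flat ℤ 𝒪] [AddCommGroup H]
    [AddCommGroup B] (f : H →ₗ[ℤ] B) (m : ℤ) (hf : ∀ h : H, f h = 0 → ∃ h' : H, h = m • h')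
    (y : 𝒪 ⊗[ℤ] H) (hy : f.baseChange 𝒪 y = 0) : ∃ y' : 𝒪 ⊗[ℤ] H, y = m • y' := by
  have hex : Function.Exact (LinearMap.ker f).subtype f := LinearMap.exact_subtype_ker_map f
  have hex' := Module.Flat.lTensor_exact 𝒪 hex
  obtain ⟨z, rfl⟩ := (hex' y).mp hy
  clear hy
  induction z using TensorProduct.induction_on with
  | zero => exact ⟨0, by simp⟩
  | tmul c k =>
    obtain ⟨h', hh'⟩ := hf k.1 k.2
    refine ⟨c ⊗ₜ h', ?_⟩
    rw [LinearMap.lTensor_tmul, Submodule.subtype_apply, hh', TensorProduct.tmul_smul]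
  | add a b ha hb =>
    obtain ⟨a', ha'⟩ := ha
    obtain ⟨b', hb'⟩ := hb
    exact ⟨a' + b', by rw [map_add, ha', hb', smul_add]⟩

/-- An element of `𝒪 ⊗ H` (`H` free) which is divisible by all `p ^ n` vanishes if `𝒪` is `p`-adically
separated. -/
theorem tensor_eq_zero_of_forall_dvd {𝒪 H : Type*} [CommRing 𝒪] [AddCommGroup H] [Module.Free ℤ H]
    (p : ℕ) (hsep : ∀ a : 𝒪, (∀ n : ℕ, a ∈ Ideal.span {(p : 𝒪) ^ n}) → a = 0)
    (y : 𝒪 ⊗[ℤ] H) (hy : ∀ n : ℕ, ∃ y' : 𝒪 ⊗[ℤ] H, y = ((p ^ n : ℕ) : ℤ) • y') : y = 0 := by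
  let b := Algebra.TensorProduct.basis 𝒪 (Module.Free.chooseBasis ℤ H)
  apply b.repr.injective
  rw [map_zero]
  ext i
  rw [Finsupp.zero_apply]
  apply hsep
  intro n
  obtain ⟨y', hy'⟩ := hy n
  rw [Ideal.mem_span_singleton]
  refine ⟨b.repr y' i, ?_⟩
  have h1 : y = ((p : 𝒪) ^ n) • y' := by
    rw [hy', ← Int.cast_smul_eq_zsmul 𝒪]
    push_cast
    rfl
  rw [h1, map_smul, Finsupp.smul_apply, smul_eq_mul]

end Fermat.Agent.GR
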