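import Mathlib

/-!
# GR, piece LUC: Lucas sequences `P_k(a, d) = α^k + β^k`, `X² - aX + d = (X-α)(X-β)`
-/

set_option autoImplicit false

namespace Fermat.Agent.GR

/-- `luc a d k = α ^ k + β ^ k` where `α + β = a`, `α β = d`. -/
def luc {R : Type*} [CommRing R] (a d : R) : ℕ → R
  | 0 => 2
  | 1 => a
  | (k + 2) => a * luc a d (k + 1) - d * luc a d k

theorem map_luc {R R' : Type*} [CommRing R] [CommRing R'] (f : R →+* R') (a d : R) (k : ℕ) :
    f (luc a d k) = luc (f a) (f d) k := by
  induction k using Nat.twoStepInduction with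
  | zero => simp only [luc]; exact map_ofNat f 2
  | one => simp [luc]
  | more n h0 h1 => simp [luc, h0, h1]

theorem luc_add_mul {A : Type*} [CommRing A] (s s' : A) (k : ℕ) :
    luc (s + s') (s * s') k = s ^ k + s' ^ k := by
  induction k using Nat.twoStepInduction with
  | zero => simp [luc]; norm_num
  | one => simp [luc]
  | more n h0 h1 =>
    simp only [luc, h0, h1]
    ring

open Polynomial in
theorem luc_dvd {R : Type*} [CommRing R] (a d : R) (k : ℕ) :
    (X ^ 2 - C a * X + C d : R[X]) ∣ X ^ k * X ^ k - C (luc a d k) * X ^ k + C (d ^ k) := by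
  set q : R[X] := X ^ 2 - C a * X + C d with hq
  rw [← AdjoinRoot.mk_eq_zero]
  set s : AdjoinRoot q := AdjoinRoot.mk q X with hs
  let o : R →+* AdjoinRoot q := (AdjoinRoot.mk q).comp C
  have ho : ∀ r : R, AdjoinRoot.mk q (C r) = o r := fun r => rfl
  have h0 : s ^ 2 - o a * s + o d = 0 := by
    have h00 : AdjoinRoot.mk q (X ^ 2 - C a * X + C d) = 0 := AdjoinRoot.mk_self
    simpa only [map_add, map_sub, map_mul, map_pow, ho, ← hs] using h00
  have h1 : o a = s + (o a - s) := by ring
  have h2 : o d = s * (o a - s) := by linear_combination h0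
  have h3 : o (luc a d k) = s ^ k + (o a - s) ^ k := by
    rw [map_luc, h2]
    have h4 := luc_add_mul s (o a - s) k
    rwa [← h1] at h4
  simp only [map_add, map_sub, map_mul, map_pow, ho, ← hs]
  rw [h3, h2, mul_pow]
  ring

/-- If `σ² - aσ + d = 0` on a module then `σ^{2k} - P_k(a,d) σ^k + d^k = 0`. -/
theorem luc_relation {R M : Type*} [CommRing R] [AddCommGroup M] [Module R M]
    (σ : Module.End R M) (a d : R) (h : σ * σ - a • σ + d • (1 : Module.End R M) = 0) (k : ℕ) :
    σ ^ k * σ ^ k - luc a d k • σ ^ k + d ^ k • (1 : Module.End R M) = 0 := by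
  obtain ⟨g, hg⟩ := luc_dvd a d k
  have h1 := congrArg (Polynomial.aeval σ) hg
  have h2 : Polynomial.aeval σ (Polynomial.X ^ 2 - Polynomial.C a * Polynomial.X + Polynomial.C d
      : Polynomial R) = 0 := by
    simp only [map_add, map_sub, map_mul, map_pow, Polynomial.aeval_X, Polynomial.aeval_C,
      Algebra.algebraMap_eq_smul_one, smul_mul_assoc, one_mul]
    rw [sq]
    exact h
  rw [map_mul, h2, zero_mul] at h1
  simp only [map_add, map_sub, map_mul, map_pow, Polynomial.aeval_X, Polynomial.aeval_C,
    Algebra.algebraMap_eq_smul_one, smul_mul_assoc, one_mul] at h1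
  rw [← h1, smul_pow, one_pow]

/-- Noncommutative-coefficient version: `τ` commutes with `σ`, `σ² - τσ + d = 0` (`d` an integer).
Then `σ^{2k} - P_k(τ, d) σ^k + d^k = 0`, where `P_k(τ,d)` is computed in the commutative ring
`ℤ[τ]`; here it is expressed with `Polynomial.aeval`. -/
theorem luc_relation_end {M : Type*} [AddCommGroup M]
    (σ τ : AddMonoid.End M) (d : ℤ) (hc : Commute σ τ)
    (h : σ * σ - τ * σ + (d : AddMonoid.End M) = 0) (k : ℕ) :
    σ ^ k * σ ^ k - (Polynomial.aeval τ (luc (Polynomial.X : Polynomial ℤ) (Polynomial.C d) k)) * σ ^ k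
      + ((d ^ k : ℤ) : AddMonoid.End M) = 0 := by
  have hcomm : ∀ a : Polynomial ℤ, Commute ((Polynomial.aeval τ).toRingHom a) σ := by
    intro a
    change Commute (Polynomial.aeval τ a) σ
    induction a using Polynomial.induction_on' with
    | add p q hp hq =>
      rw [map_add]
      exact hp.add_left hq
    | monomial n c =>
      rw [Polynomial.aeval_monomial]
      have e : (algebraMap ℤ (AddMonoid.End M)) c = ((c : ℤ) : AddMonoid.End M) := rfl
      rw [e]
      exact (Int.cast_commute c σ).mul_left ((hc.symm).pow_left n)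
  let Φ : Polynomial (Polynomial ℤ) →+* AddMonoid.End M :=
    Polynomial.eval₂RingHom' (Polynomial.aeval τ).toRingHom σ hcomm
  have hX : Φ Polynomial.X = σ := Polynomial.eval₂_X _ _
  have hC : ∀ a : Polynomial ℤ, Φ (Polynomial.C a) = Polynomial.aeval τ a :=
    fun a => Polynomial.eval₂_C _ _
  obtain ⟨g, hg⟩ := luc_dvd (Polynomial.X : Polynomial ℤ) (Polynomial.C d) k
  have h1 := congrArg Φ hg
  have h2 : Φ (Polynomial.X ^ 2 - Polynomial.C Polynomial.X * Polynomial.X
      + Polynomial.C (Polynomial.C d)) = 0 := by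
    simp only [map_add, map_sub, map_mul, map_pow, hX, hC, Polynomial.aeval_X, Polynomial.aeval_C]
    rw [sq]
    simpa using h
  rw [map_mul, h2, zero_mul] at h1
  simp only [map_add, map_sub, map_mul, map_pow, hX, hC, Polynomial.aeval_C] at h1
  rw [← h1]
  simp

/-- Trace of the `k`-th power of an endomorphism of a free module of rank two. -/
theorem trace_pow_eq_luc {R M : Type*} [CommRing R] [AddCommGroup M] [Module R M]
    [Module.Free R M] [Module.Finite R M] (hM : Module.finrank R M = 2)
    (f : Module.End R M) (a d : R)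
    (hf : f.charpoly = Polynomial.X ^ 2 - Polynomial.C a * Polynomial.X + Polynomial.C d) (k : ℕ) :
    LinearMap.trace R M (f ^ k) = luc a d k := by
  have hCH : f * f = a • f - d • (1 : Module.End R M) := by
    have h1 := LinearMap.aeval_self_charpoly f
    rw [hf] at h1
    simp only [map_add, map_sub, map_mul, map_pow, Polynomial.aeval_X, Polynomial.aeval_C,
      Algebra.algebraMap_eq_smul_one, smul_mul_assoc, one_mul] at h1
    rw [sq] at h1
    rw [eq_sub_iff_add_eq, ← sub_eq_zero]
    rw [← h1]
    abel
  induction k using Nat.twoStepInduction with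
  | zero =>
    rw [pow_zero, LinearMap.trace_one, hM]
    simp [luc]
  | one =>
    rw [pow_one]
    nontriviality R
    let b := Module.Free.chooseBasis R M
    rw [LinearMap.trace_eq_matrix_trace R b, Matrix.trace_eq_neg_charpoly_nextCoeff,
      LinearMap.charpoly_toMatrix, hf]
    have hdeg : (Polynomial.X ^ 2 - Polynomial.C a * Polynomial.X + Polynomial.C d
        : Polynomial R).natDegree = 2 := by
      compute_degree!
    rw [Polynomial.nextCoeff, hdeg]
    simp [luc, Polynomial.coeff_C]
  | more n h0 h1 =>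
    have h2 : f ^ (n + 2) = a • f ^ (n + 1) - d • f ^ n := by
      rw [pow_add, sq, hCH, mul_sub, mul_smul_comm, mul_smul_comm, mul_one, ← pow_succ]
    rw [h2, map_sub, map_smul, map_smul, h0, h1]
    simp [luc]

end Fermat.Agent.GR
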