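import Fermat.Agent.GR.Defs
import Fermat.Agent.GR.Cyclo
import Fermat.Agent.GR.FD
import Fermat.Agent.GR.Lucas
import Fermat.Agent.GR.Eigen
import Fermat.Agent.GR.FlatAux

/-!
# GR, pieces LIM / LVL / TRF: the `𝒪`-adic limit module of a tower and its trace function
-/

set_option autoImplicit false

namespace Fermat.Agent.GR

open TensorProduct IsLocalRing

section DVR
variable {𝒪 : Type} [CommRing 𝒪] [IsDomain 𝒪] [IsDiscreteValuationRing 𝒪]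

theorem lim_dvd_pow_of_mem {π : 𝒪} (hπ : π ∈ maximalIdeal 𝒪) {a : 𝒪} (ha : a ≠ 0) :
    ∃ k : ℕ, a ∣ π ^ k := by
  obtain ⟨ϖ, hϖ⟩ := IsDiscreteValuationRing.exists_irreducible 𝒪
  obtain ⟨i, u, rfl⟩ := IsDiscreteValuationRing.eq_unit_mul_pow_irreducible ha hϖ
  rw [hϖ.maximalIdeal_eq, Ideal.mem_span_singleton] at hπ
  exact ⟨i, Units.mul_left_dvd.2 (pow_dvd_pow_of_dvd hπ i)⟩

theorem lim_dvd_irreducible_pow {ϖ : 𝒪} (hϖ : Irreducible ϖ) {a : 𝒪} {r : ℕ}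
    (ha : a ∉ maximalIdeal 𝒪 ^ r) : a ∣ ϖ ^ r := by
  have ha0 : a ≠ 0 := by
    rintro rfl
    exact ha (zero_mem _)
  obtain ⟨i, u, rfl⟩ := IsDiscreteValuationRing.eq_unit_mul_pow_irreducible ha0 hϖ
  rw [hϖ.maximalIdeal_eq, Ideal.span_singleton_pow, Ideal.mem_span_singleton] at ha
  rcases le_total r i with h | h
  · exact absurd (Dvd.dvd.mul_left (pow_dvd_pow ϖ h) _) ha
  · exact Units.mul_left_dvd.2 (pow_dvd_pow ϖ h)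

theorem lim_exists_pow_le_span {b : 𝒪} (hb : b ≠ 0) :
    ∃ r : ℕ, maximalIdeal 𝒪 ^ r ≤ Ideal.span {b} := by
  obtain ⟨ϖ, hϖ⟩ := IsDiscreteValuationRing.exists_irreducible 𝒪
  obtain ⟨j, u, rfl⟩ := IsDiscreteValuationRing.eq_unit_mul_pow_irreducible hb hϖ
  refine ⟨j, ?_⟩
  rw [hϖ.maximalIdeal_eq, Ideal.span_singleton_pow, Ideal.span_singleton_le_span_singleton]
  exact Units.mul_left_dvd.2 dvd_rfl

theorem lim_exists_limit [IsAdicComplete (maximalIdeal 𝒪) 𝒪] (s : ℕ → 𝒪)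
    (hs : ∀ r r' : ℕ, r ≤ r' → s r - s r' ∈ maximalIdeal 𝒪 ^ r) :
    ∃ t : 𝒪, ∀ r, s r - t ∈ maximalIdeal 𝒪 ^ r := by
  have hpre : IsPrecomplete (maximalIdeal 𝒪) 𝒪 := inferInstance
  obtain ⟨t, ht⟩ := hpre.prec (f := s) (by
    intro m n hmn
    rw [SModEq.sub_mem, smul_eq_mul, Ideal.mul_top]
    exact hs m n hmn)
  refine ⟨t, fun r => ?_⟩
  have := ht r
  rwa [SModEq.sub_mem, smul_eq_mul, Ideal.mul_top] at this

end DVR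

namespace Tower

variable {p N : ℕ} [NeZero N] (𝔗 : Tower p N) (𝒪 : Type) [CommRing 𝒪]

/-- `𝒪 ⊗ A n`. -/
abbrev M (n : ℕ) : Type := 𝒪 ⊗[ℤ] 𝔗.A n

/-- Galois action on `𝒪 ⊗ A n`. -/
noncomputable def actM (n : ℕ) (σ : GQ) : 𝔗.M 𝒪 n →ₗ[𝒪] 𝔗.M 𝒪 n :=
  (AddMonoidHom.toIntLinearMap (𝔗.act n σ)).baseChange 𝒪

/-- Hecke operators on `𝒪 ⊗ A n`. -/
noncomputable def TM (n : ℕ) (ℓ : ℕ) : 𝔗.M 𝒪 n →ₗ[𝒪] 𝔗.M 𝒪 n :=
  (AddMonoidHom.toIntLinearMap (𝔗.T n ℓ)).baseChange 𝒪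

/-- Transition maps. -/
noncomputable def trM (n : ℕ) : 𝔗.M 𝒪 (n + 1) →ₗ[𝒪] 𝔗.M 𝒪 n :=
  (AddMonoidHom.toIntLinearMap (𝔗.tr n)).baseChange 𝒪

/-- Kummer maps. -/
noncomputable def ιM (n : ℕ) : 𝒪 ⊗[ℤ] 𝔗.H →ₗ[𝒪] 𝔗.M 𝒪 n :=
  (AddMonoidHom.toIntLinearMap (𝔗.ι n)).baseChange 𝒪

/-- The inverse limit of the `𝒪 ⊗ A n`. -/
def Lim : Submodule 𝒪 (∀ n, 𝔗.M 𝒪 n) where
  carrier := {x | ∀ n, 𝔗.trM 𝒪 n (x (n + 1)) = x n}
  add_mem' := by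
    intro x y hx hy n
    simp only [Set.mem_ofPred_eq] at hx hy
    simp [hx n, hy n]
  zero_mem' := by intro n; simp
  smul_mem' := by
    intro c x hx n
    simp only [Set.mem_ofPred_eq] at hx
    simp [hx n]

variable {𝒪}

/-- LIM-1.  The limit is `p`-torsion free.  (`𝒪` is flat over `ℤ`, so the `p`-torsion of
`𝒪 ⊗ A (n+1)` is `𝒪 ⊗ A (n+1)[p]`, which `tr` kills by `tr_eq_zero`.) -/
theorem Lim_torsionFree [IsDomain 𝒪] [CharZero 𝒪] (x : ∀ n, 𝔗.M 𝒪 n) (hx : x ∈ 𝔗.Lim 𝒪)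
    (h : (p : 𝒪) • x = 0) : x = 0 := by
  funext n
  rw [← hx n]
  apply flat_torsion (AddMonoidHom.toIntLinearMap (𝔗.tr n)) (p : ℤ)
  · intro b hb
    apply 𝔗.tr_eq_zero n b
    rwa [natCast_zsmul] at hb
  · have h1 := congrFun h (n + 1)
    rw [Pi.smul_apply, Pi.zero_apply] at h1
    rw [← Int.cast_smul_eq_zsmul 𝒪, Int.cast_natCast]
    exact h1

/-- LIM-2.  `𝒪 ⊗ H` embeds into the limit.  (`H / p^n ↪ A n`, flatness, `⋂ p^n 𝒪 = 0`.) -/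
theorem exists_ιM_ne_zero [IsDomain 𝒪] [CharZero 𝒪]
    (hsep : ∀ a : 𝒪, (∀ n : ℕ, a ∈ Ideal.span {(p : 𝒪) ^ n}) → a = 0)
    (h : 𝒪 ⊗[ℤ] 𝔗.H) (hh : h ≠ 0) : ∃ n, 𝔗.ιM 𝒪 n h ≠ 0 := by
  by_contra hcon
  push Not at hcon
  apply hh
  apply tensor_eq_zero_of_forall_dvd p hsep
  intro n
  apply flat_ker (AddMonoidHom.toIntLinearMap (𝔗.ι n)) ((p ^ n : ℕ) : ℤ) _ h (hcon n)
  intro h' hh'
  obtain ⟨h'', rfl⟩ := 𝔗.ι_ker n h' hh'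
  exact ⟨h'', by rw [natCast_zsmul]⟩




theorem actM_tmul (n : ℕ) (σ : GQ) (c : 𝒪) (x : 𝔗.A n) :
    𝔗.actM 𝒪 n σ (c ⊗ₜ x) = c ⊗ₜ 𝔗.act n σ x := rfl

theorem TM_tmul (n ℓ : ℕ) (c : 𝒪) (x : 𝔗.A n) :
    𝔗.TM 𝒪 n ℓ (c ⊗ₜ x) = c ⊗ₜ 𝔗.T n ℓ x := rfl

theorem trM_tmul (n : ℕ) (c : 𝒪) (x : 𝔗.A (n + 1)) :
    𝔗.trM 𝒪 n (c ⊗ₜ x) = c ⊗ₜ 𝔗.tr n x := rfl

theorem ιM_tmul (n : ℕ) (c : 𝒪) (x : 𝔗.H) :
    𝔗.ιM 𝒪 n (c ⊗ₜ x) = c ⊗ₜ 𝔗.ι n x := rfl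

theorem actM_mul (n : ℕ) (σ τ : GQ) (y : 𝔗.M 𝒪 n) :
    𝔗.actM 𝒪 n (σ * τ) y = 𝔗.actM 𝒪 n σ (𝔗.actM 𝒪 n τ y) := by
  induction y using TensorProduct.induction_on with
  | zero => simp
  | tmul c x => simp only [actM_tmul, map_mul]; rfl
  | add a b ha hb => simp only [map_add, ha, hb]

theorem actM_one (n : ℕ) (y : 𝔗.M 𝒪 n) : 𝔗.actM 𝒪 n 1 y = y := by
  induction y using TensorProduct.induction_on with
  | zero => simp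
  | tmul c x => simp only [actM_tmul, map_one]; rfl
  | add a b ha hb => simp only [map_add, ha, hb]

theorem actM_inv_actM (n : ℕ) (σ : GQ) (y : 𝔗.M 𝒪 n) :
    𝔗.actM 𝒪 n σ⁻¹ (𝔗.actM 𝒪 n σ y) = y := by
  rw [← actM_mul, inv_mul_cancel, actM_one]

theorem actM_actM_inv (n : ℕ) (σ : GQ) (y : 𝔗.M 𝒪 n) :
    𝔗.actM 𝒪 n σ (𝔗.actM 𝒪 n σ⁻¹ y) = y := by
  rw [← actM_mul, mul_inv_cancel, actM_one]

theorem TM_actM (n ℓ : ℕ) (σ : GQ) (y : 𝔗.M 𝒪 n) :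
    𝔗.TM 𝒪 n ℓ (𝔗.actM 𝒪 n σ y) = 𝔗.actM 𝒪 n σ (𝔗.TM 𝒪 n ℓ y) := by
  induction y using TensorProduct.induction_on with
  | zero => simp
  | tmul c x => simp only [actM_tmul, TM_tmul, 𝔗.T_act]
  | add a b ha hb => simp only [map_add, ha, hb]

theorem trM_actM (n : ℕ) (σ : GQ) (y : 𝔗.M 𝒪 (n + 1)) :
    𝔗.trM 𝒪 n (𝔗.actM 𝒪 (n + 1) σ y) = 𝔗.actM 𝒪 n σ (𝔗.trM 𝒪 n y) := by
  induction y using TensorProduct.induction_on with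
  | zero => simp
  | tmul c x => simp only [actM_tmul, trM_tmul, 𝔗.tr_act]
  | add a b ha hb => simp only [map_add, ha, hb]

theorem trM_ιM (n : ℕ) (h : 𝒪 ⊗[ℤ] 𝔗.H) : 𝔗.trM 𝒪 n (𝔗.ιM 𝒪 (n + 1) h) = 𝔗.ιM 𝒪 n h := by
  induction h using TensorProduct.induction_on with
  | zero => simp
  | tmul c x => simp only [ιM_tmul, trM_tmul, 𝔗.tr_ι]
  | add a b ha hb => simp only [map_add, ha, hb]

theorem ιM_T (n ℓ : ℕ) (hℓ : ℓ.Prime) (hℓN : ¬ ℓ ∣ N) (hℓp : ℓ ≠ p) (h : 𝒪 ⊗[ℤ] 𝔗.H) :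
    𝔗.ιM 𝒪 n ((𝔗.actH (CuspForm.heckeAlgebra.T hℓ hℓN (Set.notMem_empty ℓ))).baseChange 𝒪 h) =
      𝔗.TM 𝒪 n ℓ (𝔗.ιM 𝒪 n h) := by
  induction h using TensorProduct.induction_on with
  | zero => simp
  | tmul c x => simp only [ιM_tmul, TM_tmul, LinearMap.baseChange_tmul, 𝔗.ι_T n ℓ hℓ hℓN hℓp]
  | add a b ha hb => simp only [map_add, ha, hb]

theorem pow_smul_M (n : ℕ) (y : 𝔗.M 𝒪 n) : ((p : 𝒪) ^ n) • y = 0 := by
  induction y using TensorProduct.induction_on with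
  | zero => simp
  | tmul c x =>
    have h1 : ((p : 𝒪) ^ n) • (c ⊗ₜ[ℤ] x) = c ⊗ₜ[ℤ] ((p ^ n : ℕ) • x) := by
      rw [TensorProduct.tmul_smul, ← Nat.cast_pow, Nat.cast_smul_eq_nsmul]
    rw [h1, 𝔗.pow_smul, TensorProduct.tmul_zero]
  | add a b ha hb => rw [smul_add, ha, hb, add_zero]

theorem smul_M_eq_zero_of_mem (n : ℕ) {a : 𝒪} (ha : a ∈ Ideal.span {(p : 𝒪) ^ n}) (y : 𝔗.M 𝒪 n) :
    a • y = 0 := by
  obtain ⟨b, rfl⟩ := Ideal.mem_span_singleton'.1 ha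
  rw [mul_smul, pow_smul_M, smul_zero]

theorem es_M (n ℓ : ℕ) (hℓ : ℓ.Prime) (hℓN : ¬ ℓ ∣ N) (hℓp : ℓ ≠ p)
    (P : ValuationSubring Qb) (hP : P.LiesOverPrime ℓ) (σ : GQ) (hσ : P.IsFrobeniusAt σ ℓ)
    (y : 𝔗.M 𝒪 n) :
    𝔗.actM 𝒪 n σ (𝔗.actM 𝒪 n σ y) - 𝔗.TM 𝒪 n ℓ (𝔗.actM 𝒪 n σ y) + (ℓ : 𝒪) • y = 0 := by
  induction y using TensorProduct.induction_on with
  | zero => simp
  | tmul c x =>
    have h1 : (ℓ : 𝒪) • (c ⊗ₜ[ℤ] x) = c ⊗ₜ[ℤ] (ℓ • x) := by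
      rw [TensorProduct.tmul_smul, Nat.cast_smul_eq_nsmul]
    rw [actM_tmul, actM_tmul, TM_tmul, h1, ← TensorProduct.tmul_sub, ← TensorProduct.tmul_add,
      𝔗.es n ℓ hℓ hℓN hℓp P hP σ hσ x, TensorProduct.tmul_zero]
  | add a b ha hb =>
    have : 𝔗.actM 𝒪 n σ (𝔗.actM 𝒪 n σ (a + b)) - 𝔗.TM 𝒪 n ℓ (𝔗.actM 𝒪 n σ (a + b))
        + (ℓ : 𝒪) • (a + b) =
        (𝔗.actM 𝒪 n σ (𝔗.actM 𝒪 n σ a) - 𝔗.TM 𝒪 n ℓ (𝔗.actM 𝒪 n σ a) + (ℓ : 𝒪) • a) +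
        (𝔗.actM 𝒪 n σ (𝔗.actM 𝒪 n σ b) - 𝔗.TM 𝒪 n ℓ (𝔗.actM 𝒪 n σ b) + (ℓ : 𝒪) • b) := by
      simp only [map_add, smul_add]; abel
    rw [this, ha, hb, add_zero]

theorem unram_M (n q : ℕ) (hq : q.Prime) (hqN : ¬ q ∣ N) (hqp : q ≠ p)
    (P : ValuationSubring Qb) (hP : P.LiesOverPrime q) (σ : GQ) (hσ : σ ∈ P.inertiaSubgroupIn ℚ)
    (y : 𝔗.M 𝒪 n) : 𝔗.actM 𝒪 n σ y = y := by
  induction y using TensorProduct.induction_on with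
  | zero => simp
  | tmul c x => rw [actM_tmul, 𝔗.unram n q hq hqN hqp P hP σ hσ x]
  | add a b ha hb => rw [map_add, ha, hb]

theorem lim_isAlgClosure_Qb : IsAlgClosure ℚ Qb := @AlgebraicClosure.instIsAlgClosure ℚ _
theorem lim_normal_Qb : Normal ℚ Qb :=
  haveI := lim_isAlgClosure_Qb
  IsAlgClosure.normal ℚ Qb
theorem lim_isAlgebraic_Qb : Algebra.IsAlgebraic ℚ Qb :=
  haveI := lim_isAlgClosure_Qb
  IsAlgClosure.isAlgebraic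

attribute [local instance] lim_isAlgClosure_Qb lim_normal_Qb lim_isAlgebraic_Qb

/-- Galois stability of an intermediate field (normality, instance-free). -/
def GStable (L : IntermediateField ℚ Qb) : Prop := ∀ g : GQ, ∀ z ∈ L, g z ∈ L

theorem gStable_bot : GStable ⊥ := by
  intro g z hz
  obtain ⟨q, rfl⟩ := IntermediateField.mem_bot.1 hz
  rw [AlgEquiv.commutes]
  exact IntermediateField.algebraMap_mem _ q

theorem gStable_normalClosure (L : IntermediateField ℚ Qb) :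
    GStable (IntermediateField.normalClosure ℚ L Qb) := by
  intro g z hz
  have h := IntermediateField.normal_iff_forall_map_le'.1 (normalClosure.normal ℚ L Qb) g
  exact h ⟨z, hz, rfl⟩

theorem gStable_sup {L1 L2 : IntermediateField ℚ Qb} (h1 : GStable L1) (h2 : GStable L2) :
    GStable (L1 ⊔ L2) := by
  intro g z hz
  have hle : (L1 ⊔ L2).map (g : Qb →ₐ[ℚ] Qb) ≤ L1 ⊔ L2 := by
    rw [IntermediateField.map_sup]
    refine sup_le_sup ?_ ?_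
    · rintro _ ⟨w, hw, rfl⟩
      exact h1 g w hw
    · rintro _ ⟨w, hw, rfl⟩
      exact h2 g w hw
  exact hle ⟨z, hz, rfl⟩

/-- a finite normal extension whose absolute Galois group fixes `y`. -/
theorem exists_normal_fixing (n : ℕ) (y : 𝔗.M 𝒪 n) :
    ∃ L : IntermediateField ℚ Qb, FiniteDimensional ℚ L ∧ GStable L ∧
      ∀ σ : GQ, (∀ z ∈ L, σ z = z) → 𝔗.actM 𝒪 n σ y = y := by
  induction y using TensorProduct.induction_on with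
  | zero => exact ⟨⊥, inferInstance, gStable_bot, fun σ _ => map_zero _⟩
  | tmul c x =>
    obtain ⟨L0, hfd, hL0⟩ := 𝔗.smooth n x
    refine ⟨IntermediateField.normalClosure ℚ L0 Qb, inferInstance, gStable_normalClosure L0,
      fun σ hσ => ?_⟩
    rw [actM_tmul, hL0 σ fun z hz => hσ z (IntermediateField.le_normalClosure L0 hz)]
  | add a b ha hb =>
    obtain ⟨L1, hf1, hn1, h1⟩ := ha
    obtain ⟨L2, hf2, hn2, h2⟩ := hb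
    refine ⟨L1 ⊔ L2, inferInstance, gStable_sup hn1 hn2, fun σ hσ => ?_⟩
    rw [map_add, h1 σ fun z hz => hσ z ((le_sup_left : L1 ≤ L1 ⊔ L2) hz),
      h2 σ fun z hz => hσ z ((le_sup_right : L2 ≤ L1 ⊔ L2) hz)]

theorem conj_fixes {L : IntermediateField ℚ Qb} (hn : GStable L) {σ : GQ}
    (hσ : ∀ z ∈ L, σ z = z) (g : GQ) : ∀ z ∈ L, (g⁻¹ * σ * g) z = z := by
  intro z hz
  show g⁻¹ (σ (g z)) = z
  rw [hσ _ (hn g z hz)]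
  exact g.symm_apply_apply z

/-- Every element of `𝒪 ⊗ A n` (and its whole orbit) is fixed by `G_L` for a NORMAL number field `L`
containing the `p^n`-th roots of unity. -/
theorem exists_field_fixing' (hp : 0 < p) (n : ℕ) (y : 𝔗.M 𝒪 n) :
    ∃ L : IntermediateField ℚ Qb, FiniteDimensional ℚ L ∧ GStable L ∧
      (∀ ζ : Qb, ζ ^ (p ^ n) = 1 → ζ ∈ L) ∧
      ∀ σ : GQ, (∀ z ∈ L, σ z = z) → ∀ g' : GQ,
        𝔗.actM 𝒪 n σ (𝔗.actM 𝒪 n g' y) = 𝔗.actM 𝒪 n g' y := by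
  obtain ⟨L1, hf1, hn1, h1⟩ := 𝔗.exists_normal_fixing n y
  have hpn : 0 < p ^ n := pow_pos hp n
  let R : Set Qb := ↑(Polynomial.nthRootsFinset (p ^ n) (1 : Qb))
  have hRfin : Finite R := Finset.finite_toSet _
  have hf0 : FiniteDimensional ℚ (IntermediateField.adjoin ℚ R) :=
    IntermediateField.finiteDimensional_adjoin fun x _ => Algebra.IsIntegral.isIntegral x
  let L2 := IntermediateField.normalClosure ℚ (IntermediateField.adjoin ℚ R) Qb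
  have hn : GStable (L1 ⊔ L2) := gStable_sup hn1 (gStable_normalClosure _)
  refine ⟨L1 ⊔ L2, inferInstance, hn, ?_, ?_⟩
  · intro ζ hζ
    apply (le_sup_right : L2 ≤ L1 ⊔ L2)
    apply IntermediateField.le_normalClosure
    apply IntermediateField.subset_adjoin
    exact (Polynomial.mem_nthRootsFinset hpn 1).2 hζ
  · intro σ hσ g'
    have h2 := h1 (g'⁻¹ * σ * g') fun z hz =>
      conj_fixes hn hσ g' z ((le_sup_left : L1 ≤ L1 ⊔ L2) hz)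
    rw [actM_mul, actM_mul] at h2
    have h3 := congrArg (𝔗.actM 𝒪 n g') h2
    rwa [actM_actM_inv] at h3


theorem frob_pow_root {ℓ : ℕ} (hℓ : ℓ.Prime) {P : ValuationSubring Qb} (hP : P.LiesOverPrime ℓ)
    {σ : GQ} (hσ : P.IsFrobeniusAt σ ℓ) {m : ℕ} (hm : ¬ ℓ ∣ m) (k : ℕ) :
    ∀ ζ : Qb, ζ ^ m = 1 → (σ ^ k) ζ = ζ ^ (ℓ ^ k) := by
  induction k with
  | zero => intro ζ _; simp
  | succ k ih =>
    intro ζ hζ
    rw [pow_succ]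
    show (σ ^ k) (σ ζ) = _
    rw [frob_root hℓ hP hσ hm hζ, map_pow, ih ζ hζ, ← pow_mul, pow_succ]

/-- LVL.  The relation at level `n`: if `y ∈ 𝒪 ⊗ A n` is a `χ`-eigenvector then for every `g` there
is `t` with `g² - t g + δ(g) = 0` on the whole Galois orbit of `y`.

Paper proof.  `y = ∑ c_i ⊗ x_i`; let `L` be a finite NORMAL extension of `ℚ` containing the fields
given by `smooth` for the `x_i` and the `p^n`-th roots of unity.  `G_L` is normal and fixes `y`, hence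
fixes `g' y` for all `g'`.  By `frobenius_density` (with `B = S`), `g = σ^k` on `L`, `σ` a Frobenius lift
at `ℓ ∉ S`.  All `g' y` are eigenvectors (`T_act`), so by `es`: `σ² - aσ + ℓ = 0` on the `𝒪`-span `Y` of the
orbit, `a = χ(T_ℓ)`; by `luc_relation`: `σ^{2k} - P_k(a,ℓ) σ^k + ℓ^k = 0` on `Y`.  On `Y`: `σ^k = g`, and
`δ(g) - ℓ^k ∈ (p^n)` (`IsCyclo`, `frob_root`) kills `Y`. -/
theorem exists_level_trace [Fact p.Prime] (S : Finset ℕ) (hpS : p ∈ S)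
    (hNS : ∀ q : ℕ, q.Prime → q ∣ N → q ∈ S)
    (χ : CuspForm.heckeAlgebra N 2 (↑S : Set ℕ) →+* 𝒪) (δ : GQ →* 𝒪ˣ) (hδ : IsCyclo p δ)
    (n : ℕ) (y : 𝔗.M 𝒪 n)
    (hy : ∀ (ℓ : ℕ) (hℓ : ℓ.Prime) (hℓN : ¬ ℓ ∣ N) (hℓS : ℓ ∉ (↑S : Set ℕ)),
      𝔗.TM 𝒪 n ℓ y = χ (CuspForm.heckeAlgebra.T hℓ hℓN hℓS) • y) (g : GQ) :
    ∃ t : 𝒪, ∀ g' : GQ,
      𝔗.actM 𝒪 n g (𝔗.actM 𝒪 n g (𝔗.actM 𝒪 n g' y)) - t • 𝔗.actM 𝒪 n g (𝔗.actM 𝒪 n g' y)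
        + (δ g : 𝒪) • 𝔗.actM 𝒪 n g' y = 0 := by
  have hpp : p.Prime := Fact.out
  obtain ⟨L, hfd, hst, hroots, hfix⟩ := 𝔗.exists_field_fixing' hpp.pos n y
  obtain ⟨ℓ, hℓ, hℓS, P, hP, σ, hσ, k, hk⟩ := frobenius_density L g S
  have hℓN : ¬ ℓ ∣ N := fun h => hℓS (hNS ℓ hℓ h)
  have hℓp : ℓ ≠ p := fun h => hℓS (h ▸ hpS)
  have hℓS' : ℓ ∉ (↑S : Set ℕ) := by simpa using hℓS
  have hℓpn : ¬ ℓ ∣ p ^ n := fun h =>
    hℓp ((Nat.prime_dvd_prime_iff_eq hℓ hpp).1 (hℓ.dvd_of_dvd_pow h))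
  set a := χ (CuspForm.heckeAlgebra.T hℓ hℓN hℓS') with ha
  -- the eigenspace of `T_ℓ`
  let E : Submodule 𝒪 (𝔗.M 𝒪 n) := LinearMap.ker (𝔗.TM 𝒪 n ℓ - a • LinearMap.id)
  have hE : ∀ z, z ∈ E ↔ 𝔗.TM 𝒪 n ℓ z = a • z := by
    intro z
    simp [E, LinearMap.mem_ker, sub_eq_zero]
  have hEst : ∀ τ : GQ, ∀ z ∈ E, 𝔗.actM 𝒪 n τ z ∈ E := by
    intro τ z hz
    rw [hE] at hz ⊢
    rw [TM_actM, hz, map_smul]
  let s : Module.End 𝒪 E := (𝔗.actM 𝒪 n σ).restrict (hEst σ)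
  have hs_apply : ∀ z : E, ((s z : E) : 𝔗.M 𝒪 n) = 𝔗.actM 𝒪 n σ z := fun z => rfl
  have hs : s * s - a • s + (ℓ : 𝒪) • (1 : Module.End 𝒪 E) = 0 := by
    ext z
    have h1 := 𝔗.es_M (𝒪 := 𝒪) n ℓ hℓ hℓN hℓp P hP σ hσ (z : 𝔗.M 𝒪 n)
    have h2 : 𝔗.TM 𝒪 n ℓ (𝔗.actM 𝒪 n σ z) = a • 𝔗.actM 𝒪 n σ z := (hE _).1 (hEst σ z z.2)
    rw [h2] at h1
    simpa [hs_apply] using h1
  have hl := luc_relation s a (ℓ : 𝒪) hs k
  have hsk : ∀ (j : ℕ) (z : E), (((s ^ j) z : E) : 𝔗.M 𝒪 n) = 𝔗.actM 𝒪 n (σ ^ j) z := by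
    intro j
    induction j with
    | zero => intro z; simp [actM_one]
    | succ j ih =>
      intro z
      rw [pow_succ, pow_succ, actM_mul, Module.End.mul_apply, ih, hs_apply]
  have hgk : ∀ g'' : GQ,
      𝔗.actM 𝒪 n (σ ^ k) (𝔗.actM 𝒪 n g'' y) = 𝔗.actM 𝒪 n g (𝔗.actM 𝒪 n g'' y) := by
    intro g''
    have h0 : ∀ z ∈ L, (g⁻¹ * σ ^ k) z = z := fun z hz => by
      show g⁻¹ ((σ ^ k) z) = z
      rw [hk z hz]
      exact g.symm_apply_apply z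
    have h4 := hfix (g⁻¹ * σ ^ k) h0 g''
    rw [actM_mul] at h4
    have h5 := congrArg (𝔗.actM 𝒪 n g) h4
    rwa [actM_actM_inv] at h5
  have hδk : ((δ g : 𝒪) - ((ℓ ^ k : ℕ) : 𝒪)) ∈ Ideal.span {(p : 𝒪) ^ n} :=
    hδ n g (ℓ ^ k) fun ζ hζ => by
      rw [← hk ζ (hroots ζ hζ)]
      exact frob_pow_root hℓ hP hσ hℓpn k ζ hζ
  refine ⟨luc a (ℓ : 𝒪) k, fun g' => ?_⟩
  have hz : 𝔗.actM 𝒪 n g' y ∈ E := hEst g' y ((hE y).2 (hy ℓ hℓ hℓN hℓS'))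
  have h3 : (((s ^ k * s ^ k - luc a (ℓ : 𝒪) k • s ^ k + (ℓ : 𝒪) ^ k • (1 : Module.End 𝒪 E))
      ⟨_, hz⟩ : E) : 𝔗.M 𝒪 n) = 0 := by
    rw [hl]; rfl
  have h4 : 𝔗.actM 𝒪 n (σ ^ k) (𝔗.actM 𝒪 n (σ ^ k) (𝔗.actM 𝒪 n g' y))
      - luc a (ℓ : 𝒪) k • 𝔗.actM 𝒪 n (σ ^ k) (𝔗.actM 𝒪 n g' y)
      + (ℓ : 𝒪) ^ k • 𝔗.actM 𝒪 n g' y = 0 := by
    simpa [hsk] using h3
  have h5 : 𝔗.actM 𝒪 n (σ ^ k) (𝔗.actM 𝒪 n g (𝔗.actM 𝒪 n g' y))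
      = 𝔗.actM 𝒪 n g (𝔗.actM 𝒪 n g (𝔗.actM 𝒪 n g' y)) := by
    have h7 := hgk (g * g')
    rwa [actM_mul] at h7
  rw [hgk g', h5] at h4
  have h6 := 𝔗.smul_M_eq_zero_of_mem n hδk (𝔗.actM 𝒪 n g' y)
  rw [sub_smul, sub_eq_zero, Nat.cast_pow] at h6
  rw [h6]
  exact h4


/-- Every element of `𝒪 ⊗ A n` (and its whole orbit) is fixed by `G_L` for a number field `L`
containing the `p^n`-th roots of unity. -/
theorem exists_field_fixing [Fact p.Prime] (n : ℕ) (y : 𝔗.M 𝒪 n) :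
    ∃ L : IntermediateField ℚ Qb, FiniteDimensional ℚ L ∧
      (∀ ζ : Qb, ζ ^ (p ^ n) = 1 → ζ ∈ L) ∧
      ∀ σ : GQ, (∀ z ∈ L, σ z = z) → ∀ g' : GQ,
        𝔗.actM 𝒪 n σ (𝔗.actM 𝒪 n g' y) = 𝔗.actM 𝒪 n g' y := by
  obtain ⟨L, h1, _, h2, h3⟩ := 𝔗.exists_field_fixing' (Fact.out : p.Prime).pos n y
  exact ⟨L, h1, h2, h3⟩


section TRF

variable {p N : ℕ} [NeZero N] (𝔗 : Tower p N) {𝒪 : Type} [CommRing 𝒪]

/-- the componentwise Galois action on `∏ 𝒪 ⊗ A n`. -/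
noncomputable def actP (g : GQ) : (∀ n, 𝔗.M 𝒪 n) →ₗ[𝒪] (∀ n, 𝔗.M 𝒪 n) :=
  LinearMap.pi fun n => (𝔗.actM 𝒪 n g) ∘ₗ LinearMap.proj n

theorem actP_apply (g : GQ) (x : ∀ n, 𝔗.M 𝒪 n) (n : ℕ) :
    𝔗.actP g x n = 𝔗.actM 𝒪 n g (x n) := rfl

theorem actP_mul (g g' : GQ) (x : ∀ n, 𝔗.M 𝒪 n) :
    𝔗.actP (g * g') x = 𝔗.actP g (𝔗.actP g' x) := by
  funext n
  simp only [actP_apply, actM_mul]

theorem actP_one (x : ∀ n, 𝔗.M 𝒪 n) : 𝔗.actP 1 x = x := by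
  funext n
  simp only [actP_apply, actM_one]

theorem actP_mem_Lim (g : GQ) {x : ∀ n, 𝔗.M 𝒪 n} (hx : x ∈ 𝔗.Lim 𝒪) :
    𝔗.actP g x ∈ 𝔗.Lim 𝒪 := by
  intro n
  rw [actP_apply, actP_apply, trM_actM, hx n]

/-- `t` solves `g² - t g + δ(g) = 0` on the orbit of `W n`. -/
def Sol (δ : GQ →* 𝒪ˣ) (W : ∀ n, 𝔗.M 𝒪 n) (n : ℕ) (g : GQ) (t : 𝒪) : Prop :=
  ∀ g' : GQ, 𝔗.actM 𝒪 n g (𝔗.actM 𝒪 n g (𝔗.actM 𝒪 n g' (W n)))
    - t • 𝔗.actM 𝒪 n g (𝔗.actM 𝒪 n g' (W n)) + (δ g : 𝒪) • 𝔗.actM 𝒪 n g' (W n) = 0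

variable {𝔗} {δ : GQ →* 𝒪ˣ} {W : ∀ n, 𝔗.M 𝒪 n}

theorem ann_succ (hW : W ∈ 𝔗.Lim 𝒪) {n : ℕ} {a : 𝒪} (h : a • W (n + 1) = 0) : a • W n = 0 := by
  rw [← hW n, ← map_smul, h, map_zero]

theorem ann_mono (hW : W ∈ 𝔗.Lim 𝒪) {n m : ℕ} (hnm : n ≤ m) {a : 𝒪} (h : a • W m = 0) :
    a • W n = 0 := by
  induction m, hnm using Nat.le_induction with
  | base => exact h
  | succ m _ ih => exact ih (ann_succ hW h)

theorem Sol.succ (hW : W ∈ 𝔗.Lim 𝒪) {n : ℕ} {g : GQ} {t : 𝒪} (h : 𝔗.Sol δ W (n + 1) g t) :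
    𝔗.Sol δ W n g t := by
  intro g'
  have h1 := congrArg (𝔗.trM 𝒪 n) (h g')
  simpa only [map_add, map_sub, map_smul, trM_actM, hW n, map_zero] using h1

theorem Sol.mono (hW : W ∈ 𝔗.Lim 𝒪) {n m : ℕ} (hnm : n ≤ m) {g : GQ} {t : 𝒪}
    (h : 𝔗.Sol δ W m g t) : 𝔗.Sol δ W n g t := by
  induction m, hnm using Nat.le_induction with
  | base => exact h
  | succ m _ ih => exact ih (Sol.succ hW h)

theorem Sol.ann {n : ℕ} {g : GQ} {t t' : 𝒪} (h : 𝔗.Sol δ W n g t) (h' : 𝔗.Sol δ W n g t') :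
    (t - t') • W n = 0 := by
  have h1 := h g⁻¹
  have h2 := h' g⁻¹
  rw [actM_actM_inv] at h1 h2
  have h3 := sub_eq_zero.2 (h2.trans h1.symm)
  rw [sub_smul]
  have h4 : t • W n - t' • W n =
      (𝔗.actM 𝒪 n g (W n) - t' • W n + (δ g : 𝒪) • 𝔗.actM 𝒪 n g⁻¹ (W n)) -
      (𝔗.actM 𝒪 n g (W n) - t • W n + (δ g : 𝒪) • 𝔗.actM 𝒪 n g⁻¹ (W n)) := by abel
  rw [h4, h3]

theorem Sol.of_ann {n : ℕ} {g : GQ} {t t' : 𝒪} (h : 𝔗.Sol δ W n g t)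
    (h' : (t' - t) • W n = 0) : 𝔗.Sol δ W n g t' := by
  intro g'
  have h1 : (t' - t) • 𝔗.actM 𝒪 n g (𝔗.actM 𝒪 n g' (W n)) = 0 := by
    rw [← map_smul, ← map_smul, h', map_zero, map_zero]
  rw [sub_smul, sub_eq_zero] at h1
  rw [h1]
  exact h g'

end TRF

section TRF2

variable {p N : ℕ} [NeZero N] [Fact p.Prime] {𝔗 : Tower p N} {𝒪 : Type} [CommRing 𝒪] [IsDomain 𝒪]
  [IsDiscreteValuationRing 𝒪] [CharZero 𝒪] {δ : GQ →* 𝒪ˣ} {W : ∀ n, 𝔗.M 𝒪 n}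

omit [Fact p.Prime] in
/-- the limit is torsion free over `𝒪`. -/
theorem Lim_tf (hp : (p : 𝒪) ∈ maximalIdeal 𝒪) {x : ∀ n, 𝔗.M 𝒪 n} (hx : x ∈ 𝔗.Lim 𝒪) {a : 𝒪}
    (ha : a ≠ 0) (h : a • x = 0) : x = 0 := by
  obtain ⟨k, b, hb⟩ := lim_dvd_pow_of_mem hp ha
  have h1 : ((p : 𝒪) ^ k) • x = 0 := by rw [hb, mul_comm, mul_smul, h, smul_zero]
  clear hb h
  induction k with
  | zero => simpa using h1
  | succ k ih =>
    apply ih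
    apply 𝔗.Lim_torsionFree _ ((𝔗.Lim 𝒪).smul_mem _ hx)
    rw [← mul_smul, ← pow_succ']
    exact h1

omit [Fact p.Prime] in
theorem exists_ann_le (hp : (p : 𝒪) ∈ maximalIdeal 𝒪) (hW : W ∈ 𝔗.Lim 𝒪) (hW0 : W ≠ 0) (r : ℕ) :
    ∃ n, ∀ a : 𝒪, a • W n = 0 → a ∈ maximalIdeal 𝒪 ^ r := by
  by_contra hcon
  push Not at hcon
  obtain ⟨ϖ, hϖ⟩ := IsDiscreteValuationRing.exists_irreducible 𝒪
  apply hW0
  apply Lim_tf hp hW (pow_ne_zero r hϖ.ne_zero)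
  funext n
  obtain ⟨a, ha, har⟩ := hcon n
  obtain ⟨b, hb⟩ := lim_dvd_irreducible_pow hϖ har
  show ϖ ^ r • W n = 0
  rw [hb, mul_comm, mul_smul, ha, smul_zero]

theorem exists_global_sol [IsAdicComplete (maximalIdeal 𝒪) 𝒪] (hp : (p : 𝒪) ∈ maximalIdeal 𝒪)
    (hW : W ∈ 𝔗.Lim 𝒪) (hW0 : W ≠ 0) (g : GQ) (hex : ∀ n, ∃ t, 𝔗.Sol δ W n g t) :
    ∃ t, ∀ n, 𝔗.Sol δ W n g t := by
  choose tn htn using hex
  choose ν hν using exists_ann_le hp hW hW0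
  obtain ⟨t, ht⟩ := lim_exists_limit (fun r => tn (ν r)) (by
    intro r r' hrr'
    rcases le_total (ν r) (ν r') with h | h
    · exact hν r _ ((htn (ν r)).ann ((htn (ν r')).mono hW h))
    · exact Ideal.pow_le_pow_right hrr' (hν r' _ (((htn (ν r)).mono hW h).ann (htn (ν r')))))
  refine ⟨t, fun n => ?_⟩
  have hpn : ((p : 𝒪) ^ n) ≠ 0 := pow_ne_zero _ (Nat.cast_ne_zero.2 (Fact.out : p.Prime).ne_zero)
  obtain ⟨r, hr⟩ := lim_exists_pow_le_span hpn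
  apply (htn n).of_ann
  have e : t - tn n = -(tn (ν r) - t) + (tn (ν r) - tn n) := by ring
  rw [e, add_smul, neg_smul, 𝔗.smul_M_eq_zero_of_mem n (hr (ht r)), neg_zero, zero_add]
  rcases le_total n (ν r) with h | h
  · exact ((htn (ν r)).mono hW h).ann (htn n)
  · exact 𝔗.smul_M_eq_zero_of_mem n (hr (hν r _ ((htn (ν r)).ann ((htn n).mono hW h)))) _

omit [Fact p.Prime] in
theorem sol_unique (hp : (p : 𝒪) ∈ maximalIdeal 𝒪) (hW : W ∈ 𝔗.Lim 𝒪) (hW0 : W ≠ 0) {g : GQ}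
    {t t' : 𝒪} (h : ∀ n, 𝔗.Sol δ W n g t) (h' : ∀ n, 𝔗.Sol δ W n g t') : t = t' := by
  by_contra hne
  apply hW0
  apply Lim_tf hp hW (sub_ne_zero.2 hne)
  funext n
  exact (h n).ann (h' n)

end TRF2

end Tower

/-- The output of the limit construction: a nonzero torsion free `𝒪`-module with Galois action on
which every `g` satisfies `g² - t(g) g + δ(g) = 0`. -/
structure TraceData (p N : ℕ) [NeZero N] (S : Finset ℕ) (𝒪 : Type) [CommRing 𝒪] [IsLocalRing 𝒪]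
    (χ : CuspForm.heckeAlgebra N 2 (↑S : Set ℕ) →+* 𝒪) (δ : GQ →* 𝒪ˣ) where
  X : Type
  [grp : AddCommGroup X]
  [mod : Module 𝒪 X]
  nontriv : Nontrivial X
  tf : ∀ (a : 𝒪) (x : X), a • x = 0 → a = 0 ∨ x = 0
  r : GQ →* Module.End 𝒪 X
  t : GQ → 𝒪
  rel : ∀ (g : GQ) (x : X), r g (r g x) - t g • r g x + (δ g : 𝒪) • x = 0
  frob : ∀ (ℓ : ℕ) (hℓ : ℓ.Prime) (hℓN : ¬ ℓ ∣ N) (hℓS : ℓ ∉ (↑S : Set ℕ))
    (P : ValuationSubring Qb), P.LiesOverPrime ℓ → ∀ σ : GQ, P.IsFrobeniusAt σ ℓ →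
      t σ = χ (CuspForm.heckeAlgebra.T hℓ hℓN hℓS)
  unram : ∀ q : ℕ, q.Prime → ¬ q ∣ N → q ≠ p → ∀ P : ValuationSubring Qb, P.LiesOverPrime q →
    ∀ σ ∈ P.inertiaSubgroupIn ℚ, r σ = 1
  cont : ∀ n : ℕ, ∃ L : IntermediateField ℚ Qb, FiniteDimensional ℚ L ∧
    ∀ σ : GQ, (∀ z ∈ L, σ z = z) → ∀ g h : GQ, t (g * σ * h) - t (g * h) ∈ maximalIdeal 𝒪 ^ n

attribute [instance] TraceData.grp TraceData.mod

/-- TRF.  Construction of the trace data.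

Paper proof.  `h` from `Tower.exists_eigenvector`, `w = (ιM n h)_n ∈ Lim`, `w ≠ 0` (LIM-2),
`X = 𝒪`-span of the orbit `G w` inside `Lim` (componentwise action), torsion free by LIM-1 (every
nonzero `a ∈ 𝒪` divides a power of `p`).  `Y_n = ` span of the orbit of `w_n`, `I_n = Ann Y_n`,
`I_{n+1} ⊆ I_n` (`Y_{n+1} → Y_n` onto) and for every `r` there is `n` with `I_n ⊆ 𝔪^r` (otherwise
`ϖ^(r-1) w_n = 0` for all `n`, i.e. `ϖ^(r-1) w = 0`).  For `g` fixed let `t_n` be given by LVL; a solution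
at level `n+1` is a solution at level `n`, two solutions at level `n` differ by an element of `I_n`
(`g` is invertible); so `(t_n)` is Cauchy; its limit `t(g)` (`IsPrecomplete`) is a solution at all levels.
`frob`: uniqueness of `t` + `es` + `IsCyclo.frob`.  `unram`: `Tower.unram`.  `cont`: choose `n'` with
`I_{n'} ⊆ 𝔪^n`, `L` from `exists_field_fixing` (replace it by its normal closure):
`g σ h` and `g h` act equally on `Y_{n'}` and `δ(gσh) - δ(gh) ∈ (p^{n'})`. -/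
theorem exists_traceData {p N : ℕ} [NeZero N] [Fact p.Prime] (𝔗 : Tower p N) (S : Finset ℕ)
    (hpS : p ∈ S) (hNS : ∀ q : ℕ, q.Prime → q ∣ N → q ∈ S)
    {𝒪 : Type} [CommRing 𝒪] [IsDomain 𝒪] [IsDiscreteValuationRing 𝒪]
    [IsAdicComplete (maximalIdeal 𝒪) 𝒪] [CharZero 𝒪] (hp : (p : 𝒪) ∈ maximalIdeal 𝒪)
    (χ : CuspForm.heckeAlgebra N 2 (↑S : Set ℕ) →+* 𝒪) (δ : GQ →* 𝒪ˣ) (hδ : IsCyclo p δ) :
    Nonempty (TraceData p N S 𝒪 χ δ) := by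
  classical
  have hpp : p.Prime := Fact.out
  obtain ⟨h, hh0, hheig⟩ := 𝔗.exists_eigenvector (↑S : Set ℕ) χ
  let W : ∀ n, 𝔗.M 𝒪 n := fun n => 𝔗.ιM 𝒪 n h
  have hW : W ∈ 𝔗.Lim 𝒪 := fun n => 𝔗.trM_ιM n h
  have hsep : ∀ a : 𝒪, (∀ n : ℕ, a ∈ Ideal.span {(p : 𝒪) ^ n}) → a = 0 := by
    intro a ha
    have hH : IsHausdorff (maximalIdeal 𝒪) 𝒪 := inferInstance
    apply hH.haus a
    intro n
    rw [SModEq.zero, smul_eq_mul, Ideal.mul_top]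
    exact (Ideal.span_singleton_le_iff_mem _).2 (Ideal.pow_mem_pow hp n) (ha n)
  have hW0 : W ≠ 0 := by
    obtain ⟨n, hn⟩ := 𝔗.exists_ιM_ne_zero hsep h hh0
    intro h0
    exact hn (congrFun h0 n)
  have hWeig : ∀ (n ℓ : ℕ) (hℓ : ℓ.Prime) (hℓN : ¬ ℓ ∣ N) (hℓS : ℓ ∉ (↑S : Set ℕ)),
      𝔗.TM 𝒪 n ℓ (W n) = χ (CuspForm.heckeAlgebra.T hℓ hℓN hℓS) • W n := by
    intro n ℓ hℓ hℓN hℓS
    have hℓp : ℓ ≠ p := fun h => hℓS (by simpa [h] using hpS)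
    show 𝔗.TM 𝒪 n ℓ (𝔗.ιM 𝒪 n h) = _
    rw [← 𝔗.ιM_T n ℓ hℓ hℓN hℓp h, hheig ℓ hℓ hℓN hℓS, map_smul]
  have hex : ∀ (g : GQ) (n : ℕ), ∃ t, 𝔗.Sol δ W n g t := fun g n =>
    𝔗.exists_level_trace S hpS hNS χ δ hδ n (W n) (hWeig n) g
  choose t ht using fun g => Tower.exists_global_sol hp hW hW0 g (hex g)
  let X : Submodule 𝒪 (∀ n, 𝔗.M 𝒪 n) := Submodule.span 𝒪 (Set.range fun g : GQ => 𝔗.actP g W)
  have hXLim : X ≤ 𝔗.Lim 𝒪 := Submodule.span_le.2 (by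
    rintro _ ⟨g, rfl⟩
    exact 𝔗.actP_mem_Lim g hW)
  have hXst : ∀ g : GQ, ∀ x ∈ X, 𝔗.actP g x ∈ X := by
    intro g x hx
    induction hx using Submodule.span_induction with
    | mem x hx =>
      obtain ⟨g', rfl⟩ := hx
      rw [← Tower.actP_mul]
      exact Submodule.subset_span ⟨_, rfl⟩
    | zero => rw [map_zero]; exact zero_mem _
    | add x y _ _ hx hy => rw [map_add]; exact add_mem hx hy
    | smul a x _ hx => rw [map_smul]; exact Submodule.smul_mem _ _ hx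
  have hrel : ∀ g : GQ, ∀ x ∈ X,
      𝔗.actP g (𝔗.actP g x) - t g • 𝔗.actP g x + (δ g : 𝒪) • x = 0 := by
    intro g x hx
    induction hx using Submodule.span_induction with
    | mem x hx =>
      obtain ⟨g', rfl⟩ := hx
      funext n
      exact ht g n g'
    | zero => simp
    | add x y _ _ hx hy =>
      have e : 𝔗.actP g (𝔗.actP g (x + y)) - t g • 𝔗.actP g (x + y) + (δ g : 𝒪) • (x + y) =
          (𝔗.actP g (𝔗.actP g x) - t g • 𝔗.actP g x + (δ g : 𝒪) • x) +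
          (𝔗.actP g (𝔗.actP g y) - t g • 𝔗.actP g y + (δ g : 𝒪) • y) := by
        simp only [map_add, smul_add]; abel
      rw [e, hx, hy, add_zero]
    | smul a x _ hx =>
      have e : 𝔗.actP g (𝔗.actP g (a • x)) - t g • 𝔗.actP g (a • x) + (δ g : 𝒪) • (a • x) =
          a • (𝔗.actP g (𝔗.actP g x) - t g • 𝔗.actP g x + (δ g : 𝒪) • x) := by
        simp only [map_smul, smul_add, smul_sub, smul_comm a]
      rw [e, hx, smul_zero]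
  let r : GQ →* Module.End 𝒪 X :=
    { toFun := fun g => (𝔗.actP g).restrict (hXst g)
      map_one' := by
        ext x : 2
        exact 𝔗.actP_one (x : ∀ n, 𝔗.M 𝒪 n)
      map_mul' := by
        intro g g'
        ext x : 2
        exact 𝔗.actP_mul g g' (x : ∀ n, 𝔗.M 𝒪 n) }
  have hr_apply : ∀ (g : GQ) (x : X), ((r g x : X) : ∀ n, 𝔗.M 𝒪 n) = 𝔗.actP g x := fun _ _ => rfl
  refine ⟨{ X := X, nontriv := ?_, tf := ?_, r := r, t := t, rel := ?_, frob := ?_, unram := ?_,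
            cont := ?_ }⟩
  · refine ⟨⟨⟨W, ?_⟩, 0, ?_⟩⟩
    · have h1 : 𝔗.actP 1 W ∈ X := Submodule.subset_span ⟨1, rfl⟩
      rwa [Tower.actP_one] at h1
    · intro h0
      exact hW0 (congrArg Subtype.val h0)
  · intro a x hax
    by_cases ha : a = 0
    · exact Or.inl ha
    · right
      apply Subtype.ext
      exact Tower.Lim_tf hp (hXLim x.2) ha (congrArg Subtype.val hax)
  · intro g x
    apply Subtype.ext
    exact hrel g x x.2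
  · intro ℓ hℓ hℓN hℓS P hP σ hσ
    have hℓp : ℓ ≠ p := fun h => hℓS (by simpa [h] using hpS)
    apply Tower.sol_unique hp hW hW0 (ht σ)
    intro n g'
    have h1 := 𝔗.es_M (𝒪 := 𝒪) n ℓ hℓ hℓN hℓp P hP σ hσ (𝔗.actM 𝒪 n g' (W n))
    rw [Tower.TM_actM, Tower.TM_actM, hWeig n ℓ hℓ hℓN hℓS, map_smul, map_smul] at h1
    rw [hδ.frob hp hℓ hℓp hP hσ]
    exact h1
  · intro q hq hqN hqp P hP σ hσ
    ext x : 2
    funext n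
    exact 𝔗.unram_M n q hq hqN hqp P hP σ hσ _
  · intro n
    obtain ⟨n', hn'⟩ := Tower.exists_ann_le hp hW hW0 n
    obtain ⟨L, hfd, hst, hroots, hfix⟩ := 𝔗.exists_field_fixing' hpp.pos n' (W n')
    refine ⟨L, hfd, fun σ hσ g h' => ?_⟩
    apply hn'
    refine Tower.Sol.ann (δ := δ) (g := g * h') ?_ (ht (g * h') n')
    intro g'
    have h1 := ht (g * σ * h') n' g'
    have hact : ∀ g'' : GQ, 𝔗.actM 𝒪 n' (g * σ * h') (𝔗.actM 𝒪 n' g'' (W n')) =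
        𝔗.actM 𝒪 n' (g * h') (𝔗.actM 𝒪 n' g'' (W n')) := by
      intro g''
      rw [Tower.actM_mul, Tower.actM_mul, ← Tower.actM_mul _ _ h' g'', hfix σ hσ (h' * g''),
        Tower.actM_mul _ _ g h', Tower.actM_mul _ _ h' g'']
    have hδσ : ((δ σ : 𝒪) - 1) ∈ Ideal.span {(p : 𝒪) ^ n'} := by
      have := hδ n' σ 1 (fun ζ hζ => by rw [pow_one]; exact hσ ζ (hroots ζ hζ))
      simpa using this
    have hδ2 : (δ (g * σ * h') : 𝒪) - (δ (g * h') : 𝒪) ∈ Ideal.span {(p : 𝒪) ^ n'} := by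
      have e : (δ (g * σ * h') : 𝒪) - (δ (g * h') : 𝒪) =
          (δ g : 𝒪) * (δ h' : 𝒪) * ((δ σ : 𝒪) - 1) := by
        simp only [map_mul, Units.val_mul]; ring
      rw [e]
      exact Ideal.mul_mem_left _ _ hδσ
    have h2 := 𝔗.smul_M_eq_zero_of_mem n' hδ2 (𝔗.actM 𝒪 n' g' (W n'))
    rw [sub_smul, sub_eq_zero] at h2
    have h3 : 𝔗.actM 𝒪 n' (g * σ * h') (𝔗.actM 𝒪 n' (g * h') (𝔗.actM 𝒪 n' g' (W n'))) =
        𝔗.actM 𝒪 n' (g * h') (𝔗.actM 𝒪 n' (g * h') (𝔗.actM 𝒪 n' g' (W n'))) := by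
      have := hact (g * h' * g')
      rwa [Tower.actM_mul _ _ (g * h') g'] at this
    rw [hact g', h3, h2] at h1
    exact h1

end Fermat.Agent.GR
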