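import Fermat.Agent.GR.AnData
import Fermat.Agent.GR.ES
import Fermat.Agent.S54.Frobenius

/-!
# GR: `AnData p N → Tower p N`

`A n` is the subgroup of `F^× / F^{× p^n}` (`F = ℚ̄(X₀(N))`) generated by the Galois translates of
the analytic classes; `T n ℓ := Frob_ℓ + ℓ Frob_ℓ⁻¹` for a chosen Frobenius lift.
-/

set_option autoImplicit false

namespace Fermat.Agent.GR

open ModularCurve AlgebraicCurve HahnSeries Fermat.Agent.S24

/-! ### the group `F^× / F^{× m}` -/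

section KQ

variable (N m : ℕ)

/-- the subgroup of `m`-th powers -/
noncomputable def Pw : Subgroup (FN N)ˣ := (powMonoidHom m : (FN N)ˣ →* (FN N)ˣ).range

/-- `F^× / F^{× m}`, written additively. -/
def KQ : Type := Additive ((FN N)ˣ ⧸ Pw N m)

noncomputable instance instAddCommGroupKQ : AddCommGroup (KQ N m) :=
  inferInstanceAs (AddCommGroup (Additive ((FN N)ˣ ⧸ Pw N m)))

variable {N m}

theorem mem_Pw {u : (FN N)ˣ} : u ∈ Pw N m ↔ ∃ w : (FN N)ˣ, w ^ m = u := Iff.rfl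

variable (m) in
/-- the class of a unit -/
noncomputable def mkQ (u : (FN N)ˣ) : KQ N m := Additive.ofMul (u : (FN N)ˣ ⧸ Pw N m)

theorem mkQ_mul (u v : (FN N)ˣ) : mkQ m (u * v) = mkQ m u + mkQ m v := rfl

theorem mkQ_one : mkQ m (1 : (FN N)ˣ) = 0 := rfl

theorem mkQ_surjective (y : KQ N m) : ∃ u : (FN N)ˣ, mkQ m u = y :=
  QuotientGroup.mk_surjective (s := Pw N m) (Additive.toMul (α := (FN N)ˣ ⧸ Pw N m) y)

theorem mkQ_eq_zero_iff (u : (FN N)ˣ) : mkQ m u = 0 ↔ ∃ w : (FN N)ˣ, w ^ m = u := by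
  have h1 : mkQ m u = 0 ↔ (u : (FN N)ˣ ⧸ Pw N m) = 1 := Iff.rfl
  rw [h1, QuotientGroup.eq_one_iff, mem_Pw]

variable (m) in
open Classical in
/-- the class of an element of `F` (junk value `0` at `0`). -/
noncomputable def cls (u : FN N) : KQ N m :=
  if h : u = 0 then 0 else mkQ m (Units.mk0 u h)

theorem cls_of_ne {u : FN N} (h : u ≠ 0) : cls m u = mkQ m (Units.mk0 u h) := dif_neg h

theorem cls_zero : cls m (0 : FN N) = 0 := dif_pos rfl

theorem cls_surjective (y : KQ N m) : ∃ u : FN N, u ≠ 0 ∧ cls m u = y := by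
  obtain ⟨u, hu⟩ := mkQ_surjective y
  refine ⟨(u : FN N), u.ne_zero, ?_⟩
  rw [cls_of_ne u.ne_zero, Units.mk0_val, hu]

theorem cls_mul {u v : FN N} (hu : u ≠ 0) (hv : v ≠ 0) : cls m (u * v) = cls m u + cls m v := by
  rw [cls_of_ne hu, cls_of_ne hv, cls_of_ne (mul_ne_zero hu hv), ← mkQ_mul]
  congr 1
  exact Units.ext rfl

theorem cls_one : cls m (1 : FN N) = 0 := by
  have h1 : (1 : FN N) ≠ 0 := one_ne_zero
  rw [cls_of_ne h1]
  have : (Units.mk0 (1 : FN N) h1) = 1 := Units.ext rfl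
  rw [this, mkQ_one]

theorem cls_pow {u : FN N} (hu : u ≠ 0) (k : ℕ) : cls m (u ^ k) = k • cls m u := by
  induction k with
  | zero => rw [pow_zero, zero_nsmul, cls_one]
  | succ k ih => rw [pow_succ, cls_mul (pow_ne_zero _ hu) hu, ih, succ_nsmul]

theorem cls_eq_zero_iff {u : FN N} (hu : u ≠ 0) : cls m u = 0 ↔ ∃ w : FN N, u = w ^ m := by
  rw [cls_of_ne hu, mkQ_eq_zero_iff]
  constructor
  · rintro ⟨w, hw⟩
    refine ⟨(w : FN N), ?_⟩
    rw [← Units.val_pow_eq_pow_val, hw]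
    rfl
  · rintro ⟨w, hw⟩
    by_cases hw0 : w = 0
    · subst hw0
      by_cases hm : m = 0
      · subst hm
        exact ⟨1, Units.ext (by rw [pow_zero] at hw ⊢; exact hw.symm)⟩
      · rw [zero_pow hm] at hw
        exact absurd hw hu
    · exact ⟨Units.mk0 w hw0, Units.ext (by rw [Units.val_pow_eq_pow_val]; exact hw.symm)⟩

theorem cls_pow_self (w : FN N) : cls m (w ^ m) = 0 := by
  by_cases h : w ^ m = 0
  · rw [h, cls_zero]
  · exact (cls_eq_zero_iff h).mpr ⟨w, rfl⟩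

/-- if `u = v w^m` with `u ≠ 0` then `[u] = [v]`. -/
theorem cls_eq_of_eq_mul_pow {u v w : FN N} (hu : u ≠ 0) (h : u = v * w ^ m) :
    cls m u = cls m v := by
  have hv : v ≠ 0 := by rintro rfl; exact hu (by rw [h, zero_mul])
  have hw : w ^ m ≠ 0 := by intro h0; exact hu (by rw [h, h0, mul_zero])
  rw [h, cls_mul hv hw, cls_pow_self, add_zero]

theorem nsmul_KQ (y : KQ N m) : m • y = 0 := by
  obtain ⟨u, hu, rfl⟩ := cls_surjective y
  rw [← cls_pow hu, cls_pow_self]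

variable (m) in
/-- the Galois action on `F^× / F^{× m}` -/
noncomputable def actQ (σ : GQ) : KQ N m →+ KQ N m :=
  MonoidHom.toAdditive (QuotientGroup.map (Pw N m) (Pw N m)
    (Units.map ((galF N σ : FN N ≃+* FN N) : FN N →* FN N)) (by
      rintro _ ⟨w, rfl⟩
      exact ⟨Units.map ((galF N σ : FN N ≃+* FN N) : FN N →* FN N) w, (map_pow _ _ _).symm⟩))

theorem actQ_cls (σ : GQ) (u : FN N) : actQ m σ (cls m u) = cls m (galF N σ u) := by
  by_cases hu : u = 0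
  · subst hu
    rw [map_zero, cls_zero, map_zero]
  · have hu' : galF N σ u ≠ 0 := by rwa [Ne, map_eq_zero_iff _ (galF N σ).injective]
    rw [cls_of_ne hu, cls_of_ne hu']
    show mkQ m _ = _
    congr 1
    exact Units.ext rfl

theorem actQ_mul (σ τ : GQ) (y : KQ N m) : actQ m (σ * τ) y = actQ m σ (actQ m τ y) := by
  obtain ⟨u, hu, rfl⟩ := cls_surjective y
  rw [actQ_cls, actQ_cls, actQ_cls, galF_mul]

theorem actQ_one (y : KQ N m) : actQ m 1 y = y := by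
  obtain ⟨u, hu, rfl⟩ := cls_surjective y
  rw [actQ_cls, galF_one]

theorem actQ_inv_actQ (σ : GQ) (y : KQ N m) : actQ m σ⁻¹ (actQ m σ y) = y := by
  rw [← actQ_mul, inv_mul_cancel, actQ_one]

/-- the transition map `F^× / F^{× m'} → F^× / F^{× m}`, `m ∣ m'` -/
noncomputable def trQ {m' : ℕ} (h : m ∣ m') : KQ N m' →+ KQ N m :=
  MonoidHom.toAdditive (QuotientGroup.map (Pw N m') (Pw N m) (MonoidHom.id _) (by
      rintro _ ⟨w, rfl⟩
      obtain ⟨k, rfl⟩ := h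
      exact ⟨w ^ k, by
        show (w ^ k) ^ m = w ^ (m * k)
        rw [← pow_mul, mul_comm]⟩))

theorem trQ_cls {m' : ℕ} (h : m ∣ m') (u : FN N) : trQ h (cls m' u) = cls m u := by
  by_cases hu : u = 0
  · subst hu
    rw [cls_zero, cls_zero, map_zero]
  · rw [cls_of_ne hu, cls_of_ne hu]
    rfl

theorem trQ_actQ {m' : ℕ} (h : m ∣ m') (σ : GQ) (y : KQ N m') :
    trQ h (actQ m' σ y) = actQ m σ (trQ h y) := by
  obtain ⟨u, hu, rfl⟩ := cls_surjective y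
  rw [actQ_cls, trQ_cls, trQ_cls, actQ_cls]

/-- roots of unity of `F` are constants -/
theorem exists_algebraMap_eq_of_pow_eq_one {ξ : FN N} {k : ℕ} (hk : 0 < k) (h : ξ ^ k = 1) :
    ∃ c : Kb, algebraMap Kb (FN N) c = ξ := by
  have hint : IsIntegral Kb ξ :=
    ⟨Polynomial.X ^ k - 1, Polynomial.monic_X_pow_sub_C 1 hk.ne', by simp [h]⟩
  exact minpoly.mem_range_of_degree_eq_one Kb ξ
    (IsAlgClosed.degree_eq_one_of_irreducible Kb (minpoly.irreducible hint))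

theorem trQ_eq_zero_of_nsmul_eq_zero {k : ℕ} (hm : 0 < m) (hk : 0 < k) (y : KQ N (m * k))
    (h : k • y = 0) : trQ (Dvd.intro k rfl) y = 0 := by
  obtain ⟨u, hu, rfl⟩ := cls_surjective y
  rw [trQ_cls, cls_eq_zero_iff hu]
  rw [← cls_pow hu, cls_eq_zero_iff (pow_ne_zero _ hu)] at h
  obtain ⟨w, hw⟩ := h
  have hw0 : w ≠ 0 := by
    rintro rfl
    rw [zero_pow (Nat.mul_pos hm hk).ne'] at hw
    exact pow_ne_zero _ hu hw
  have h1 : (u * (w ^ m)⁻¹) ^ k = 1 := by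
    rw [mul_pow, hw, inv_pow, ← pow_mul, mul_inv_cancel₀ (pow_ne_zero _ hw0)]
  obtain ⟨c, hc⟩ := exists_algebraMap_eq_of_pow_eq_one hk h1
  obtain ⟨d, hd⟩ := IsAlgClosed.exists_pow_nat_eq c hm
  refine ⟨algebraMap Kb (FN N) d * w, ?_⟩
  rw [mul_pow, ← map_pow, hd, hc, mul_assoc, inv_mul_cancel₀ (pow_ne_zero _ hw0), mul_one]

end KQ

/-! ### a chosen Frobenius lift -/

open Classical in
/-- a chosen Frobenius lift at `ℓ` -/
noncomputable def frobLift (ℓ : ℕ) : GQ :=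
  if h : ℓ.Prime then (Fermat.Agent.S54.exists_frobenius ℓ h).choose_spec.choose else 1

theorem frobLift_spec {ℓ : ℕ} (h : ℓ.Prime) :
    ∃ A : ValuationSubring Qb, A.LiesOverPrime ℓ ∧ A.IsFrobeniusAt (frobLift ℓ) ℓ := by
  rw [frobLift, dif_pos h]
  exact ⟨_, (Fermat.Agent.S54.exists_frobenius ℓ h).choose_spec.choose_spec⟩

/-- `Frob_ℓ + ℓ Frob_ℓ⁻¹` -/
noncomputable def TQ (N m ℓ : ℕ) : KQ N m →+ KQ N m :=
  actQ m (frobLift ℓ) + (nsmulAddMonoidHom ℓ).comp (actQ m (frobLift ℓ)⁻¹)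

theorem TQ_apply {N m ℓ : ℕ} (y : KQ N m) :
    TQ N m ℓ y = actQ m (frobLift ℓ) y + ℓ • actQ m (frobLift ℓ)⁻¹ y := rfl

/-! ### the tower -/

section Asm

variable {p N : ℕ} [NeZero N] (D : AnData p N)

/-- the generators `g • ι h` -/
noncomputable def gen (n : ℕ) (g : GQ) (h : D.H) : KQ N (p ^ n) :=
  cls (p ^ n) (galF N g (D.u n h))

/-- the subgroup generated by the Galois translates of the analytic classes -/
noncomputable def AS (n : ℕ) : AddSubgroup (KQ N (p ^ n)) :=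
  AddSubgroup.closure (Set.range fun gh : GQ × D.H => gen D n gh.1 gh.2)

theorem gen_mem (n : ℕ) (g : GQ) (h : D.H) : gen D n g h ∈ AS D n :=
  AddSubgroup.subset_closure ⟨(g, h), rfl⟩

theorem actQ_gen (n : ℕ) (σ g : GQ) (h : D.H) :
    actQ (p ^ n) σ (gen D n g h) = gen D n (σ * g) h := by
  rw [gen, gen, actQ_cls, galF_mul]

theorem galF_u_ne (n : ℕ) (g : GQ) (h : D.H) : galF N g (D.u n h) ≠ 0 := by
  rw [Ne, map_eq_zero_iff _ (galF N g).injective]; exact D.u_ne n h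

theorem dvdOrd_u (n : ℕ) (h : D.H) : DvdOrd N (p ^ n) (D.u n h) := D.u_ord n h

/-- two additive maps which agree on the generators agree on `AS` -/
theorem eq_on_AS {n : ℕ} {G : Type} [AddCommGroup G] (Φ Ψ : KQ N (p ^ n) →+ G)
    (h : ∀ g h, Φ (gen D n g h) = Ψ (gen D n g h)) {y : KQ N (p ^ n)} (hy : y ∈ AS D n) :
    Φ y = Ψ y := by
  refine AddMonoidHom.eqOn_closure (f := Φ) (g := Ψ) ?_ hy
  rintro _ ⟨⟨g, h'⟩, rfl⟩
  exact h g h'

/-- an additive map which maps generators to `S` maps `AS` to `S`. -/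
theorem map_mem_of_AS {n : ℕ} {G : Type} [AddCommGroup G] (Φ : KQ N (p ^ n) →+ G)
    (S : AddSubgroup G) (h : ∀ g h, Φ (gen D n g h) ∈ S) {y : KQ N (p ^ n)} (hy : y ∈ AS D n) :
    Φ y ∈ S := by
  have : AS D n ≤ S.comap Φ := by
    rw [AS, AddSubgroup.closure_le]
    rintro _ ⟨⟨g, h'⟩, rfl⟩
    exact h g h'
  exact this hy

theorem actQ_mem (n : ℕ) (σ : GQ) {y : KQ N (p ^ n)} (hy : y ∈ AS D n) :
    actQ (p ^ n) σ y ∈ AS D n :=
  map_mem_of_AS D _ _ (fun g h => by rw [actQ_gen]; exact gen_mem D n _ h) hy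

theorem trQ_gen (n : ℕ) (g : GQ) (h : D.H) :
    trQ (pow_dvd_pow p (Nat.le_succ n)) (gen D (n + 1) g h) = gen D n g h := by
  rw [gen, gen, trQ_cls]
  obtain ⟨w, hw⟩ := D.u_tr n h
  refine cls_eq_of_eq_mul_pow (w := galF N g w) (galF_u_ne D _ g h) ?_
  rw [hw, map_mul, map_pow]

variable [hp : Fact p.Prime]

theorem not_dvd_pow {ℓ : ℕ} (hℓ : ℓ.Prime) (hℓp : ℓ ≠ p) (n : ℕ) : ¬ ℓ ∣ p ^ n := fun h =>
  hℓp ((Nat.prime_dvd_prime_iff_eq hℓ hp.out).mp (hℓ.dvd_of_dvd_pow h))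

theorem unram_gen (n : ℕ) {q : ℕ} (hq : q.Prime) (hqN : ¬ q ∣ N) (hqp : q ≠ p)
    {P : ValuationSubring Qb} (hP : P.LiesOverPrime q) {τ : GQ} (hτ : τ ∈ P.inertiaSubgroupIn ℚ)
    (g : GQ) (h : D.H) : actQ (p ^ n) τ (gen D n g h) = gen D n g h := by
  obtain ⟨w, hw⟩ := unram_FN hq hqN hP (not_dvd_pow hq hqp n) hτ (galF N g (D.u n h))
    (galF_u_ne D n g h) ((dvdOrd_u D n h).galF g)
  rw [gen, actQ_cls]
  refine cls_eq_of_eq_mul_pow ?_ hw
  rw [Ne, map_eq_zero_iff _ (galF N τ).injective]; exact galF_u_ne D n g h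

theorem es_gen (n : ℕ) {ℓ : ℕ} (hℓ : ℓ.Prime) (hℓN : ¬ ℓ ∣ N) (hℓp : ℓ ≠ p)
    {P : ValuationSubring Qb} (hP : P.LiesOverPrime ℓ) {σ : GQ} (hσ : P.IsFrobeniusAt σ ℓ)
    (g : GQ) (h : D.H) :
    actQ (p ^ n) σ (actQ (p ^ n) σ (gen D n g h)) + ℓ • gen D n g h =
      actQ (p ^ n) σ
        (gen D n g (D.actH (CuspForm.heckeAlgebra.T hℓ hℓN (Set.notMem_empty ℓ)) h)) := by
  have : NeZero ℓ := ⟨hℓ.ne_zero⟩
  obtain ⟨ζ, w, hζ, hT⟩ := D.u_T n ℓ hℓ hℓN hℓp h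
  set h' := D.actH (CuspForm.heckeAlgebra.T hℓ hℓN (Set.notMem_empty ℓ)) h with hh'
  have hζ' : IsPrimitiveRoot (Units.map ((g : Kb →+* Kb) : Kb →* Kb) ζ) ℓ :=
    hζ.map_of_injective (Units.map_injective (f := ((g : Kb →+* Kb) : Kb →* Kb)) g.injective)
  have hu' : ((galF N g (D.u n h' * w ^ (p ^ n)) : FN N) : LaurentSeries Kb) =
      Mop (Units.map ((g : Kb →+* Kb) : Kb →* Kb) ζ) ℓ
        ((galF N g (D.u n h) : FN N) : LaurentSeries Kb) := by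
    rw [coe_galF, coe_galF, ← hT, coeffMap_Mop]
  obtain ⟨w', hw'⟩ := es_FN hℓ hℓN hP (not_dvd_pow hℓ hℓp n) hσ (galF N g (D.u n h))
    (galF N g (D.u n h' * w ^ (p ^ n))) (galF_u_ne D n g h) ((dvdOrd_u D n h).galF g)
    (((dvdOrd_u D n h').mul (dvdOrd_pow_self _ w)).galF g) hζ' hu'
  have hne : ∀ (τ : GQ) {x : FN N}, x ≠ 0 → galF N τ x ≠ 0 := fun τ x hx => by
    rwa [Ne, map_eq_zero_iff _ (galF N τ).injective]
  have h0 := galF_u_ne D n g h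
  have h1 : cls (p ^ n) (galF N σ (galF N σ (galF N g (D.u n h))) * galF N g (D.u n h) ^ ℓ) =
      cls (p ^ n) (galF N σ (galF N g (D.u n h' * w ^ (p ^ n)))) :=
    cls_eq_of_eq_mul_pow (mul_ne_zero (hne _ (hne _ h0)) (pow_ne_zero _ h0)) hw'
  rw [cls_mul (hne _ (hne _ h0)) (pow_ne_zero _ h0), cls_pow h0] at h1
  rw [gen, gen, actQ_cls, actQ_cls, actQ_cls, h1]
  have hw0 : D.u n h' * w ^ (p ^ n) ≠ 0 := by
    intro hz
    rw [hz] at hT
    have h2 : Mop ζ ℓ ((D.u n h : FN N) : LaurentSeries Kb) *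
        Mop ζ ℓ ((D.u n h : FN N) : LaurentSeries Kb)⁻¹ = 1 := by
      rw [← Mop_mul hζ, mul_inv_cancel₀ (fun hh => D.u_ne n h (Subtype.ext hh)), Mop_one]
    rw [hT] at h2
    exact zero_ne_one (by rw [← h2]; exact (zero_mul _).symm)
  refine cls_eq_of_eq_mul_pow (w := galF N σ (galF N g w)) (hne _ (hne _ hw0)) ?_
  rw [map_mul, map_mul, map_pow, map_pow]

theorem TQ_gen (n : ℕ) {ℓ : ℕ} (hℓ : ℓ.Prime) (hℓN : ¬ ℓ ∣ N) (hℓp : ℓ ≠ p) (g : GQ) (h : D.H) :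
    TQ N (p ^ n) ℓ (gen D n g h) =
      gen D n g (D.actH (CuspForm.heckeAlgebra.T hℓ hℓN (Set.notMem_empty ℓ)) h) := by
  obtain ⟨A, hA, hσ⟩ := frobLift_spec hℓ
  have h1 := congrArg (actQ (p ^ n) (frobLift ℓ)⁻¹) (es_gen D n hℓ hℓN hℓp hA hσ g h)
  rw [map_add, actQ_inv_actQ, actQ_inv_actQ, map_nsmul] at h1
  rw [TQ_apply, h1]

omit hp in
theorem gen_add (n : ℕ) (g : GQ) (h h' : D.H) :
    gen D n g (h + h') = gen D n g h + gen D n g h' := by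
  obtain ⟨w, hw⟩ := D.u_add n h h'
  rw [gen, gen, gen, ← cls_mul (galF_u_ne D n g h) (galF_u_ne D n g h')]
  refine cls_eq_of_eq_mul_pow (w := galF N g w) (galF_u_ne D n g _) ?_
  rw [hw, map_mul, map_mul, map_pow]

open Classical in
/-- the Hecke operators (junk `0` for bad `ℓ`) -/
noncomputable def TQ' (p N n ℓ : ℕ) : KQ N (p ^ n) →+ KQ N (p ^ n) :=
  if ℓ.Prime ∧ ¬ ℓ ∣ N ∧ ℓ ≠ p then TQ N (p ^ n) ℓ else 0

omit hp in
theorem TQ'_mem (n ℓ : ℕ) {y : KQ N (p ^ n)} (hy : y ∈ AS D n) : TQ' p N n ℓ y ∈ AS D n := by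
  rw [TQ']
  split_ifs
  · rw [TQ_apply]
    exact add_mem (actQ_mem D n _ hy) (nsmul_mem (actQ_mem D n _ hy) _)
  · exact zero_mem _

omit [NeZero N] hp in
theorem TQ'_of_good {n ℓ : ℕ} (hℓ : ℓ.Prime) (hℓN : ¬ ℓ ∣ N) (hℓp : ℓ ≠ p) :
    TQ' p N n ℓ = TQ N (p ^ n) ℓ := if_pos ⟨hℓ, hℓN, hℓp⟩

omit [NeZero N] hp in
theorem trQ_TQ' (n ℓ : ℕ) (y : KQ N (p ^ (n + 1))) :
    trQ (pow_dvd_pow p (Nat.le_succ n)) (TQ' p N (n + 1) ℓ y) =
      TQ' p N n ℓ (trQ (pow_dvd_pow p (Nat.le_succ n)) y) := by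
  rw [TQ', TQ']
  split_ifs
  · rw [TQ_apply, TQ_apply, map_add, map_nsmul, trQ_actQ, trQ_actQ]
  · exact map_zero _

theorem TQ'_actQ (n ℓ : ℕ) (σ : GQ) {y : KQ N (p ^ n)} (hy : y ∈ AS D n) :
    TQ' p N n ℓ (actQ (p ^ n) σ y) = actQ (p ^ n) σ (TQ' p N n ℓ y) := by
  by_cases hg : ℓ.Prime ∧ ¬ ℓ ∣ N ∧ ℓ ≠ p
  · obtain ⟨hℓ, hℓN, hℓp⟩ := hg
    rw [TQ'_of_good hℓ hℓN hℓp]
    refine eq_on_AS D ((TQ N (p ^ n) ℓ).comp (actQ (p ^ n) σ))
      ((actQ (p ^ n) σ).comp (TQ N (p ^ n) ℓ)) (fun g h => ?_) hy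
    rw [AddMonoidHom.comp_apply, AddMonoidHom.comp_apply, actQ_gen, TQ_gen D n hℓ hℓN hℓp,
      TQ_gen D n hℓ hℓN hℓp, actQ_gen]
  · rw [TQ', if_neg hg]
    exact (map_zero _).symm

theorem es_AS (n : ℕ) {ℓ : ℕ} (hℓ : ℓ.Prime) (hℓN : ¬ ℓ ∣ N) (hℓp : ℓ ≠ p)
    {P : ValuationSubring Qb} (hP : P.LiesOverPrime ℓ) {σ : GQ} (hσ : P.IsFrobeniusAt σ ℓ)
    {y : KQ N (p ^ n)} (hy : y ∈ AS D n) :
    actQ (p ^ n) σ (actQ (p ^ n) σ y) - TQ' p N n ℓ (actQ (p ^ n) σ y) + ℓ • y = 0 := by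
  rw [TQ'_of_good hℓ hℓN hℓp]
  have h1 := eq_on_AS D
    ((actQ (p ^ n) σ).comp (actQ (p ^ n) σ) + nsmulAddMonoidHom ℓ)
    ((TQ N (p ^ n) ℓ).comp (actQ (p ^ n) σ)) (fun g h => by
      rw [AddMonoidHom.add_apply, AddMonoidHom.comp_apply, AddMonoidHom.comp_apply,
        nsmulAddMonoidHom_apply, es_gen D n hℓ hℓN hℓp hP hσ, actQ_gen, actQ_gen,
        TQ_gen D n hℓ hℓN hℓp]) hy
  rw [AddMonoidHom.add_apply, AddMonoidHom.comp_apply, AddMonoidHom.comp_apply,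
    nsmulAddMonoidHom_apply] at h1
  rw [← h1]
  abel

theorem unram_AS (n : ℕ) {q : ℕ} (hq : q.Prime) (hqN : ¬ q ∣ N) (hqp : q ≠ p)
    {P : ValuationSubring Qb} (hP : P.LiesOverPrime q) {τ : GQ} (hτ : τ ∈ P.inertiaSubgroupIn ℚ)
    {y : KQ N (p ^ n)} (hy : y ∈ AS D n) : actQ (p ^ n) τ y = y :=
  eq_on_AS D (actQ (p ^ n) τ) (AddMonoidHom.id _) (fun g h => unram_gen D n hq hqN hqp hP hτ g h) hy

omit [NeZero N] in
theorem smooth_KQ {m : ℕ} (y : KQ N m) : ∃ L : IntermediateField ℚ Qb, FiniteDimensional ℚ L ∧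
    ∀ σ : GQ, (∀ z ∈ L, σ z = z) → actQ m σ y = y := by
  obtain ⟨u, -, rfl⟩ := cls_surjective y
  obtain ⟨L, hL, h⟩ := exists_field_fixing_FN u
  exact ⟨L, hL, fun σ hσ => by rw [actQ_cls, h σ hσ]⟩

omit [NeZero N] in
theorem trQ_eq_zero_of_nsmul_eq_zero' (n : ℕ) (y : KQ N (p ^ (n + 1))) (h : p • y = 0) :
    trQ (pow_dvd_pow p (Nat.le_succ n)) y = 0 :=
  trQ_eq_zero_of_nsmul_eq_zero (m := p ^ n) (k := p) (pow_pos hp.out.pos n) hp.out.pos y h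

/-- restriction of an endomorphism to a stable subgroup -/
noncomputable def restr {G G' : Type} [AddCommGroup G] [AddCommGroup G'] (S : AddSubgroup G)
    (S' : AddSubgroup G') (Φ : G →+ G') (h : ∀ x ∈ S, Φ x ∈ S') : S →+ S' :=
  (Φ.comp S.subtype).codRestrict S' (fun x => h x x.2)

omit [NeZero N] hp in
theorem coe_restr {G G' : Type} [AddCommGroup G] [AddCommGroup G'] (S : AddSubgroup G)
    (S' : AddSubgroup G') (Φ : G →+ G') (h : ∀ x ∈ S, Φ x ∈ S') (x : S) :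
    (restr S S' Φ h x : G') = Φ x := rfl

/-- **The tower attached to the analytic data.** -/
noncomputable def towerOfAnData : Tower p N where
  A n := AS D n
  grp n := inferInstance
  act n :=
    { toFun := fun σ => restr (AS D n) (AS D n) (actQ (p ^ n) σ) (fun _ hx => actQ_mem D n σ hx)
      map_one' := by
        ext x
        exact actQ_one _
      map_mul' := by
        intro σ τ
        ext x
        exact actQ_mul σ τ _ }
  T n ℓ := restr (AS D n) (AS D n) (TQ' p N n ℓ) (fun _ hx => TQ'_mem D n ℓ hx)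
  tr n := restr (AS D (n + 1)) (AS D n) (trQ (pow_dvd_pow p (Nat.le_succ n)))
    (fun _ hx => map_mem_of_AS D _ _ (fun g h => by rw [trQ_gen]; exact gen_mem D n g h) hx)
  pow_smul n x := Subtype.ext (nsmul_KQ _)
  tr_eq_zero n x hx := Subtype.ext
    (trQ_eq_zero_of_nsmul_eq_zero' n _ (congrArg Subtype.val hx))
  tr_act n σ x := Subtype.ext (trQ_actQ (pow_dvd_pow p (Nat.le_succ n)) σ _)
  tr_T n ℓ x := Subtype.ext (trQ_TQ' n ℓ _)
  T_act n ℓ σ x := Subtype.ext (TQ'_actQ D n ℓ σ x.2)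
  smooth n x := by
    obtain ⟨L, hL, h⟩ := smooth_KQ (x : KQ N (p ^ n))
    exact ⟨L, hL, fun σ hσ => Subtype.ext (h σ hσ)⟩
  unram n q hq hqN hqp P hP σ hσ x := Subtype.ext (unram_AS D n hq hqN hqp hP hσ x.2)
  es n ℓ hℓ hℓN hℓp P hP σ hσ x := Subtype.ext (es_AS D n hℓ hℓN hℓp hP hσ x.2)
  H := D.H
  grpH := inferInstance
  freeH := inferInstance
  finH := inferInstance
  actH := D.actH
  actH_inj := D.actH_inj
  ι n := AddMonoidHom.mk' (fun h => ⟨gen D n 1 h, gen_mem D n 1 h⟩)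
    (fun a b => Subtype.ext (gen_add D n 1 a b))
  ι_ker n h hh := by
    have h1 : gen D n 1 h = 0 := congrArg Subtype.val hh
    rw [gen, galF_one, cls_eq_zero_iff (D.u_ne n h)] at h1
    exact D.u_ker n h h1
  tr_ι n h := Subtype.ext (trQ_gen D n 1 h)
  ι_T n ℓ hℓ hℓN hℓp h := Subtype.ext (by
    show gen D n 1 _ = TQ' p N n ℓ (gen D n 1 h)
    rw [TQ'_of_good hℓ hℓN hℓp, TQ_gen D n hℓ hℓN hℓp])

end Asm

/-- `AnData → Tower`. -/
theorem nonempty_tower_of_anData {p N : ℕ} [NeZero N] [Fact p.Prime]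
    (h : Nonempty (AnData p N)) : Nonempty (Tower p N) :=
  h.elim fun D => ⟨towerOfAnData D⟩

end Fermat.Agent.GR
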