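import Fermat.Agent.GR.Defs
import Fermat.Agent.GR.TowerAsm
import Fermat.Agent.S29.ANMain

/-!
# GR: the provider theorem (modular side)

`[AN]` (`S29/ANMain.lean`, `exists_anData`) + `[ES]` (`GR/ES.lean`, `GR/TowerAsm.lean`; uses KL of S18).
-/

set_option autoImplicit false

namespace Fermat.Agent.GR

theorem exists_tower (p : ℕ) [Fact p.Prime] (N : ℕ) [NeZero N] : Nonempty (Tower p N) :=
  nonempty_tower_of_anData (Fermat.Agent.S29.exists_anData p N)

end Fermat.Agent.GR
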