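import Mathlib

/-!
# GR, pieces PSF / PSL / PSM: from `g² - t(g) g + δ(g) = 0` to a two dimensional representation

Pure algebra (Mathlib only).  `c` plays the role of complex conjugation.
-/

set_option autoImplicit false

namespace Fermat.Agent.GR

open IsLocalRing

section field

variable {E : Type} [Field E] {G : Type} [Group G]

/-- `a(g) = (t(g) + t(gc)) / 2`. -/
noncomputable def psA (t : G → E) (c : G) (g : G) : E := (t g + t (g * c)) / 2

/-- `d(g) = (t(g) - t(gc)) / 2`. -/
noncomputable def psD (t : G → E) (c : G) (g : G) : E := (t g - t (g * c)) / 2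

/-- `x(g,h) = a(gh) - a(g) a(h)`. -/
noncomputable def psX (t : G → E) (c : G) (g h : G) : E := psA t c (g * h) - psA t c g * psA t c h

/-- The candidate matrices. -/
noncomputable def psMat (t : G → E) (c g₀ h₀ : G) (g : G) : Matrix (Fin 2) (Fin 2) E :=
  !![psA t c g, psX t c g h₀; psX t c g₀ g / psX t c g₀ h₀, psD t c g]

namespace PSF

variable {X : Type} [AddCommGroup X] [Module E X]
    (r : G →* Module.End E X) (δ : G →* Eˣ) (t : G → E) (c : G)

theorem r_mul (g h : G) (x : X) : r (g * h) x = r g (r h x) := by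
  rw [map_mul, Module.End.mul_apply]

theorem r_one (x : X) : r 1 x = x := by
  rw [map_one, Module.End.one_apply]

theorem cc (hc : c * c = 1) (x : X) : r c (r c x) = x := by
  rw [← r_mul, hc, r_one]

theorem inv_rel (hrel : ∀ (g : G) (x : X), r g (r g x) - t g • r g x + (δ g : E) • x = 0)
    (g : G) (x : X) : r g x + (δ g : E) • r g⁻¹ x = t g • x := by
  have h := hrel g (r g⁻¹ x)
  have h1 : r g (r g⁻¹ x) = x := by rw [← r_mul, mul_inv_cancel, r_one]
  rw [h1] at h
  linear_combination (norm := module) h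

theorem two_psA (h2 : (2 : E) ≠ 0) (g : G) : t g + t (g * c) = 2 * psA t c g := by
  rw [psA]; field_simp

theorem two_psD (h2 : (2 : E) ≠ 0) (g : G) : t g - t (g * c) = 2 * psD t c g := by
  rw [psD]; field_simp

theorem psA_add_psD (h2 : (2 : E) ≠ 0) (g : G) : psA t c g + psD t c g = t g := by
  rw [psA, psD]; field_simp; ring

/-- `(1 + c) g v = 2 a(g) v` for `v ∈ X₊`. -/
theorem plus (h2 : (2 : E) ≠ 0)
    (hrel : ∀ (g : G) (x : X), r g (r g x) - t g • r g x + (δ g : E) • x = 0)
    (hc : c * c = 1) (hδc : (δ c : E) = -1) (g : G) (v : X) (hv : r c v = v) :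
    r c (r g v) = (2 * psA t c g) • v - r g v := by
  have e1 := inv_rel r δ t hrel g v
  have e2 := inv_rel r δ t hrel (g * c) v
  have hcinv : c⁻¹ = c := inv_eq_of_mul_eq_one_left hc
  rw [r_mul, hv, mul_inv_rev, hcinv, r_mul, map_mul δ, Units.val_mul, hδc] at e2
  have e1c := congrArg (r c) e1
  have e2c := congrArg (r c) e2
  simp only [map_add, map_smul, cc r c hc, hv] at e1c e2c
  have h : (2 : E) • (r c (r g v)) = (2 : E) • ((2 * psA t c g) • v - r g v) := by
    rw [← two_psA t c h2]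
    linear_combination (norm := module) e1 + e2 + e1c + e2c
  exact smul_right_injective X h2 h

/-- `(1 - c) g u = 2 d(g) u` for `u ∈ X₋`. -/
theorem minus (h2 : (2 : E) ≠ 0)
    (hrel : ∀ (g : G) (x : X), r g (r g x) - t g • r g x + (δ g : E) • x = 0)
    (hc : c * c = 1) (hδc : (δ c : E) = -1) (g : G) (u : X) (hu : r c u = -u) :
    r c (r g u) = r g u - (2 * psD t c g) • u := by
  have e1 := inv_rel r δ t hrel g u
  have e2 := inv_rel r δ t hrel (g * c) u
  have hcinv : c⁻¹ = c := inv_eq_of_mul_eq_one_left hc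
  rw [r_mul, hu, mul_inv_rev, hcinv, r_mul, map_mul δ, Units.val_mul, hδc] at e2
  have e1c := congrArg (r c) e1
  have e2c := congrArg (r c) e2
  simp only [map_add, map_smul, map_neg, cc r c hc, hu] at e1c e2c e2
  have h : (2 : E) • (r c (r g u)) = (2 : E) • (r g u - (2 * psD t c g) • u) := by
    rw [← two_psD t c h2]
    linear_combination (norm := module) e1c + e2 - e2c - e1
  exact smul_right_injective X h2 h

theorem t_one (hrel : ∀ (g : G) (x : X), r g (r g x) - t g • r g x + (δ g : E) • x = 0)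
    (x : X) (hx : x ≠ 0) : t 1 = 2 := by
  have h := hrel 1 x
  simp only [map_one, Units.val_one] at h
  have h' : (2 - t 1) • x = 0 := by linear_combination (norm := module) h
  rcases smul_eq_zero.mp h' with h | h
  · linear_combination -h
  · exact absurd h hx

theorem t_c (hrel : ∀ (g : G) (x : X), r g (r g x) - t g • r g x + (δ g : E) • x = 0)
    (hc : c * c = 1) (hδc : (δ c : E) = -1) (x : X) (hx : x ≠ 0) : t c = 0 := by
  have h := hrel c x
  rw [cc r c hc, hδc] at h
  have h' : t c • r c x = 0 := by linear_combination (norm := module) -h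
  rcases smul_eq_zero.mp h' with h | h
  · exact h
  · exfalso
    apply hx
    rw [← cc r c hc x, h, map_zero]

theorem psA_one (h2 : (2 : E) ≠ 0)
    (hrel : ∀ (g : G) (x : X), r g (r g x) - t g • r g x + (δ g : E) • x = 0)
    (hc : c * c = 1) (hδc : (δ c : E) = -1) (x : X) (hx : x ≠ 0) : psA t c 1 = 1 := by
  rw [psA, one_mul, t_one r δ t hrel x hx, t_c r δ t c hrel hc hδc x hx]
  field_simp
  ring

theorem psD_one (h2 : (2 : E) ≠ 0)
    (hrel : ∀ (g : G) (x : X), r g (r g x) - t g • r g x + (δ g : E) • x = 0)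
    (hc : c * c = 1) (hδc : (δ c : E) = -1) (x : X) (hx : x ≠ 0) : psD t c 1 = 1 := by
  rw [psD, one_mul, t_one r δ t hrel x hx, t_c r δ t c hrel hc hδc x hx]
  field_simp
  ring

theorem bet_minus (h2 : (2 : E) ≠ 0)
    (hrel : ∀ (g : G) (x : X), r g (r g x) - t g • r g x + (δ g : E) • x = 0)
    (hc : c * c = 1) (hδc : (δ c : E) = -1) (h : G) (v : X) (hv : r c v = v) :
    r c (r h v - psA t c h • v) = -(r h v - psA t c h • v) := by
  rw [map_sub, map_smul, plus r δ t c h2 hrel hc hδc h v hv, hv]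
  module

theorem act_bet (h2 : (2 : E) ≠ 0)
    (hrel : ∀ (g : G) (x : X), r g (r g x) - t g • r g x + (δ g : E) • x = 0)
    (hc : c * c = 1) (hδc : (δ c : E) = -1) (g h : G) (v : X) (hv : r c v = v) :
    r g (r h v - psA t c h • v) = psX t c g h • v + psD t c g • (r h v - psA t c h • v) := by
  have hu := bet_minus r δ t c h2 hrel hc hδc h v hv
  have e1 := minus r δ t c h2 hrel hc hδc g _ hu
  have e2 := plus r δ t c h2 hrel hc hδc (g * h) v hv
  have e3 := plus r δ t c h2 hrel hc hδc g v hv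
  rw [r_mul] at e2
  simp only [map_sub, map_smul] at e1 ⊢
  rw [e2, e3] at e1
  apply smul_right_injective X h2
  simp only []
  rw [psX]
  linear_combination (norm := module) -e1

theorem indep (h2 : (2 : E) ≠ 0) (v u : X) (hv : r c v = v) (hu : r c u = -u) (hv0 : v ≠ 0)
    (hu0 : u ≠ 0) (α β α' β' : E) (h : α • v + β • u = α' • v + β' • u) : α = α' ∧ β = β' := by
  have hc' := congrArg (r c) h
  simp only [map_add, map_smul, hv, hu] at hc'
  constructor
  · have h3 : (2 * (α - α')) • v = 0 := by linear_combination (norm := module) h + hc'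
    rcases smul_eq_zero.mp h3 with h4 | h4
    · rcases mul_eq_zero.mp h4 with h5 | h5
      · exact absurd h5 h2
      · exact sub_eq_zero.mp h5
    · exact absurd h4 hv0
  · have h3 : (2 * (β - β')) • u = 0 := by linear_combination (norm := module) h - hc'
    rcases smul_eq_zero.mp h3 with h4 | h4
    · rcases mul_eq_zero.mp h4 with h5 | h5
      · exact absurd h5 h2
      · exact sub_eq_zero.mp h5
    · exact absurd h4 hu0

theorem caseA (h2 : (2 : E) ≠ 0)
    (hrel : ∀ (g : G) (x : X), r g (r g x) - t g • r g x + (δ g : E) • x = 0)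
    (hc : c * c = 1) (hδc : (δ c : E) = -1) (v : X) (hv : r c v = v) (hv0 : v ≠ 0)
    (g₀ h₀ : G) (hx : psX t c g₀ h₀ ≠ 0) :
    psMat t c g₀ h₀ 1 = 1 ∧
      (∀ g h, psMat t c g₀ h₀ (g * h) = psMat t c g₀ h₀ g * psMat t c g₀ h₀ h) ∧
      ∀ g, (psMat t c g₀ h₀ g).det = δ g := by
  obtain ⟨u, hudef⟩ : ∃ u : X, u = r h₀ v - psA t c h₀ • v := ⟨_, rfl⟩
  have hu : r c u = -u := by
    rw [hudef]; exact bet_minus r δ t c h2 hrel hc hδc h₀ v hv
  have hA2 : ∀ g, r g u = psX t c g h₀ • v + psD t c g • u := fun g => by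
    rw [hudef]; exact act_bet r δ t c h2 hrel hc hδc g h₀ v hv
  have hu0 : u ≠ 0 := by
    intro h0
    have h := hA2 g₀
    rw [h0, map_zero, smul_zero, add_zero] at h
    rcases smul_eq_zero.mp h.symm with h | h
    · exact hx h
    · exact hv0 h
  have hind := indep r c h2 v u hv hu hv0 hu0
  have hh₀v : r h₀ v = psA t c h₀ • v + (1 : E) • u := by rw [hudef]; module
  have hx' : psD t c (h₀ * g₀) - psD t c h₀ * psD t c g₀ = psX t c g₀ h₀ := by
    have e1 := hA2 (h₀ * g₀)
    rw [r_mul, hA2 g₀, map_add, map_smul, map_smul, hA2 h₀, hh₀v] at e1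
    have e2 := (hind (psX t c g₀ h₀ * psA t c h₀ + psD t c g₀ * psX t c h₀ h₀)
      (psX t c g₀ h₀ + psD t c g₀ * psD t c h₀) (psX t c (h₀ * g₀) h₀) (psD t c (h₀ * g₀))
      (by linear_combination (norm := module) e1)).2
    linear_combination -e2
  have key : ∀ w : X, r c w = -w → r g₀ w = psD t c g₀ • w → w = 0 := by
    intro w hw hgw
    have e1 := minus r δ t c h2 hrel hc hδc (h₀ * g₀) w hw
    have e2 := minus r δ t c h2 hrel hc hδc h₀ w hw
    rw [r_mul, hgw, map_smul, map_smul, e2] at e1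
    have e3 : (2 * psX t c g₀ h₀) • w = 0 := by
      rw [← hx']
      linear_combination (norm := module) e1
    rcases smul_eq_zero.mp e3 with h | h
    · exact absurd h (mul_ne_zero h2 hx)
    · exact h
  have hA1 : ∀ g, r g v = psA t c g • v + (psX t c g₀ g / psX t c g₀ h₀) • u := by
    intro g
    have hw0 := key (psX t c g₀ h₀ • (r g v - psA t c g • v) - psX t c g₀ g • u)
      (by
        rw [map_sub, map_smul, map_smul, hu, bet_minus r δ t c h2 hrel hc hδc g v hv]
        module)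
      (by
        rw [map_sub, map_smul, map_smul, hA2 g₀, act_bet r δ t c h2 hrel hc hδc g₀ g v hv]
        module)
    have e1 : r g v - psA t c g • v = (psX t c g₀ g / psX t c g₀ h₀) • u := by
      apply smul_right_injective X hx
      simp only []
      rw [smul_smul, mul_div_cancel₀ _ hx]
      exact sub_eq_zero.mp hw0
    linear_combination (norm := module) e1
  have ha1 := psA_one r δ t c h2 hrel hc hδc v hv0
  have hd1 := psD_one r δ t c h2 hrel hc hδc v hv0
  refine ⟨?_, ?_, ?_⟩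
  · have e1 : psX t c 1 h₀ = 0 := by rw [psX, one_mul, ha1, one_mul, sub_self]
    have e2 : psX t c g₀ 1 = 0 := by rw [psX, mul_one, ha1, mul_one, sub_self]
    rw [psMat, ha1, hd1, e1, e2, zero_div]
    exact Matrix.one_fin_two.symm
  · intro g h
    have e1 := hA1 (g * h)
    rw [r_mul, hA1 h, map_add, map_smul, map_smul, hA1 g, hA2 g] at e1
    obtain ⟨m11, m21⟩ := hind
      (psA t c g * psA t c h + psX t c g h₀ * (psX t c g₀ h / psX t c g₀ h₀))
      (psX t c g₀ g / psX t c g₀ h₀ * psA t c h + psD t c g * (psX t c g₀ h / psX t c g₀ h₀))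
      (psA t c (g * h)) (psX t c g₀ (g * h) / psX t c g₀ h₀)
      (by linear_combination (norm := module) e1)
    have e2 := hA2 (g * h)
    rw [r_mul, hA2 h, map_add, map_smul, map_smul, hA1 g, hA2 g] at e2
    obtain ⟨m12, m22⟩ := hind
      (psA t c g * psX t c h h₀ + psX t c g h₀ * psD t c h)
      (psX t c g₀ g / psX t c g₀ h₀ * psX t c h h₀ + psD t c g * psD t c h)
      (psX t c (g * h) h₀) (psD t c (g * h))
      (by linear_combination (norm := module) e2)
    rw [psMat, psMat, psMat, Matrix.mul_fin_two, m11, m12, m21, m22]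
  · intro g
    have e1 := hrel g v
    rw [hA1 g, map_add, map_smul, map_smul, hA1 g, hA2 g, ← psA_add_psD t c h2 g] at e1
    have e2 := (hind
      (psA t c g * psA t c g + (psX t c g₀ g / psX t c g₀ h₀) * psX t c g h₀
        - (psA t c g + psD t c g) * psA t c g + (δ g : E)) 
      (psA t c g * (psX t c g₀ g / psX t c g₀ h₀) + (psX t c g₀ g / psX t c g₀ h₀) * psD t c g
        - (psA t c g + psD t c g) * (psX t c g₀ g / psX t c g₀ h₀)) 0 0
      (by linear_combination (norm := module) e1)).1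
    rw [psMat, Matrix.det_fin_two_of]
    linear_combination -e2

theorem caseB1 (h2 : (2 : E) ≠ 0)
    (hrel : ∀ (g : G) (x : X), r g (r g x) - t g • r g x + (δ g : E) • x = 0)
    (hc : c * c = 1) (hδc : (δ c : E) = -1) (x : X) (hx0 : x ≠ 0)
    (hplus : ∀ v : X, r c v = v → v = 0) :
    (∀ g h, psA t c (g * h) = psA t c g * psA t c h) ∧
      (∀ g h, psD t c (g * h) = psD t c g * psD t c h) ∧ psA t c 1 = 1 ∧ psD t c 1 = 1 ∧
      ∀ g, psA t c g * psD t c g = δ g := by
  have hm : ∀ y : X, r c y = -y := by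
    intro y
    have := hplus (y + r c y) (by rw [map_add, cc r c hc, add_comm])
    exact (neg_eq_of_add_eq_zero_right this).symm
  have hact : ∀ (g : G) (y : X), r g y = psD t c g • y := by
    intro g y
    have e1 := minus r δ t c h2 hrel hc hδc g y (hm y)
    rw [hm] at e1
    apply smul_right_injective X h2
    simp only []
    linear_combination (norm := module) -e1
  have hcancel : ∀ α β : E, α • x = β • x → α = β := by
    intro α β h
    have h' : (α - β) • x = 0 := by rw [sub_smul, h, sub_self]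
    rcases smul_eq_zero.mp h' with h | h
    · exact sub_eq_zero.mp h
    · exact absurd h hx0
  have hd : ∀ g h, psD t c (g * h) = psD t c g * psD t c h := by
    intro g h
    apply hcancel
    rw [← hact, r_mul, hact h, map_smul, hact g, smul_smul, mul_comm]
  have had : ∀ g, psA t c g * psD t c g = δ g := by
    intro g
    have e1 := hrel g x
    rw [hact g x, map_smul, hact g x, ← psA_add_psD t c h2 g] at e1
    apply hcancel
    linear_combination (norm := module) -e1
  have hd0 : ∀ g, psD t c g ≠ 0 := by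
    intro g h0
    have := had g
    rw [h0, mul_zero] at this
    exact (δ g).ne_zero this.symm
  refine ⟨?_, hd, psA_one r δ t c h2 hrel hc hδc x hx0, psD_one r δ t c h2 hrel hc hδc x hx0, had⟩
  intro g h
  apply mul_right_cancel₀ (hd0 (g * h))
  rw [had, map_mul, Units.val_mul, ← had g, ← had h, hd]
  ring

theorem caseB2 (h2 : (2 : E) ≠ 0)
    (hrel : ∀ (g : G) (x : X), r g (r g x) - t g • r g x + (δ g : E) • x = 0)
    (hc : c * c = 1) (hδc : (δ c : E) = -1) (v : X) (hv : r c v = v) (hv0 : v ≠ 0)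
    (hx : ∀ g h, psX t c g h = 0) :
    (∀ g h, psA t c (g * h) = psA t c g * psA t c h) ∧
      (∀ g h, psD t c (g * h) = psD t c g * psD t c h) ∧ psA t c 1 = 1 ∧ psD t c 1 = 1 ∧
      ∀ g, psA t c g * psD t c g = δ g := by
  have ha : ∀ g h, psA t c (g * h) = psA t c g * psA t c h := fun g h => sub_eq_zero.mp (hx g h)
  have ha1 := psA_one r δ t c h2 hrel hc hδc v hv0
  have hcancel : ∀ α β : E, α • v = β • v → α = β := by
    intro α β h
    have h' : (α - β) • v = 0 := by rw [sub_smul, h, sub_self]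
    rcases smul_eq_zero.mp h' with h | h
    · exact sub_eq_zero.mp h
    · exact absurd h hv0
  have hd : ∀ g, psD t c g = δ g * psA t c g⁻¹ := by
    intro g
    have e1 := inv_rel r δ t hrel g v
    have e2 := congrArg (r c) e1
    rw [map_add, map_smul, map_smul, hv, plus r δ t c h2 hrel hc hδc g v hv,
      plus r δ t c h2 hrel hc hδc g⁻¹ v hv, ← psA_add_psD t c h2 g] at e2
    rw [← psA_add_psD t c h2 g] at e1
    have e3 : (2 * psD t c g) • v = (2 * (δ g * psA t c g⁻¹)) • v := by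
      linear_combination (norm := module) -e1 - e2
    exact mul_left_cancel₀ h2 (hcancel _ _ e3)
  have hinv : ∀ g, psA t c g * psA t c g⁻¹ = 1 := fun g => by
    rw [← ha, mul_inv_cancel, ha1]
  refine ⟨ha, ?_, ha1, psD_one r δ t c h2 hrel hc hδc v hv0, ?_⟩
  · intro g h
    rw [hd, hd g, hd h, map_mul, Units.val_mul, mul_inv_rev, ha]
    ring
  · intro g
    rw [hd]
    linear_combination (δ g : E) * hinv g

end PSF

/-- PSF (field level).  Let `X ≠ 0` be an `E`-vector space (`2 ≠ 0` in `E`) with an action `r` of `G` such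
that `g² - t(g) g + δ(g) = 0` for all `g`, and `c ∈ G` with `c² = 1`, `δ(c) = -1`.
Then: either some `x(g₀,h₀) ≠ 0` and `psMat t c g₀ h₀` is multiplicative with determinant `δ`, or
`x ≡ 0` and `a`, `d` are multiplicative with `a d = δ`.

Paper proof.  `t(1) = 2`, `t(c) = 0`, `X = X₊ ⊕ X₋` (eigenspaces of `c`, `e± = (1 ± c)/2`).
Applying the relation `g + δ(g) g⁻¹ = t(g)` to `g` and to `gc` on `v ∈ X₊` and adding:
`2 g v + δ(g)(1 - c) g⁻¹ v = (t(g) + t(gc)) v`, so `e₊ g v = a(g) v`; in the same way `e₋ g u = d(g) u`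
for `u ∈ X₋`.  Put `β_g = e₋ g : X₊ → X₋`, `γ_g = e₊ g : X₋ → X₊`.  Then `γ_g β_h = x(g,h)` on `X₊` and
`β_h γ_g` is the scalar `d(hg) - d(h) d(g)` on `X₋`.
* If `X₊ = 0`: `G` acts by the scalars `d(g)`; `d` is multiplicative, `a = t - d = δ/d`, `x ≡ 0`.
* If `X₊ ≠ 0` and `x ≡ 0`: `a` is multiplicative; projecting `g v + δ(g) g⁻¹ v = t(g) v` to `X₊`:
  `a(g) + δ(g)/a(g) = t(g)`, so `d = δ/a`.
* If `x(g₀,h₀) ≠ 0` (so `X₊ ≠ 0`): `0 ≠ v ∈ X₊`, `u = β_{h₀} v ≠ 0`; `β_{h₀} γ_{g₀}` is a scalar which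
  equals `x(g₀,h₀)` (apply it to `u`), so `γ_{g₀}` is injective, hence
  `β_g v = (x(g₀,g)/x(g₀,h₀)) u`; and `g u = d(g) u + x(g,h₀) v`.  So `E v ⊕ E u` is stable and `g` acts on the
  basis `(v,u)` by `psMat`; the determinant is `δ(g)` by Cayley-Hamilton and the relation. -/
theorem pseudo_field (h2 : (2 : E) ≠ 0) {X : Type} [AddCommGroup X] [Module E X] [Nontrivial X]
    (r : G →* Module.End E X) (δ : G →* Eˣ) (t : G → E)
    (hrel : ∀ (g : G) (x : X), r g (r g x) - t g • r g x + (δ g : E) • x = 0)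
    (c : G) (hc : c * c = 1) (hδc : (δ c : E) = -1) :
    (∃ g₀ h₀ : G, psX t c g₀ h₀ ≠ 0 ∧ psMat t c g₀ h₀ 1 = 1 ∧
      (∀ g h, psMat t c g₀ h₀ (g * h) = psMat t c g₀ h₀ g * psMat t c g₀ h₀ h) ∧
      ∀ g, (psMat t c g₀ h₀ g).det = δ g) ∨
    ((∀ g h, psA t c (g * h) = psA t c g * psA t c h) ∧
      (∀ g h, psD t c (g * h) = psD t c g * psD t c h) ∧ psA t c 1 = 1 ∧ psD t c 1 = 1 ∧
      ∀ g, psA t c g * psD t c g = δ g) := by
  by_cases hplus : ∀ v : X, r c v = v → v = 0
  · obtain ⟨x, hx0⟩ := exists_ne (0 : X)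
    exact Or.inr (PSF.caseB1 r δ t c h2 hrel hc hδc x hx0 hplus)
  · push Not at hplus
    obtain ⟨v, hv, hv0⟩ := hplus
    by_cases hx : ∀ g h, psX t c g h = 0
    · exact Or.inr (PSF.caseB2 r δ t c h2 hrel hc hδc v hv hv0 hx)
    · push Not at hx
      obtain ⟨g₀, h₀, hx⟩ := hx
      exact Or.inl ⟨g₀, h₀, hx, PSF.caseA r δ t c h2 hrel hc hδc v hv hv0 g₀ h₀ hx⟩

end field

/-- PSL (stable lattice).  A representation `ρ : G → M₂(E)`, `E = Frac 𝒪`, `𝒪` a discrete valuation ring,
with bounded denominators is conjugate to a representation with entries in `𝒪`.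
(`Λ = ` the `𝒪`-span of all columns of all `ρ g` is a `G`-stable `𝒪`-submodule of `E²` containing `𝒪²` and
contained in `b⁻¹ 𝒪²`, hence finitely generated, torsion free, so free, of rank two; `B` = matrix of
an `𝒪`-basis of `Λ`.) -/
theorem exists_integral_conj {𝒪 E : Type} [CommRing 𝒪] [IsDomain 𝒪] [IsDiscreteValuationRing 𝒪]
    [Field E] [Algebra 𝒪 E] [IsFractionRing 𝒪 E] {G : Type} [Group G]
    (ρ : G →* Matrix (Fin 2) (Fin 2) E) (b : 𝒪) (hb : b ≠ 0)
    (hbd : ∀ g i j, ∃ y : 𝒪, algebraMap 𝒪 E y = algebraMap 𝒪 E b * ρ g i j) :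
    ∃ (B B' : Matrix (Fin 2) (Fin 2) E) (M : G →* Matrix (Fin 2) (Fin 2) 𝒪),
      B * B' = 1 ∧ B' * B = 1 ∧ ∀ g, (M g).map (algebraMap 𝒪 E) = B' * ρ g * B := by
  classical
  have hinj : Function.Injective (algebraMap 𝒪 E) := IsFractionRing.injective 𝒪 E
  have hbE : algebraMap 𝒪 E b ≠ 0 := by
    rw [Ne, map_eq_zero_iff _ hinj]; exact hb
  -- the lattice
  let Λ : Submodule 𝒪 (Fin 2 → E) :=
    Submodule.span 𝒪 {v | ∃ (g : G) (j : Fin 2), v = fun i => ρ g i j}
  have hΛstab : ∀ (h : G) (v : Fin 2 → E), v ∈ Λ → (ρ h).mulVec v ∈ Λ := by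
    intro h v hv
    induction hv using Submodule.span_induction with
    | mem v hv =>
      obtain ⟨g, j, rfl⟩ := hv
      apply Submodule.subset_span
      refine ⟨h * g, j, ?_⟩
      funext i
      rw [map_mul, Matrix.mul_apply]
      rfl
    | zero => rw [Matrix.mulVec_zero]; exact zero_mem _
    | add v w _ _ hv hw => rw [Matrix.mulVec_add]; exact add_mem hv hw
    | smul a v _ hv =>
      have : (ρ h).mulVec (a • v) = a • (ρ h).mulVec v := by
        rw [← algebraMap_smul E a v, Matrix.mulVec_smul, algebraMap_smul]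
      rw [this]
      exact Submodule.smul_mem _ _ hv
  have hΛe : ∀ j : Fin 2, (Pi.single j 1 : Fin 2 → E) ∈ Λ := by
    intro j
    apply Submodule.subset_span
    refine ⟨1, j, ?_⟩
    funext i
    rw [map_one, Matrix.one_apply, Pi.single_apply]
  -- `φ : 𝒪² → E²`, `w ↦ b⁻¹ w`
  let φ : (Fin 2 → 𝒪) →ₗ[𝒪] (Fin 2 → E) :=
    { toFun := fun w i => (algebraMap 𝒪 E b)⁻¹ * algebraMap 𝒪 E (w i)
      map_add' := by intro v w; funext i; simp [mul_add]
      map_smul' := by
        intro a w; funext i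
        simp only [Pi.smul_apply, smul_eq_mul, map_mul, RingHom.id_apply, Algebra.smul_def]
        ring }
  have hφ : ∀ w i, φ w i = (algebraMap 𝒪 E b)⁻¹ * algebraMap 𝒪 E (w i) := fun _ _ => rfl
  have hφinj : Function.Injective φ := by
    intro v w hvw
    funext i
    have := congrFun hvw i
    rw [hφ, hφ] at this
    exact hinj (mul_left_cancel₀ (inv_ne_zero hbE) this)
  have hΛφ : ∀ v ∈ Λ, ∃ w, φ w = v := by
    intro v hv
    induction hv using Submodule.span_induction with
    | mem v hv =>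
      obtain ⟨g, j, rfl⟩ := hv
      choose y hy using fun i => hbd g i j
      refine ⟨y, ?_⟩
      funext i
      rw [hφ, hy, ← mul_assoc, inv_mul_cancel₀ hbE, one_mul]
    | zero => exact ⟨0, map_zero _⟩
    | add v w _ _ hv hw =>
      obtain ⟨v', rfl⟩ := hv
      obtain ⟨w', rfl⟩ := hw
      exact ⟨v' + w', map_add _ _ _⟩
    | smul a v _ hv =>
      obtain ⟨v', rfl⟩ := hv
      exact ⟨a • v', map_smul _ _ _⟩
  let N : Submodule 𝒪 (Fin 2 → 𝒪) := Λ.comap φ
  obtain ⟨n, ⟨β⟩⟩ := N.nonempty_basis_of_pid (Pi.basisFun 𝒪 (Fin 2))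
  have hn : n = 2 := by
    have h1 : Module.finrank 𝒪 N = n := by
      rw [Module.finrank_eq_card_basis β, Fintype.card_fin]
    apply le_antisymm
    · rw [← h1]
      exact (Submodule.finrank_le N).trans (by rw [Module.finrank_fin_fun])
    · have hmem : ∀ j : Fin 2, (Pi.single j b : Fin 2 → 𝒪) ∈ N := by
        intro j
        change φ (Pi.single j b) ∈ Λ
        have : φ (Pi.single j b) = Pi.single j 1 := by
          funext i
          rw [hφ]
          by_cases hij : i = j
          · subst hij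
            rw [Pi.single_eq_same, Pi.single_eq_same, inv_mul_cancel₀ hbE]
          · rw [Pi.single_eq_of_ne hij, Pi.single_eq_of_ne hij, map_zero, mul_zero]
        rw [this]
        exact hΛe j
      have hli : LinearIndependent 𝒪 (fun j : Fin 2 => (⟨Pi.single j b, hmem j⟩ : N)) := by
        rw [Fintype.linearIndependent_iff]
        intro c hc i
        have h2 := congrArg (fun v : N => (v : Fin 2 → 𝒪) i) hc
        simp only [Submodule.coe_sum, Submodule.coe_smul, Finset.sum_apply, Pi.smul_apply,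
          smul_eq_mul, Submodule.coe_zero, Pi.zero_apply] at h2
        rw [Finset.sum_eq_single i] at h2
        · rw [Pi.single_eq_same] at h2
          exact (mul_eq_zero.mp h2).resolve_right hb
        · intro j _ hj
          rw [Pi.single_eq_of_ne hj.symm, mul_zero]
        · intro h; exact absurd (Finset.mem_univ i) h
      have := hli.fintype_card_le_finrank
      rwa [Fintype.card_fin, h1] at this
  subst hn
  -- the matrix of the basis
  let B : Matrix (Fin 2) (Fin 2) E := fun i j => φ (β j : Fin 2 → 𝒪) i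
  -- every element of `Λ` is an integral combination of the columns of `B`
  have hcomb : ∀ v ∈ Λ, ∃ m : Fin 2 → 𝒪, v = B.mulVec (fun j => algebraMap 𝒪 E (m j)) := by
    intro v hv
    obtain ⟨w, rfl⟩ := hΛφ v hv
    have hwN : w ∈ N := hv
    refine ⟨fun j => β.repr ⟨w, hwN⟩ j, ?_⟩
    have h4 : (⟨w, hwN⟩ : N) = ∑ j, β.repr ⟨w, hwN⟩ j • β j := (β.sum_repr _).symm
    have h5 : w = ∑ j, β.repr ⟨w, hwN⟩ j • (β j : Fin 2 → 𝒪) := by
      have := congrArg (fun v : N => (v : Fin 2 → 𝒪)) h4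
      simp only [Submodule.coe_sum, Submodule.coe_smul] at this
      exact this
    funext i
    conv_lhs => rw [h5]
    rw [map_sum, Finset.sum_apply, Matrix.mulVec, dotProduct]
    refine Finset.sum_congr rfl fun j _ => ?_
    rw [map_smul, Pi.smul_apply, Algebra.smul_def, mul_comm]
  have hBΛ : ∀ j, (fun i => B i j) ∈ Λ := fun j => (β j).2
  -- inverse of `B`
  choose C hC using fun j => hcomb _ (hΛe j)
  let B' : Matrix (Fin 2) (Fin 2) E := fun i j => algebraMap 𝒪 E (C j i)
  have hBB' : B * B' = 1 := by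
    ext i j
    have := congrFun (hC j) i
    rw [Matrix.mul_apply, Matrix.one_apply]
    rw [Pi.single_apply, Matrix.mulVec, dotProduct] at this
    rw [← this]
  have hB'B : B' * B = 1 := mul_eq_one_comm.mp hBB'
  -- the integral matrices
  have hM : ∀ g, ∃ m : Matrix (Fin 2) (Fin 2) 𝒪, m.map (algebraMap 𝒪 E) = B' * ρ g * B := by
    intro g
    choose m hm using fun j => hcomb _ (hΛstab g _ (hBΛ j))
    refine ⟨fun i j => m j i, ?_⟩
    have h1 : ρ g * B = B * (Matrix.of fun i j => algebraMap 𝒪 E (m j i)) := by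
      ext i j
      have := congrFun (hm j) i
      rw [Matrix.mul_apply, Matrix.mul_apply]
      rw [Matrix.mulVec, dotProduct, Matrix.mulVec, dotProduct] at this
      exact this
    rw [mul_assoc, h1, ← mul_assoc, hB'B, one_mul]
    rfl
  choose M hM using hM
  have hmapinj : Function.Injective
      (fun m : Matrix (Fin 2) (Fin 2) 𝒪 => m.map (algebraMap 𝒪 E)) := by
    intro m m' h
    ext i j
    have := congrFun (congrFun h i) j
    exact hinj this
  refine ⟨B, B', { toFun := M, map_one' := ?_, map_mul' := ?_ }, hBB', hB'B, hM⟩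
  · apply hmapinj
    change (M 1).map (algebraMap 𝒪 E) = (1 : Matrix (Fin 2) (Fin 2) 𝒪).map (algebraMap 𝒪 E)
    rw [hM, map_one, mul_one, hB'B, Matrix.map_one _ (map_zero _) (map_one _)]
  · intro g h
    apply hmapinj
    change (M (g * h)).map (algebraMap 𝒪 E) = (M g * M h).map (algebraMap 𝒪 E)
    rw [Matrix.map_mul, hM, hM, hM, map_mul]
    calc B' * (ρ g * ρ h) * B = B' * ρ g * 1 * ρ h * B := by simp only [mul_one, mul_assoc]
      _ = B' * ρ g * (B * B') * ρ h * B := by rw [hBB']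
      _ = _ := by simp only [mul_assoc]

section PSM

open TensorProduct

variable {𝒪 : Type} [CommRing 𝒪] {G : Type} [Group G]

/-- `2 a(g)`. -/
def psA2 (t : G → 𝒪) (c : G) (g : G) : 𝒪 := t g + t (g * c)
/-- `2 d(g)`. -/
def psD2 (t : G → 𝒪) (c : G) (g : G) : 𝒪 := t g - t (g * c)
/-- `4 x(g,h)`. -/
def psX4 (t : G → 𝒪) (c : G) (g h : G) : 𝒪 := 2 * psA2 t c (g * h) - psA2 t c g * psA2 t c h

theorem psA2_sub_mem (t : G → 𝒪) (c : G) (I : Ideal 𝒪) (σ : G)
    (H : ∀ g h, t (g * σ * h) - t (g * h) ∈ I) (g h : G) :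
    psA2 t c (g * σ * h) - psA2 t c (g * h) ∈ I := by
  have h1 := H g h
  have h2 := H g (h * c)
  have : psA2 t c (g * σ * h) - psA2 t c (g * h) =
      (t (g * σ * h) - t (g * h)) + (t (g * σ * (h * c)) - t (g * (h * c))) := by
    unfold psA2
    simp only [mul_assoc]
    ring
  rw [this]
  exact add_mem h1 h2

theorem psD2_sub_mem (t : G → 𝒪) (c : G) (I : Ideal 𝒪) (σ : G)
    (H : ∀ g h, t (g * σ * h) - t (g * h) ∈ I) (g h : G) :
    psD2 t c (g * σ * h) - psD2 t c (g * h) ∈ I := by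
  have h1 := H g h
  have h2 := H g (h * c)
  have : psD2 t c (g * σ * h) - psD2 t c (g * h) =
      (t (g * σ * h) - t (g * h)) - (t (g * σ * (h * c)) - t (g * (h * c))) := by
    unfold psD2
    simp only [mul_assoc]
    ring
  rw [this]
  exact sub_mem h1 h2

theorem psX4_left_sub_mem (t : G → 𝒪) (c : G) (I : Ideal 𝒪) (σ : G)
    (H : ∀ g h, t (g * σ * h) - t (g * h) ∈ I) (h : G) :
    psX4 t c σ h - psX4 t c 1 h ∈ I := by
  have h1 := psA2_sub_mem t c I σ H 1 h
  have h2 := psA2_sub_mem t c I σ H 1 1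
  simp only [one_mul, mul_one] at h1 h2
  have : psX4 t c σ h - psX4 t c 1 h =
      2 * (psA2 t c (σ * h) - psA2 t c h) - (psA2 t c σ - psA2 t c 1) * psA2 t c h := by
    unfold psX4
    simp only [one_mul]
    ring
  rw [this]
  exact sub_mem (I.mul_mem_left _ h1) (I.mul_mem_right _ h2)

theorem psX4_right_sub_mem (t : G → 𝒪) (c : G) (I : Ideal 𝒪) (σ : G)
    (H : ∀ g h, t (g * σ * h) - t (g * h) ∈ I) (g : G) :
    psX4 t c g σ - psX4 t c g 1 ∈ I := by
  have h1 := psA2_sub_mem t c I σ H g 1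
  have h2 := psA2_sub_mem t c I σ H 1 1
  simp only [one_mul, mul_one] at h1 h2
  have : psX4 t c g σ - psX4 t c g 1 =
      2 * (psA2 t c (g * σ) - psA2 t c g) - psA2 t c g * (psA2 t c σ - psA2 t c 1) := by
    unfold psX4
    simp only [mul_one]
    ring
  rw [this]
  exact sub_mem (I.mul_mem_left _ h1) (I.mul_mem_left _ h2)

variable {E : Type} [Field E] [Algebra 𝒪 E]

theorem psA_eq (t : G → 𝒪) (c g : G) :
    psA (fun g => algebraMap 𝒪 E (t g)) c g = algebraMap 𝒪 E (psA2 t c g) / 2 := by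
  unfold psA psA2
  rw [map_add]

theorem psD_eq (t : G → 𝒪) (c g : G) :
    psD (fun g => algebraMap 𝒪 E (t g)) c g = algebraMap 𝒪 E (psD2 t c g) / 2 := by
  unfold psD psD2
  rw [map_sub]

theorem psX_eq (h2 : (2 : E) ≠ 0) (t : G → 𝒪) (c g h : G) :
    psX (fun g => algebraMap 𝒪 E (t g)) c g h = algebraMap 𝒪 E (psX4 t c g h) / 4 := by
  have h4 : (4 : E) ≠ 0 := by
    have : (4 : E) = 2 * 2 := by norm_num
    rw [this]; exact mul_ne_zero h2 h2
  unfold psX psX4
  rw [psA_eq, psA_eq, psA_eq, map_sub, map_mul, map_mul, map_ofNat]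
  field_simp
  ring

end PSM

section PSM2

open TensorProduct

variable {𝒪 : Type} [CommRing 𝒪] [IsDomain 𝒪] {G : Type} [Group G]
  {X : Type} [AddCommGroup X] [Module 𝒪 X]

/-- base change of the action to `E`. -/
noncomputable def psBC (E : Type) [Field E] [Algebra 𝒪 E] (r : G →* Module.End 𝒪 X) :
    G →* Module.End E (E ⊗[𝒪] X) where
  toFun g := (r g).baseChange E
  map_one' := by
    rw [map_one]
    exact LinearMap.baseChange_id
  map_mul' g h := by
    rw [map_mul]
    exact LinearMap.baseChange_comp _ _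

theorem psBC_tmul (E : Type) [Field E] [Algebra 𝒪 E] (r : G →* Module.End 𝒪 X) (g : G) (e : E)
    (x : X) : psBC E r g (e ⊗ₜ x) = e ⊗ₜ (r g x) := rfl

theorem psBC_rel (E : Type) [Field E] [Algebra 𝒪 E] (r : G →* Module.End 𝒪 X) (δ : G →* 𝒪ˣ)
    (t : G → 𝒪) (hrel : ∀ (g : G) (x : X), r g (r g x) - t g • r g x + (δ g : 𝒪) • x = 0)
    (g : G) (z : E ⊗[𝒪] X) :
    psBC E r g (psBC E r g z) - algebraMap 𝒪 E (t g) • psBC E r g z +
      algebraMap 𝒪 E (δ g : 𝒪) • z = 0 := by
  induction z using TensorProduct.induction_on with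
  | zero => simp
  | tmul e x =>
    rw [psBC_tmul, psBC_tmul, algebraMap_smul, algebraMap_smul, ← TensorProduct.tmul_smul,
      ← TensorProduct.tmul_smul, ← TensorProduct.tmul_sub, ← TensorProduct.tmul_add, hrel,
      TensorProduct.tmul_zero]
  | add z w hz hw =>
    simp only [map_add, smul_add]
    have : ∀ a b c a' b' c' : E ⊗[𝒪] X, a + a' - (b + b') + (c + c') = (a - b + c) + (a' - b' + c') := by
      intros; abel
    rw [this, hz, hw, add_zero]

theorem psBC_nontrivial (E : Type) [Field E] [Algebra 𝒪 E] [IsFractionRing 𝒪 E] [Nontrivial X]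
    (htf : ∀ (a : 𝒪) (x : X), a • x = 0 → a = 0 ∨ x = 0) : Nontrivial (E ⊗[𝒪] X) := by
  obtain ⟨x, hx⟩ := exists_ne (0 : X)
  have : IsLocalizedModule (nonZeroDivisors 𝒪) (TensorProduct.mk 𝒪 E X 1) :=
    (isLocalizedModule_iff_isBaseChange (nonZeroDivisors 𝒪) E _).mpr
      (TensorProduct.isBaseChange 𝒪 X E)
  refine ⟨⟨(1 : E) ⊗ₜ x, 0, ?_⟩⟩
  intro h
  have h1 : TensorProduct.mk 𝒪 E X 1 x = 0 := h
  rw [IsLocalizedModule.eq_zero_iff (nonZeroDivisors 𝒪)] at h1
  obtain ⟨a, ha⟩ := h1
  rcases htf a x ha with h2 | h2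
  · exact nonZeroDivisors.coe_ne_zero a h2
  · exact hx h2

theorem exists_bounded_rep [CharZero 𝒪] (E : Type) [Field E] [Algebra 𝒪 E] [IsFractionRing 𝒪 E]
    [Nontrivial X] (htf : ∀ (a : 𝒪) (x : X), a • x = 0 → a = 0 ∨ x = 0)
    (r : G →* Module.End 𝒪 X) (δ : G →* 𝒪ˣ) (t : G → 𝒪)
    (hrel : ∀ (g : G) (x : X), r g (r g x) - t g • r g x + (δ g : 𝒪) • x = 0)
    (c : G) (hc : c * c = 1) (hδc : (δ c : 𝒪) = -1) :
    ∃ (ρ : G →* Matrix (Fin 2) (Fin 2) E) (b : 𝒪) (P : G → Matrix (Fin 2) (Fin 2) 𝒪), b ≠ 0 ∧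
      (∀ g i j, algebraMap 𝒪 E (P g i j) = algebraMap 𝒪 E b * ρ g i j) ∧
      (∀ g, (ρ g).trace = algebraMap 𝒪 E (t g)) ∧
      (∀ g, (ρ g).det = algebraMap 𝒪 E (δ g : 𝒪)) ∧
      ∀ (I : Ideal 𝒪) (σ : G), (∀ g h, t (g * σ * h) - t (g * h) ∈ I) →
        ∀ i j, P σ i j - P 1 i j ∈ I := by
  have hinj : Function.Injective (algebraMap 𝒪 E) := IsFractionRing.injective 𝒪 E
  have : CharZero E := charZero_of_injective_algebraMap hinj
  have h2 : (2 : E) ≠ 0 := two_ne_zero
  have h4 : (4 : E) ≠ 0 := by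
    have : (4 : E) = 2 * 2 := by norm_num
    rw [this]; exact mul_ne_zero h2 h2
  have h2O : (2 : 𝒪) ≠ 0 := two_ne_zero
  have h4O : (4 : 𝒪) ≠ 0 := by
    have : (4 : 𝒪) = 2 * 2 := by norm_num
    rw [this]; exact mul_ne_zero h2O h2O
  have := psBC_nontrivial E htf
  set tE : G → E := fun g => algebraMap 𝒪 E (t g) with htE
  set δE : G →* Eˣ := (Units.map (algebraMap 𝒪 E : 𝒪 →* E)).comp δ with hδE
  have hδE' : ∀ g, (δE g : E) = algebraMap 𝒪 E (δ g : 𝒪) := fun g => rfl
  have htr : ∀ g, psA tE c g + psD tE c g = tE g := by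
    intro g
    unfold psA psD
    field_simp
    ring
  rcases pseudo_field h2 (psBC E r) δE tE (psBC_rel E r δ t hrel) c hc
    (by rw [hδE', hδc, map_neg, map_one]) with ⟨g₀, h₀, hx, h1, hmul, hdet⟩ | ⟨ha, hd, ha1, hd1, had⟩
  · set y₀ : 𝒪 := psX4 t c g₀ h₀ with hy₀
    have hxy : psX tE c g₀ h₀ = algebraMap 𝒪 E y₀ / 4 := psX_eq h2 t c g₀ h₀
    have hy₀E : algebraMap 𝒪 E y₀ ≠ 0 := by
      intro h
      rw [hxy, h, zero_div] at hx
      exact hx rfl
    have hy₀0 : y₀ ≠ 0 := by
      rintro h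
      rw [h, map_zero] at hy₀E
      exact hy₀E rfl
    refine ⟨{ toFun := psMat tE c g₀ h₀, map_one' := h1, map_mul' := hmul }, 4 * y₀,
      fun g => !![2 * y₀ * psA2 t c g, y₀ * psX4 t c g h₀; 4 * psX4 t c g₀ g, 2 * y₀ * psD2 t c g],
      mul_ne_zero h4O hy₀0, ?_, ?_, ?_, ?_⟩
    · intro g i j
      fin_cases i <;> fin_cases j
      · change algebraMap 𝒪 E (2 * y₀ * psA2 t c g) = algebraMap 𝒪 E (4 * y₀) * psA tE c g
        rw [psA_eq]
        simp only [map_mul, map_ofNat]
        field_simp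
        ring
      · change algebraMap 𝒪 E (y₀ * psX4 t c g h₀) = algebraMap 𝒪 E (4 * y₀) * psX tE c g h₀
        rw [psX_eq h2]
        simp only [map_mul, map_ofNat]
        field_simp
      · change algebraMap 𝒪 E (4 * psX4 t c g₀ g) =
          algebraMap 𝒪 E (4 * y₀) * (psX tE c g₀ g / psX tE c g₀ h₀)
        rw [psX_eq h2, hxy]
        simp only [map_mul, map_ofNat]
        field_simp
      · change algebraMap 𝒪 E (2 * y₀ * psD2 t c g) = algebraMap 𝒪 E (4 * y₀) * psD tE c g
        rw [psD_eq]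
        simp only [map_mul, map_ofNat]
        field_simp
        ring
    · intro g
      change (psMat tE c g₀ h₀ g).trace = _
      rw [Matrix.trace_fin_two]
      exact htr g
    · intro g
      exact hdet g
    · intro I σ H i j
      fin_cases i <;> fin_cases j
      · change 2 * y₀ * psA2 t c σ - 2 * y₀ * psA2 t c 1 ∈ I
        rw [← mul_sub]
        have := psA2_sub_mem t c I σ H 1 1
        simp only [one_mul, mul_one] at this
        exact I.mul_mem_left _ this
      · change y₀ * psX4 t c σ h₀ - y₀ * psX4 t c 1 h₀ ∈ I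
        rw [← mul_sub]
        exact I.mul_mem_left _ (psX4_left_sub_mem t c I σ H h₀)
      · change 4 * psX4 t c g₀ σ - 4 * psX4 t c g₀ 1 ∈ I
        rw [← mul_sub]
        exact I.mul_mem_left _ (psX4_right_sub_mem t c I σ H g₀)
      · change 2 * y₀ * psD2 t c σ - 2 * y₀ * psD2 t c 1 ∈ I
        rw [← mul_sub]
        have := psD2_sub_mem t c I σ H 1 1
        simp only [one_mul, mul_one] at this
        exact I.mul_mem_left _ this
  · refine ⟨{ toFun := fun g => !![psA tE c g, 0; 0, psD tE c g], map_one' := ?_, map_mul' := ?_ }, 2,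
      fun g => !![psA2 t c g, 0; 0, psD2 t c g], h2O, ?_, ?_, ?_, ?_⟩
    · rw [ha1, hd1]
      exact Matrix.one_fin_two.symm
    · intro g h
      rw [ha, hd, Matrix.mul_fin_two]
      simp
    · intro g i j
      fin_cases i <;> fin_cases j
      · change algebraMap 𝒪 E (psA2 t c g) = algebraMap 𝒪 E 2 * psA tE c g
        rw [psA_eq, map_ofNat]
        field_simp
      · change algebraMap 𝒪 E 0 = algebraMap 𝒪 E 2 * 0
        rw [map_zero, mul_zero]
      · change algebraMap 𝒪 E 0 = algebraMap 𝒪 E 2 * 0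
        rw [map_zero, mul_zero]
      · change algebraMap 𝒪 E (psD2 t c g) = algebraMap 𝒪 E 2 * psD tE c g
        rw [psD_eq, map_ofNat]
        field_simp
    · intro g
      change (!![psA tE c g, 0; 0, psD tE c g] : Matrix (Fin 2) (Fin 2) E).trace = _
      rw [Matrix.trace_fin_two]
      exact htr g
    · intro g
      change (!![psA tE c g, 0; 0, psD tE c g] : Matrix (Fin 2) (Fin 2) E).det = _
      rw [Matrix.det_fin_two_of, mul_zero, sub_zero, had, hδE']
    · intro I σ H i j
      fin_cases i <;> fin_cases j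
      · change psA2 t c σ - psA2 t c 1 ∈ I
        have := psA2_sub_mem t c I σ H 1 1
        simpa only [one_mul, mul_one] using this
      · change (0 : 𝒪) - 0 ∈ I
        rw [sub_zero]; exact zero_mem _
      · change (0 : 𝒪) - 0 ∈ I
        rw [sub_zero]; exact zero_mem _
      · change psD2 t c σ - psD2 t c 1 ∈ I
        have := psD2_sub_mem t c I σ H 1 1
        simpa only [one_mul, mul_one] using this

end PSM2

/-- PSM (main theorem of the algebraic part). -/
theorem exists_matrix_rep {𝒪 : Type} [CommRing 𝒪] [IsDomain 𝒪] [IsDiscreteValuationRing 𝒪]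
    [CharZero 𝒪] {G : Type} [Group G] {X : Type} [AddCommGroup X] [Module 𝒪 X] [Nontrivial X]
    (htf : ∀ (a : 𝒪) (x : X), a • x = 0 → a = 0 ∨ x = 0)
    (r : G →* Module.End 𝒪 X) (δ : G →* 𝒪ˣ) (t : G → 𝒪)
    (hrel : ∀ (g : G) (x : X), r g (r g x) - t g • r g x + (δ g : 𝒪) • x = 0)
    (c : G) (hc : c * c = 1) (hδc : (δ c : 𝒪) = -1) :
    ∃ (M : G →* Matrix (Fin 2) (Fin 2) 𝒪) (s : ℕ),
      (∀ g, (M g).trace = t g) ∧ (∀ g, (M g).det = δ g) ∧
      ∀ (n : ℕ) (σ : G), (∀ g h, t (g * σ * h) - t (g * h) ∈ maximalIdeal 𝒪 ^ (n + s)) →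
        ∀ i j, (M σ - 1) i j ∈ maximalIdeal 𝒪 ^ n := by
  classical
  let E := FractionRing 𝒪
  have hinj : Function.Injective (algebraMap 𝒪 E) := IsFractionRing.injective 𝒪 E
  obtain ⟨ρ, b, P, hb, hP, htr, hdet, hcont⟩ := exists_bounded_rep E htf r δ t hrel c hc hδc
  obtain ⟨B, B', M, hBB', hB'B, hM⟩ :=
    exists_integral_conj ρ b hb (fun g i j => ⟨P g i j, hP g i j⟩)
  -- denominators of `B`, `B'`
  obtain ⟨b₁, hb₁⟩ := IsLocalization.exist_integer_multiples_of_finite (nonZeroDivisors 𝒪)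
    (fun x : Bool × Fin 2 × Fin 2 => if x.1 then B' x.2.1 x.2.2 else B x.2.1 x.2.2)
  have hb₁0 : (b₁ : 𝒪) ≠ 0 := nonZeroDivisors.coe_ne_zero b₁
  choose B₀ hB₀ using fun i j => hb₁ (false, i, j)
  choose B₀' hB₀' using fun i j => hb₁ (true, i, j)
  simp only [Bool.false_eq_true, if_false, if_true, Algebra.smul_def] at hB₀ hB₀'
  have hB₀m : (Matrix.of B₀).map (algebraMap 𝒪 E) = algebraMap 𝒪 E b₁ • B := by
    ext i j; exact hB₀ i j
  have hB₀'m : (Matrix.of B₀').map (algebraMap 𝒪 E) = algebraMap 𝒪 E b₁ • B' := by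
    ext i j; exact hB₀' i j
  have hPm : ∀ g, (P g).map (algebraMap 𝒪 E) = algebraMap 𝒪 E b • ρ g := by
    intro g; ext i j; exact hP g i j
  obtain ⟨ϖ, hϖ⟩ := IsDiscreteValuationRing.exists_irreducible 𝒪
  set y : 𝒪 := b * (b₁ * b₁) with hy
  have hy0 : y ≠ 0 := mul_ne_zero hb (mul_ne_zero hb₁0 hb₁0)
  obtain ⟨s, u, hu⟩ := IsDiscreteValuationRing.eq_unit_mul_pow_irreducible hy0 hϖ
  have hmax : ∀ m : ℕ, maximalIdeal 𝒪 ^ m = Ideal.span {ϖ ^ m} := by
    intro m
    rw [hϖ.maximalIdeal_eq, Ideal.span_singleton_pow]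
  refine ⟨M, s, ?_, ?_, ?_⟩
  · intro g
    apply hinj
    have h1 : algebraMap 𝒪 E (M g).trace = ((M g).map (algebraMap 𝒪 E)).trace := by
      rw [Matrix.trace_fin_two, Matrix.trace_fin_two, map_add]
      rfl
    rw [h1, hM, Matrix.trace_mul_comm, ← mul_assoc, hBB', one_mul, htr]
  · intro g
    apply hinj
    have h1 : algebraMap 𝒪 E (M g).det = ((M g).map (algebraMap 𝒪 E)).det :=
      RingHom.map_det (algebraMap 𝒪 E) (M g)
    rw [h1, hM, Matrix.det_mul, Matrix.det_mul, mul_comm, ← mul_assoc, ← Matrix.det_mul, hBB',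
      Matrix.det_one, one_mul, hdet]
  · intro n σ H i j
    have hmem := hcont _ σ H
    -- the key identity
    have hkey : y • (M σ - 1) = Matrix.of B₀' * (P σ - P 1) * Matrix.of B₀ := by
      have hmapinj : Function.Injective
          (fun m : Matrix (Fin 2) (Fin 2) 𝒪 => m.map (algebraMap 𝒪 E)) := by
        intro m m' h
        ext i j
        exact hinj (congrFun (congrFun h i) j)
      apply hmapinj
      change (y • (M σ - 1)).map (algebraMap 𝒪 E) =
        (Matrix.of B₀' * (P σ - P 1) * Matrix.of B₀).map (algebraMap 𝒪 E)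
      have e0 : (P σ - P 1).map (algebraMap 𝒪 E) =
          (P σ).map (algebraMap 𝒪 E) - (P 1).map (algebraMap 𝒪 E) := by
        ext i j
        simp only [Matrix.map_apply, Matrix.sub_apply, map_sub]
      rw [Matrix.map_mul, Matrix.map_mul, hB₀m, hB₀'m, e0, hPm, hPm, map_one]
      have e1 : (y • (M σ - 1)).map (algebraMap 𝒪 E) =
          algebraMap 𝒪 E y • ((M σ).map (algebraMap 𝒪 E) - 1) := by
        ext i j
        simp only [Matrix.map_apply, Matrix.smul_apply, Matrix.sub_apply, smul_eq_mul, map_mul,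
          map_sub]
        congr 2
        by_cases hij : i = j
        · subst hij; simp
        · simp [Matrix.one_apply_ne hij]
      rw [e1, hM]
      have e2 : B' * ρ σ * B - 1 = B' * (ρ σ - 1) * B := by
        rw [mul_sub, sub_mul, mul_one, hB'B]
      rw [e2, hy, map_mul, map_mul, ← smul_sub]
      simp only [Matrix.smul_mul, Matrix.mul_smul, smul_smul]
      congr 1
      ring
    have h1 : y * (M σ - 1) i j ∈ maximalIdeal 𝒪 ^ (n + s) := by
      have := congrFun (congrFun hkey i) j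
      rw [Matrix.smul_apply, smul_eq_mul] at this
      rw [this, Matrix.mul_apply]
      refine Ideal.sum_mem _ fun a _ => Ideal.mul_mem_right _ _ ?_
      rw [Matrix.mul_apply]
      refine Ideal.sum_mem _ fun a' _ => Ideal.mul_mem_left _ _ ?_
      exact hmem a' a
    rw [hmax, Ideal.mem_span_singleton] at h1 ⊢
    rw [hu, pow_add, mul_comm (ϖ ^ n), mul_comm (u : 𝒪), mul_assoc,
      mul_dvd_mul_iff_left (pow_ne_zero _ hϖ.ne_zero)] at h1
    exact (Units.dvd_mul_left).mp h1

end Fermat.Agent.GR
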