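import Fermat.Agent.GR.Defs
import Fermat.Agent.GR.Cyclo
import Fermat.Agent.GR.Lucas

/-!
# GR: small reusable lemmas on towers (used by TRI; useful for LVL / TRF)
-/

set_option autoImplicit false

namespace Fermat.Agent.GR

open IsLocalRing

section endo

variable {M : Type*} [AddCommGroup M]

lemma end_mul_apply (f g : AddMonoid.End M) (x : M) : (f * g) x = f (g x) := rfl
lemma end_add_apply (f g : AddMonoid.End M) (x : M) : (f + g) x = f x + g x := rfl
lemma end_sub_apply (f g : AddMonoid.End M) (x : M) : (f - g) x = f x - g x := rfl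

end endo

/-- An endomorphism with image in `I V` has trace in `I`. -/
theorem trace_mem_of_forall_mem {T V : Type*} [CommRing T] [AddCommGroup V] [Module T V]
    [Module.Free T V] [Module.Finite T V] (I : Ideal T) (f : Module.End T V)
    (hf : ∀ v, f v ∈ I • (⊤ : Submodule T V)) : LinearMap.trace T V f ∈ I := by
  classical
  let b := Module.Free.chooseBasis T V
  have key : ∀ w ∈ I • (⊤ : Submodule T V), ∀ i, b.repr w i ∈ I := by
    intro w hw i
    induction hw using Submodule.smul_induction_on' with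
    | smul a ha v _ =>
      rw [map_smul, Finsupp.smul_apply, smul_eq_mul]
      exact I.mul_mem_right _ ha
    | add x _ y _ hx hy =>
      rw [map_add, Finsupp.add_apply]
      exact I.add_mem hx hy
  rw [LinearMap.trace_eq_matrix_trace T b, Matrix.trace]
  refine I.sum_mem fun i _ => ?_
  rw [Matrix.diag_apply, LinearMap.toMatrix_apply]
  exact key _ (hf _) i

/-- powers of a Frobenius lift on roots of unity -/
theorem frob_pow_root {ℓ : ℕ} (hℓ : ℓ.Prime) {P : ValuationSubring Qb} (hP : P.LiesOverPrime ℓ)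
    {σ : GQ} (hσ : P.IsFrobeniusAt σ ℓ) {m : ℕ} (hm : ¬ ℓ ∣ m) (k : ℕ) {ζ : Qb} (hζ : ζ ^ m = 1) :
    (σ ^ k) ζ = ζ ^ (ℓ ^ k) := by
  induction k generalizing ζ with
  | zero => simp
  | succ k ih =>
    rw [pow_succ, AlgEquiv.mul_apply, frob_root hℓ hP hσ hm hζ,
      ih (by rw [← pow_mul, mul_comm, pow_mul, hζ, one_pow]), ← pow_mul, pow_succ, mul_comm]

namespace Tower

variable {p N : ℕ} [NeZero N] (𝔗 : Tower p N)

/-- A number field whose absolute Galois group fixes the image of a hom `H → A n`. -/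
theorem exists_field_fixing_hom (n : ℕ) (f : 𝔗.H →+ 𝔗.A n) :
    ∃ L : IntermediateField ℚ Qb, FiniteDimensional ℚ L ∧
      ∀ σ : GQ, (∀ y ∈ L, σ y = y) → ∀ h, 𝔗.act n σ (f h) = f h := by
  classical
  let b := Module.Free.chooseBasis ℤ 𝔗.H
  choose L hL hfix using fun i => 𝔗.smooth n (f (b i))
  refine ⟨⨆ i, L i, IntermediateField.finiteDimensional_iSup_of_finite, fun σ hσ h => ?_⟩
  have h1 : ((𝔗.act n σ).comp f).toIntLinearMap = f.toIntLinearMap := by
    refine b.ext fun i => ?_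
    exact hfix i σ fun y hy => hσ y (le_iSup L i hy)
  exact congrArg (fun F => F h) h1

/-- Polynomials in `T_ℓ` are compatible with the Kummer map. -/
theorem aeval_T_ι (n : ℕ) {ℓ : ℕ} (hℓ : ℓ.Prime) (hℓN : ¬ ℓ ∣ N) (hℓp : ℓ ≠ p) (Q : Polynomial ℤ)
    (h : 𝔗.H) :
    Polynomial.aeval (𝔗.T n ℓ) Q (𝔗.ι n h) =
      𝔗.ι n (𝔗.actH (Polynomial.aeval
        (CuspForm.heckeAlgebra.T hℓ hℓN (Set.notMem_empty ℓ) :
          CuspForm.heckeAlgebra N 2 (∅ : Set ℕ)) Q) h) := by
  induction Q using Polynomial.induction_on generalizing h with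
  | C a =>
    rw [Polynomial.aeval_C, Polynomial.aeval_C, eq_intCast, eq_intCast, map_intCast,
      AddMonoid.End.intCast_apply, Module.End.intCast_apply, map_zsmul]
  | add P Q hP hQ =>
    rw [map_add, map_add, map_add, end_add_apply, LinearMap.add_apply, map_add, hP, hQ]
  | monomial k a ih =>
    rw [pow_succ, ← mul_assoc, map_mul _ _ Polynomial.X, map_mul _ _ Polynomial.X,
      Polynomial.aeval_X, Polynomial.aeval_X, map_mul 𝔗.actH,
      end_mul_apply, Module.End.mul_apply, ← 𝔗.ι_T n ℓ hℓ hℓN hℓp h, ih]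

/-- The Eichler-Shimura relation for a power of a Frobenius lift. -/
theorem frob_pow_rel (n : ℕ) {ℓ : ℕ} (hℓ : ℓ.Prime) (hℓN : ¬ ℓ ∣ N) (hℓp : ℓ ≠ p)
    {P : ValuationSubring Qb} (hP : P.LiesOverPrime ℓ) {σ : GQ} (hσ : P.IsFrobeniusAt σ ℓ)
    (k : ℕ) (x : 𝔗.A n) :
    𝔗.act n (σ ^ k) x
      - Polynomial.aeval (𝔗.T n ℓ) (luc (Polynomial.X : Polynomial ℤ) (Polynomial.C (ℓ : ℤ)) k) x
      + (ℓ ^ k) • 𝔗.act n (σ ^ k)⁻¹ x = 0 := by
  have hc : Commute (𝔗.act n σ) (𝔗.T n ℓ) := by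
    ext y
    exact (𝔗.T_act n ℓ σ y).symm
  have hrel : 𝔗.act n σ * 𝔗.act n σ - 𝔗.T n ℓ * 𝔗.act n σ + ((ℓ : ℤ) : AddMonoid.End (𝔗.A n)) = 0 := by
    ext y
    have := 𝔗.es n ℓ hℓ hℓN hℓp P hP σ hσ y
    rw [end_add_apply, end_sub_apply, end_mul_apply, end_mul_apply, AddMonoid.End.intCast_apply,
      natCast_zsmul]
    exact this
  have key := luc_relation_end (𝔗.act n σ) (𝔗.T n ℓ) (ℓ : ℤ) hc hrel k
  have key' := congrArg (fun F : AddMonoid.End (𝔗.A n) => F (𝔗.act n (σ ^ k)⁻¹ x)) key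
  have hinv : (𝔗.act n σ ^ k) (𝔗.act n (σ ^ k)⁻¹ x) = x := by
    rw [← map_pow, ← end_mul_apply, ← map_mul, mul_inv_cancel, map_one]
    rfl
  simp only [end_add_apply, end_sub_apply, end_mul_apply, hinv,
    AddMonoid.End.intCast_apply, AddMonoid.End.zero_apply] at key'
  rw [← map_pow] at key'
  rw [← key']
  congr 1
  norm_cast

end Tower

end Fermat.Agent.GR
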