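import Fermat.Agent.GR.Defs
import Fermat.Agent.GR.Cyclo
import Fermat.Agent.GR.FD
import Fermat.Agent.GR.Lucas
import Fermat.Agent.GR.TowerAux
import Fermat.Prelude.Def_CuspForm_HeckeGaloisRepDatum

/-!
# GR, pieces SAT / TRI: the trace of a Hecke-Galois datum is invariant under inertia outside `S`
-/

set_option autoImplicit false

namespace Fermat.Agent.GR

open IsLocalRing

/-- SAT.  `R ⊆ End_ℤ H` has finite index in its saturation.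
(`sat = {ν ∈ End H : ∃ m ≠ 0, m ν ∈ φ R}`; `sat / φ R` is finitely generated and torsion, so it is killed by
some `e₀ = p^c e`, `p ∤ e`.  If `φ r = p^(n+c) ν` then `ν ∈ sat`, `e₀ ν = φ r''` and `e φ r = p^n φ r''`.) -/
theorem exists_saturation_bound {R H : Type} [CommRing R] [AddCommGroup H] [Module.Free ℤ H]
    [Module.Finite ℤ H] (φ : R →+* Module.End ℤ H) (hφ : Function.Injective φ)
    (p : ℕ) (hp : p.Prime) :
    ∃ (c : ℕ) (e : ℤ), ¬ (p : ℤ) ∣ e ∧ ∀ (n : ℕ) (r : R),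
      (∀ h : H, ∃ h' : H, φ r h = (p ^ (n + c)) • h') → ∃ r' : R, e • r = (p ^ n : ℤ) • r' := by
  classical
  let M : Submodule ℤ (Module.End ℤ H) := LinearMap.range φ.toAddMonoidHom.toIntLinearMap
  have hM : ∀ ν, ν ∈ M ↔ ∃ r, φ r = ν := fun ν => Iff.rfl
  let sat : Submodule ℤ (Module.End ℤ H) :=
    { carrier := {ν | ∃ m : ℤ, m ≠ 0 ∧ m • ν ∈ M}
      add_mem' := by
        rintro a b ⟨m, hm, ha⟩ ⟨m', hm', hb⟩
        refine ⟨m * m', mul_ne_zero hm hm', ?_⟩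
        rw [smul_add, mul_comm m m', mul_smul, mul_comm m' m, mul_smul]
        exact M.add_mem (M.smul_mem _ ha) (M.smul_mem _ hb)
      zero_mem' := ⟨1, one_ne_zero, by simp⟩
      smul_mem' := by
        rintro c a ⟨m, hm, ha⟩
        exact ⟨m, hm, by rw [smul_comm]; exact M.smul_mem _ ha⟩ }
  have hsat : ∀ ν, ν ∈ sat ↔ ∃ m : ℤ, m ≠ 0 ∧ m • ν ∈ M := fun ν => Iff.rfl
  obtain ⟨s, hs⟩ : sat.FG := IsNoetherian.noetherian sat
  have hs' : ∀ ν ∈ s, ∃ m : ℤ, m ≠ 0 ∧ m • ν ∈ M := fun ν hν =>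
    (hsat ν).mp (hs ▸ Submodule.subset_span hν)
  choose! mm hmm0 hmm using hs'
  obtain ⟨e₀, he₀, hkill⟩ : ∃ e₀ : ℤ, e₀ ≠ 0 ∧ ∀ ν ∈ sat, e₀ • ν ∈ M := by
    refine ⟨∏ ν ∈ s, mm ν, Finset.prod_ne_zero_iff.mpr hmm0, fun ν hν => ?_⟩
    rw [← hs] at hν
    induction hν using Submodule.span_induction with
    | mem x hx =>
      obtain ⟨d, hd⟩ := Finset.dvd_prod_of_mem mm hx
      rw [hd, mul_comm, mul_smul]
      exact M.smul_mem _ (hmm x hx)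
    | zero => simp
    | add x y _ _ hx hy => rw [smul_add]; exact M.add_mem hx hy
    | smul a x _ hx => rw [smul_comm]; exact M.smul_mem _ hx
  have hpp : Prime (p : ℤ) := Nat.prime_iff_prime_int.mp hp
  obtain ⟨e, hce, he⟩ := (FiniteMultiplicity.of_prime_left hpp he₀).exists_eq_pow_mul_and_not_dvd
  set c := multiplicity (p : ℤ) e₀ with hc
  refine ⟨c, e, he, fun n r hr => ?_⟩
  choose h' hh' using hr
  let b := Module.Free.chooseBasis ℤ H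
  let ν : Module.End ℤ H := b.constr ℤ fun i => h' (b i)
  have hν : φ r = (p ^ (n + c) : ℤ) • ν := by
    refine b.ext fun i => ?_
    rw [LinearMap.smul_apply, Module.Basis.constr_basis, hh']
    norm_cast
  have hp0 : (p : ℤ) ≠ 0 := hpp.ne_zero
  obtain ⟨r'', hr''⟩ := (hM _).mp (hkill ν ((hsat ν).mpr ⟨(p ^ (n + c) : ℤ), pow_ne_zero _ hp0,
    (hM _).mpr ⟨r, hν⟩⟩))
  refine ⟨r'', hφ ?_⟩
  rw [map_zsmul, map_zsmul, hr'', hν]
  have : (p ^ c : ℤ) • (e • (p ^ (n + c) : ℤ) • ν) = (p ^ c : ℤ) • ((p ^ n : ℤ) • e₀ • ν) := by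
    simp only [smul_smul, hce]
    congr 1
    ring
  exact smul_right_injective _ (pow_ne_zero c hp0) this

variable {p : ℕ} {N : ℕ} [NeZero N] {S : Finset ℕ}
  {𝒪 : Type} [CommRing 𝒪] [IsDomain 𝒪] [IsDiscreteValuationRing 𝒪]
  [IsAdicComplete (IsLocalRing.maximalIdeal 𝒪) 𝒪]
  {θ : CuspForm.heckeAlgebra N 2 (↑S : Set ℕ) →+* IsLocalRing.ResidueField 𝒪}
  {T : Type} [CommRing T] [IsLocalRing T] [IsNoetherianRing T]
  [IsAdicComplete (IsLocalRing.maximalIdeal T) T] [Algebra 𝒪 T] [IsLocalHom (algebraMap 𝒪 T)]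
  [Module.Finite 𝒪 T] [Module.Free 𝒪 T]

/-- The inclusion of the Hecke algebra away from `S` into the full Hecke algebra. -/
noncomputable def heckeInc (N : ℕ) [NeZero N] (S : Finset ℕ) :
    CuspForm.heckeAlgebra N 2 (↑S : Set ℕ) →+* CuspForm.heckeAlgebra N 2 (∅ : Set ℕ) :=
  (Subalgebra.inclusion (CuspForm.heckeAlgebra_mono (Set.empty_subset _))).toRingHom

theorem heckeInc_injective (N : ℕ) [NeZero N] (S : Finset ℕ) :
    Function.Injective (heckeInc N S) :=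
  Subalgebra.inclusion_injective _

theorem heckeInc_T {ℓ : ℕ} (hℓ : ℓ.Prime) (hℓN : ¬ ℓ ∣ N) (hℓS : ℓ ∉ (↑S : Set ℕ)) :
    heckeInc N S (CuspForm.heckeAlgebra.T hℓ hℓN hℓS) =
      CuspForm.heckeAlgebra.T hℓ hℓN (Set.notMem_empty ℓ) := rfl

/-- One half of TRI: `g₀` is compared with a power of a Frobenius lift. -/
theorem tri_half (hp : p.Prime) (𝔗 : Tower p N) (hpS : p ∈ S)
    (hNS : ∀ q : ℕ, q.Prime → q ∣ N → q ∈ S)
    (H : CuspForm.HeckeGaloisRepDatum N (↑S : Set ℕ) 𝒪 θ T) (n m : ℕ)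
    (L : IntermediateField ℚ Qb) [FiniteDimensional ℚ L] (g₀ : GQ) (ζ : Qb) (hζ : ζ ^ (p ^ m) = 1)
    (hζL : ζ ∈ L)
    (ha : ∀ ε : GQ, (∀ x ∈ L, ε x = x) → ∀ v : H.ρ.V,
      H.ρ.ρ ε v - v ∈ (maximalIdeal T ^ n) • (⊤ : Submodule T H.ρ.V))
    (hb : ∀ ε : GQ, (∀ x ∈ L, ε x = x) → ∀ h, 𝔗.act m ε (𝔗.ι m h) = 𝔗.ι m h)
    (hc : ∀ ε : GQ, (∀ x ∈ L, ε x = x) → ∀ h,
      𝔗.act m ε (𝔗.act m g₀⁻¹ (𝔗.ι m h)) = 𝔗.act m g₀⁻¹ (𝔗.ι m h)) :
    ∃ (D : CuspForm.heckeAlgebra N 2 (↑S : Set ℕ)) (a : ℕ),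
      LinearMap.trace T H.ρ.V (H.ρ.ρ g₀) - H.π D ∈ maximalIdeal T ^ n ∧ g₀ ζ = ζ ^ a ∧
      ∀ h, 𝔗.act m g₀ (𝔗.ι m h) - 𝔗.ι m (𝔗.actH (heckeInc N S D) h)
        + a • 𝔗.act m g₀⁻¹ (𝔗.ι m h) = 0 := by
  obtain ⟨ℓ, hℓ, hℓS, P, hP, σ, hσ, k, hk⟩ := frobenius_density L g₀ S
  have hℓN : ¬ ℓ ∣ N := fun h => hℓS (hNS ℓ hℓ h)
  have hℓp : ℓ ≠ p := fun h => hℓS (h ▸ hpS)
  have hℓS' : ℓ ∉ (↑S : Set ℕ) := by simpa using hℓS
  obtain ⟨ε, hε⟩ : ∃ ε : GQ, ε = g₀⁻¹ * σ ^ k := ⟨_, rfl⟩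
  have hεL : ∀ x ∈ L, ε x = x := by
    intro x hx
    rw [hε, AlgEquiv.mul_apply, hk x hx]
    exact g₀.symm_apply_apply x
  have hεL' : ∀ x ∈ L, ε⁻¹ x = x := by
    intro x hx
    conv_lhs => rw [← hεL x hx]
    exact ε.symm_apply_apply x
  have hσk : σ ^ k = g₀ * ε := by rw [hε, mul_inv_cancel_left]
  have hσk' : (σ ^ k)⁻¹ = ε⁻¹ * g₀⁻¹ := by rw [hσk, mul_inv_rev]
  refine ⟨luc (CuspForm.heckeAlgebra.T hℓ hℓN hℓS') (ℓ : CuspForm.heckeAlgebra N 2 (↑S : Set ℕ)) k,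
    ℓ ^ k, ?_, ?_, fun h => ?_⟩
  · have h1 : LinearMap.trace T H.ρ.V (H.ρ.ρ (σ ^ k)) =
        H.π (luc (CuspForm.heckeAlgebra.T hℓ hℓN hℓS')
          (ℓ : CuspForm.heckeAlgebra N 2 (↑S : Set ℕ)) k) := by
      rw [map_pow, trace_pow_eq_luc H.ρ.finrank_eq _ _ _ (H.charpoly_frob ℓ hℓ hℓN hℓS' P hP σ hσ),
        map_luc, map_natCast]
    rw [← h1, hσk, map_mul, ← map_sub]
    have h2 : H.ρ.ρ g₀ - H.ρ.ρ g₀ * H.ρ.ρ ε = -(H.ρ.ρ g₀ * (H.ρ.ρ ε - 1)) := by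
      rw [mul_sub, mul_one, neg_sub]
    rw [h2, map_neg, LinearMap.trace_mul_comm]
    refine neg_mem (trace_mem_of_forall_mem _ _ fun v => ?_)
    exact ha ε hεL _
  · rw [← hk ζ hζL]
    refine frob_pow_root hℓ hP hσ (fun hd => hℓp ?_) k hζ
    exact (Nat.prime_dvd_prime_iff_eq hℓ hp).mp (hℓ.dvd_of_dvd_pow hd)
  · have key := 𝔗.frob_pow_rel m hℓ hℓN hℓp hP hσ k (𝔗.ι m h)
    rw [𝔗.aeval_T_ι m hℓ hℓN hℓp, hσk', hσk, map_mul, map_mul, end_mul_apply, end_mul_apply,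
      hb ε hεL, hc ε⁻¹ hεL'] at key
    rw [map_luc, heckeInc_T, map_natCast]
    have h3 : Polynomial.aeval (CuspForm.heckeAlgebra.T hℓ hℓN (Set.notMem_empty ℓ) :
          CuspForm.heckeAlgebra N 2 (∅ : Set ℕ))
        (luc (Polynomial.X : Polynomial ℤ) (Polynomial.C (ℓ : ℤ)) k) =
        luc (CuspForm.heckeAlgebra.T hℓ hℓN (Set.notMem_empty ℓ))
          (ℓ : CuspForm.heckeAlgebra N 2 (∅ : Set ℕ)) k := by
      have := map_luc (Polynomial.aeval (CuspForm.heckeAlgebra.T hℓ hℓN (Set.notMem_empty ℓ) :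
          CuspForm.heckeAlgebra N 2 (∅ : Set ℕ))).toRingHom
          (Polynomial.X : Polynomial ℤ) (Polynomial.C (ℓ : ℤ)) k
      simpa using this
    rw [← h3]
    exact key

/-- TRI.  Paper proof.  Fix `n`; we show that the difference lies in `𝔪_T^n` (then use Hausdorffness).
`(c, e)` from SAT for `R = heckeAlgebra N 2 S`, `φ = actH ∘ inclusion`, `m = n + c`.
Let `L` be a finite extension of `ℚ` containing: the field of `H.ρ.isAdicContinuous n`; fields fixing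
`ι m h` and `g⁻¹ ι m h` for all `h` (`smooth`); a primitive `p^m`-th root of unity.  By `frobenius_density`:
`g = σ^k` and `g τ = σ'^k'` on `L`, `σ, σ'` Frobenius lifts at `ℓ, ℓ' ∉ S`; see `tri_half`. -/
theorem trace_inertia_invariant (hp : p.Prime) (𝔗 : Tower p N)
    (hp𝒪 : (p : 𝒪) ∈ IsLocalRing.maximalIdeal 𝒪) (hpS : p ∈ S)
    (hNS : ∀ q : ℕ, q.Prime → q ∣ N → q ∈ S)
    (H : CuspForm.HeckeGaloisRepDatum N (↑S : Set ℕ) 𝒪 θ T)
    (q : ℕ) (hq : q.Prime) (hqS : q ∉ S)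
    (P : ValuationSubring Qb) (hP : P.LiesOverPrime q) (τ : GQ) (hτ : τ ∈ P.inertiaSubgroupIn ℚ)
    (g : GQ) :
    LinearMap.trace T H.ρ.V (H.ρ.ρ (g * τ)) = LinearMap.trace T H.ρ.V (H.ρ.ρ g) := by
  classical
  have hqN : ¬ q ∣ N := fun h => hqS (hNS q hq h)
  have hqp : q ≠ p := fun h => hqS (h ▸ hpS)
  obtain ⟨c, e, he, hsat⟩ := exists_saturation_bound (𝔗.actH.comp (heckeInc N S))
    (𝔗.actH_inj.comp (heckeInc_injective N S)) p hp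
  rw [← sub_eq_zero]
  refine IsHausdorff.haus (inferInstance : IsHausdorff (maximalIdeal T) T) _ fun n => ?_
  rw [SModEq.zero, smul_eq_mul, Ideal.mul_top]
  obtain ⟨m, hm⟩ : ∃ m, m = n + c := ⟨_, rfl⟩
  -- the field `L`
  obtain ⟨L₁, hL₁, ha⟩ := H.ρ.isAdicContinuous n
  obtain ⟨L₂, hL₂, hb⟩ := 𝔗.exists_field_fixing_hom m (𝔗.ι m)
  obtain ⟨L₃, hL₃, hc⟩ := 𝔗.exists_field_fixing_hom m ((𝔗.act m g⁻¹).comp (𝔗.ι m))
  have : NeZero p := ⟨hp.ne_zero⟩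
  obtain ⟨ζ, hζ⟩ := HasEnoughRootsOfUnity.exists_primitiveRoot Qb (p ^ m)
  have hζi : IsIntegral ℚ ζ := ((AlgebraicClosure.isAlgebraic ℚ).isAlgebraic ζ).isIntegral
  have : FiniteDimensional ℚ (IntermediateField.adjoin ℚ {ζ}) :=
    IntermediateField.adjoin.finiteDimensional hζi
  let L : IntermediateField ℚ Qb := L₁ ⊔ L₂ ⊔ L₃ ⊔ IntermediateField.adjoin ℚ {ζ}
  have : FiniteDimensional ℚ L := inferInstance
  have hL1 : L₁ ≤ L := le_sup_left.trans (le_sup_left.trans le_sup_left)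
  have hL2 : L₂ ≤ L := le_sup_right.trans (le_sup_left.trans le_sup_left)
  have hL3 : L₃ ≤ L := le_sup_right.trans le_sup_left
  have hζL : ζ ∈ L :=
    (le_sup_right : IntermediateField.adjoin ℚ {ζ} ≤ L) (IntermediateField.mem_adjoin_simple_self ℚ ζ)
  -- `τ` acts trivially
  have hτact : ∀ x : 𝔗.A m, 𝔗.act m τ x = x := 𝔗.unram m q hq hqN hqp P hP τ hτ
  have hτact' : ∀ x : 𝔗.A m, 𝔗.act m τ⁻¹ x = x :=
    𝔗.unram m q hq hqN hqp P hP τ⁻¹ (inv_mem hτ)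
  have hgτ : ∀ x : 𝔗.A m, 𝔗.act m (g * τ) x = 𝔗.act m g x := by
    intro x
    rw [map_mul, end_mul_apply, hτact]
  have hgτ' : ∀ x : 𝔗.A m, 𝔗.act m (g * τ)⁻¹ x = 𝔗.act m g⁻¹ x := by
    intro x
    rw [mul_inv_rev, map_mul, end_mul_apply, hτact']
  obtain ⟨D₁, a₁, ht₁, hζ₁, hr₁⟩ := tri_half hp 𝔗 hpS hNS H n m L g ζ hζ.pow_eq_one hζL
    (fun ε hε => ha ε fun x hx => hε x (hL1 hx)) (fun ε hε => hb ε fun x hx => hε x (hL2 hx))
    (fun ε hε => hc ε fun x hx => hε x (hL3 hx))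
  obtain ⟨D₂, a₂, ht₂, hζ₂, hr₂⟩ := tri_half hp 𝔗 hpS hNS H n m L (g * τ) ζ hζ.pow_eq_one hζL
    (fun ε hε => ha ε fun x hx => hε x (hL1 hx)) (fun ε hε => hb ε fun x hx => hε x (hL2 hx))
    (fun ε hε h => by
      rw [hgτ']
      exact hc ε (fun x hx => hε x (hL3 hx)) h)
  -- `a₁ ≡ a₂`
  have hqm : ¬ q ∣ p ^ m := fun hd =>
    hqp ((Nat.prime_dvd_prime_iff_eq hq hp).mp (hq.dvd_of_dvd_pow hd))
  have hmod : a₁ ≡ a₂ [MOD p ^ m] := by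
    have h1 : ζ ^ a₂ = ζ ^ a₁ := by
      rw [← hζ₁, ← hζ₂, AlgEquiv.mul_apply, inertia_root hq hP hτ hqm hζ.pow_eq_one]
    have hζ0 : ζ ≠ 0 := hζ.ne_zero (pow_ne_zero _ hp.ne_zero)
    rw [Nat.modEq_iff_dvd, ← hζ.zpow_eq_one_iff_dvd, zpow_sub₀ hζ0, zpow_natCast, zpow_natCast, h1,
      div_self (pow_ne_zero _ hζ0)]
  have hsm : ∀ y : 𝔗.A m, a₁ • y = a₂ • y := by
    intro y
    obtain ⟨d, hd⟩ := (Nat.modEq_iff_dvd.mp hmod)
    have h1 : ((a₂ : ℤ) - a₁) • y = 0 := by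
      rw [hd, mul_comm, mul_smul]
      have := 𝔗.pow_smul m y
      rw [show ((p ^ m : ℕ) : ℤ) • y = (p ^ m) • y from natCast_zsmul _ _, this, smul_zero]
    rw [sub_smul, natCast_zsmul, natCast_zsmul, sub_eq_zero] at h1
    exact h1.symm
  -- the difference of the Hecke operators
  obtain ⟨r', hr'⟩ := hsat n (D₁ - D₂) (fun h => by
    rw [← hm]
    apply 𝔗.ι_ker m
    have h1 := hr₁ h
    have h2 := hr₂ h
    rw [hgτ, hgτ', ← hsm] at h2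
    rw [RingHom.comp_apply, map_sub, map_sub, LinearMap.sub_apply, map_sub]
    have h3 := h1.trans h2.symm
    rw [add_left_inj, sub_right_inj] at h3
    rw [h3, sub_self])
  have hpT : (p : T) ∈ maximalIdeal T := by
    rw [← map_natCast (algebraMap 𝒪 T)]
    exact map_nonunit (algebraMap 𝒪 T) _ hp𝒪
  have heT : IsUnit (e : T) := by
    have hpp : Prime (p : ℤ) := Nat.prime_iff_prime_int.mp hp
    obtain ⟨u, v, huv⟩ := (Prime.coprime_iff_not_dvd hpp).mpr he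
    have h1 : (v : T) * (e : T) = 1 - (u : T) * (p : T) := by
      have := congrArg (Int.cast : ℤ → T) huv
      push_cast at this
      linear_combination this
    have h2 : IsUnit ((v : T) * (e : T)) := by
      rw [h1]
      exact IsLocalRing.isUnit_one_sub_self_of_mem_nonunits _ (Ideal.mul_mem_left _ _ hpT)
    exact isUnit_of_mul_isUnit_right h2
  have hπ : H.π (D₁ - D₂) ∈ maximalIdeal T ^ n := by
    have h1 := congrArg H.π hr'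
    rw [map_zsmul, map_zsmul, zsmul_eq_mul, zsmul_eq_mul] at h1
    rw [← Ideal.unit_mul_mem_iff_mem _ heT, h1]
    push_cast
    exact Ideal.mul_mem_right _ _ (Ideal.pow_mem_pow hpT n)
  have : LinearMap.trace T H.ρ.V (H.ρ.ρ (g * τ)) - LinearMap.trace T H.ρ.V (H.ρ.ρ g) =
      (LinearMap.trace T H.ρ.V (H.ρ.ρ (g * τ)) - H.π D₂) -
        (LinearMap.trace T H.ρ.V (H.ρ.ρ g) - H.π D₁) - H.π (D₁ - D₂) := by
    rw [map_sub]; ring
  rw [this]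
  exact sub_mem (sub_mem ht₂ ht₁) hπ

end Fermat.Agent.GR
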